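import Mathlib
import Fermat.Agent.S34.H46.NodeDefs

/-!
# The dichotomy node / split (helper36; (D1) of report #2491, Program B', S34)

`S` a noetherian local domain with `m_S = (q, θ)`, `q` a prime element (the local ring of the
level-`M` chart at a closed point, over an unramified base), `R` a domain, finite over `S` (the
semilocal ring of the level-`qM` chart over that point), `P1`, `P2` two primes of `R` with
`P1 ∩ P2 = qR`, `R/P1 = S/q`, and an element `x ∈ P1` with `x^q = θ` on `R/P2` which generates the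
fraction field of `R/P2` over that of `S/q` (`PreNode`: the fields of helper46's `NodeHyp` except
`max_R` and the locality of `R`, plus `frac2`).

* `PreNode.surj2` : `R/P2 = (S/q)[x]` (the image of `S[X]` is a discrete valuation ring with
  uniformiser `x`, and `R/P2` is integral over it inside its fraction field);
* `PreNode.dichotomy` : either `P1 + P2 = R` (split: two maximal ideals, both smooth) or `R` is
  local and `NodeHyp q S R θ P1 P2 x` holds (node);
* `PreNode.split_local` : in the split case, the localisation `T` of `R` at any maximal ideal `n`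
  has `qT` prime and maximal ideal `(q, t)` with `t ∉ qT` (`t = θ` on `P1`, `t = x` on `P2`):
  a smooth point.

Mathlib only (plus the definition `NodeHyp`).
-/

set_option autoImplicit false
set_option linter.unusedSectionVars false
set_option linter.style.haveILetI false

namespace Fermat.Agent.S34.H36

open Ideal IsLocalRing Polynomial

/-- The hypotheses of the dichotomy: the fields of `H46.NodeHyp` except `max_R` (and without
assuming `R` local), plus `frac2`: the fraction field of `R/P2` is generated by `x`. -/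
structure PreNode (q : ℕ) (S R : Type*) [CommRing S] [CommRing R] [Algebra S R]
    [IsLocalRing S] (θ : S) (P1 P2 : Ideal R) (x : R) : Prop where
  /-- `2 ≤ q`. -/
  two_le : 2 ≤ q
  /-- `q` is a prime element of `S`. -/
  prime_q : Prime (q : S)
  /-- the maximal ideal of `S` is `(q, θ)`. -/
  max_S : maximalIdeal S = Ideal.span {(q : S), θ}
  /-- `S ⊆ R`. -/
  inj : Function.Injective (algebraMap S R)
  /-- `P1` is prime. -/
  prime1 : P1.IsPrime
  /-- `P2` is prime. -/
  prime2 : P2.IsPrime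
  /-- `P1 ∩ P2 = qR`. -/
  inf_eq : P1 ⊓ P2 = Ideal.span {(q : R)}
  /-- `S → R/P1` is surjective. -/
  surj1 : ∀ r : R, ∃ s : S, r - algebraMap S R s ∈ P1
  /-- `P1 ∩ S = qS`. -/
  comap1 : ∀ s : S, algebraMap S R s ∈ P1 → (q : S) ∣ s
  /-- `x ∈ P1`. -/
  x_mem1 : x ∈ P1
  /-- `x ∉ P2`. -/
  x_not_mem2 : x ∉ P2
  /-- `x^q = θ` on `R/P2`. -/
  x_pow : x ^ q - algebraMap S R θ ∈ P2
  /-- the fraction field of `R/P2` is generated by the image of `x`. -/
  frac2 : ∀ r : R, ∃ d f : S[X], aeval x d ∉ P2 ∧ aeval x d * r - aeval x f ∈ P2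

section Basic

variable {q : ℕ} {S R : Type*} [CommRing S] [CommRing R] [Algebra S R] [IsLocalRing S]
  {θ : S} {P1 P2 : Ideal R} {x : R}

theorem PreNode.q_mem1 (h : PreNode q S R θ P1 P2 x) : (q : R) ∈ P1 := by
  have h1 : (q : R) ∈ P1 ⊓ P2 := by
    rw [h.inf_eq]
    exact Ideal.mem_span_singleton_self _
  exact h1.1

theorem PreNode.q_mem2 (h : PreNode q S R θ P1 P2 x) : (q : R) ∈ P2 := by
  have h1 : (q : R) ∈ P1 ⊓ P2 := by
    rw [h.inf_eq]
    exact Ideal.mem_span_singleton_self _
  exact h1.2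

theorem PreNode.theta_mem (h : PreNode q S R θ P1 P2 x) : θ ∈ maximalIdeal S := by
  rw [h.max_S]
  exact Ideal.subset_span (Set.mem_insert_of_mem _ rfl)

theorem PreNode.q_mem (h : PreNode q S R θ P1 P2 x) : (q : S) ∈ maximalIdeal S := by
  rw [h.max_S]
  exact Ideal.subset_span (Set.mem_insert _ _)

/-- The image of the maximal ideal of `S` lies in `P2 + (x)`. -/
theorem PreNode.algebraMap_mem_sup2 (h : PreNode q S R θ P1 P2 x) {s : S}
    (hs : s ∈ maximalIdeal S) : algebraMap S R s ∈ P2 ⊔ Ideal.span {x} := by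
  rw [h.max_S] at hs
  obtain ⟨a, b, rfl⟩ := Ideal.mem_span_pair.mp hs
  have hq : 1 ≤ q := le_trans (by norm_num) h.two_le
  have e : algebraMap S R (a * (q : S) + b * θ)
      = (algebraMap S R a * (q : R) - algebraMap S R b * (x ^ q - algebraMap S R θ))
        + algebraMap S R b * x ^ (q - 1) * x := by
    have hx : x ^ q = x ^ (q - 1) * x := by
      rw [← pow_succ, Nat.sub_add_cancel hq]
    rw [map_add, map_mul, map_mul, map_natCast, hx]
    ring
  rw [e]
  refine Ideal.add_mem _ (Ideal.mem_sup_left ?_) (Ideal.mem_sup_right ?_)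
  · exact P2.sub_mem (P2.mul_mem_left _ h.q_mem2) (P2.mul_mem_left _ h.x_pow)
  · exact Ideal.mul_mem_left _ _ (Ideal.mem_span_singleton_self x)

/-- The image of the maximal ideal of `S` lies in `P1 + (θ)`. -/
theorem PreNode.algebraMap_mem_sup1 (h : PreNode q S R θ P1 P2 x) {s : S}
    (hs : s ∈ maximalIdeal S) : algebraMap S R s ∈ P1 ⊔ Ideal.span {algebraMap S R θ} := by
  rw [h.max_S] at hs
  obtain ⟨a, b, rfl⟩ := Ideal.mem_span_pair.mp hs
  rw [map_add, map_mul, map_mul, map_natCast]
  refine Ideal.add_mem _ (Ideal.mem_sup_left ?_) (Ideal.mem_sup_right ?_)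
  · exact P1.mul_mem_left _ h.q_mem1
  · exact Ideal.mul_mem_left _ _ (Ideal.mem_span_singleton_self _)

end Basic

section Integral

variable {q : ℕ} {S R : Type*} [CommRing S] [CommRing R] [Algebra S R] [IsLocalRing S]
  [Algebra.IsIntegral S R] {θ : S} {P1 P2 : Ideal R} {x : R}

/-- Every maximal ideal of `R` contains the image of the maximal ideal of `S`. -/
theorem algebraMap_mem_of_isMaximal (n : Ideal R) [n.IsMaximal] {s : S}
    (hs : s ∈ maximalIdeal S) : algebraMap S R s ∈ n := by
  have h1 : (n.comap (algebraMap S R)).IsMaximal :=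
    Ideal.isMaximal_comap_of_isIntegral_of_isMaximal n
  have h2 := IsLocalRing.eq_maximalIdeal h1
  have h3 : s ∈ n.comap (algebraMap S R) := by
    rw [h2]
    exact hs
  exact h3

/-- A maximal ideal containing `P2` contains `x`. -/
theorem PreNode.x_mem_of_le (h : PreNode q S R θ P1 P2 x) (n : Ideal R) [hn : n.IsMaximal]
    (hle : P2 ≤ n) : x ∈ n := by
  have hθ : algebraMap S R θ ∈ n := algebraMap_mem_of_isMaximal n h.theta_mem
  have h1 : x ^ q ∈ n := by
    have h2 := n.add_mem (hle h.x_pow) hθ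
    rwa [sub_add_cancel] at h2
  exact hn.isPrime.mem_of_pow_mem _ h1

omit [IsLocalRing S] [Algebra.IsIntegral S R] in
/-- A unit of `S` is not in a proper ideal of `R`. -/
theorem algebraMap_notMem_of_isUnit (I : Ideal R) (hI : I ≠ ⊤) {s : S} (hs : IsUnit s) :
    algebraMap S R s ∉ I := fun hmem =>
  hI (Ideal.eq_top_of_isUnit_mem _ hmem (hs.map (algebraMap S R)))

/-- A proper ideal containing `P1` lies in `P1 + (θ)`. -/
theorem PreNode.le_sup1 (h : PreNode q S R θ P1 P2 x) (I : Ideal R) (hI : I ≠ ⊤)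
    (hle : P1 ≤ I) : I ≤ P1 ⊔ Ideal.span {algebraMap S R θ} := by
  intro i hi
  obtain ⟨s, hs⟩ := h.surj1 i
  have hsI : algebraMap S R s ∈ I := by
    have h1 := I.sub_mem hi (hle hs)
    rwa [sub_sub_cancel] at h1
  have hsm : s ∈ maximalIdeal S := by
    by_contra hns
    exact algebraMap_notMem_of_isUnit I hI (IsLocalRing.notMem_maximalIdeal.mp hns) hsI
  have h2 := Ideal.add_mem _ (Ideal.mem_sup_left hs) (h.algebraMap_mem_sup1 hsm)
  rwa [sub_add_cancel] at h2

end Integral

/-! ### `R/P2 = (S/q)[x]` -/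

section Surj2

variable {q : ℕ} {S R : Type*} [CommRing S] [CommRing R] [Algebra S R] [IsLocalRing S]
  {θ : S} {P1 P2 : Ideal R} {x : R}

/-- Evaluation at `x` modulo `P2`. -/
noncomputable def evalQ (S : Type*) {R : Type*} [CommRing S] [CommRing R] [Algebra S R]
    (P2 : Ideal R) (x : R) : S[X] →+* R ⧸ P2 :=
  (Ideal.Quotient.mk P2).comp (aeval x : S[X] →ₐ[S] R).toRingHom

theorem evalQ_apply (f : S[X]) : evalQ S P2 x f = Ideal.Quotient.mk P2 (aeval x f) := rfl

/-- The image of `S[X]` in `R/P2`, as a quotient of `S[X]`. -/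
abbrev ImgQ (S : Type*) {R : Type*} [CommRing S] [CommRing R] [Algebra S R]
    (P2 : Ideal R) (x : R) : Type _ :=
  S[X] ⧸ RingHom.ker (evalQ S P2 x)

/-- The embedding of the image into `R/P2`. -/
noncomputable def incQ (S : Type*) {R : Type*} [CommRing S] [CommRing R] [Algebra S R]
    (P2 : Ideal R) (x : R) : ImgQ S P2 x →+* R ⧸ P2 :=
  RingHom.kerLift (evalQ S P2 x)

theorem incQ_mk (f : S[X]) :
    incQ S P2 x (Ideal.Quotient.mk _ f) = Ideal.Quotient.mk P2 (aeval x f) := rfl

theorem incQ_injective : Function.Injective (incQ S P2 x) :=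
  RingHom.kerLift_injective _

theorem PreNode.mk_natCast (h : PreNode q S R θ P1 P2 x) :
    (Ideal.Quotient.mk (RingHom.ker (evalQ S P2 x)) (C (q : S)) : ImgQ S P2 x) = 0 := by
  apply incQ_injective
  rw [incQ_mk, map_zero, aeval_C, map_natCast, Ideal.Quotient.eq_zero_iff_mem]
  exact h.q_mem2

theorem PreNode.mk_theta (h : PreNode q S R θ P1 P2 x) :
    (Ideal.Quotient.mk (RingHom.ker (evalQ S P2 x)) (C θ) : ImgQ S P2 x)
      = (Ideal.Quotient.mk (RingHom.ker (evalQ S P2 x)) X) ^ q := by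
  apply incQ_injective
  rw [map_pow, incQ_mk, incQ_mk, aeval_C, aeval_X, ← map_pow]
  refine (Ideal.Quotient.eq.mpr ?_).symm
  exact h.x_pow

end Surj2

section Surj2Core

variable {q : ℕ} {S R : Type*} [CommRing S] [CommRing R] [IsDomain R] [Algebra S R]
  [IsLocalRing S] [IsNoetherianRing S] [Module.Finite S R] {θ : S} {P1 P2 : Ideal R} {x : R}

/-- The class of `X` in the image of `S[X]`. -/
noncomputable def xiQ (S : Type*) {R : Type*} [CommRing S] [CommRing R] [Algebra S R]
    (P2 : Ideal R) (x : R) : ImgQ S P2 x :=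
  Ideal.Quotient.mk _ X

theorem incQ_xiQ : incQ S P2 x (xiQ S P2 x) = Ideal.Quotient.mk P2 x := by
  rw [xiQ, incQ_mk, aeval_X]

/-- The image of `S[X]` in `R/P2` is finite over `S`. -/
theorem PreNode.finite_imgQ (h : PreNode q S R θ P1 P2 x) : Module.Finite S (ImgQ S P2 x) := by
  have hq : q ≠ 0 := by
    have := h.two_le
    omega
  have hmonic : (X ^ q - C θ : S[X]).Monic := monic_X_pow_sub_C θ hq
  have hfin : Module.Finite S (AdjoinRoot (X ^ q - C θ : S[X])) := hmonic.finite_adjoinRoot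
  have hle : Ideal.span {(X ^ q - C θ : S[X])} ≤ RingHom.ker (evalQ S P2 x) := by
    rw [Ideal.span_singleton_le_iff_mem, RingHom.mem_ker, evalQ_apply, map_sub, map_pow, aeval_X,
      aeval_C, Ideal.Quotient.eq_zero_iff_mem]
    exact h.x_pow
  exact Module.Finite.of_surjective (hM := hfin)
    (Ideal.Quotient.factorₐ S hle).toLinearMap (Ideal.Quotient.factor_surjective hle)

/-- `x` lies in every maximal ideal of the image of `S[X]`. -/
theorem PreNode.xiQ_mem_of_isMaximal (h : PreNode q S R θ P1 P2 x) (m : Ideal (ImgQ S P2 x))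
    [hm : m.IsMaximal] : xiQ S P2 x ∈ m := by
  haveI := h.finite_imgQ
  have h1 : algebraMap S (ImgQ S P2 x) θ ∈ m := algebraMap_mem_of_isMaximal m h.theta_mem
  have h2 : algebraMap S (ImgQ S P2 x) θ = (xiQ S P2 x) ^ q := h.mk_theta
  rw [h2] at h1
  exact hm.isPrime.mem_of_pow_mem _ h1

/-- An element of the image of `S[X]` is a unit or divisible by `x`. -/
theorem PreNode.isUnit_or_dvd (h : PreNode q S R θ P1 P2 x) (e : ImgQ S P2 x) :
    IsUnit e ∨ xiQ S P2 x ∣ e := by
  obtain ⟨f, rfl⟩ := Ideal.Quotient.mk_surjective e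
  have e1 : (Ideal.Quotient.mk (RingHom.ker (evalQ S P2 x)) f : ImgQ S P2 x)
      = Ideal.Quotient.mk _ f.divX * xiQ S P2 x + Ideal.Quotient.mk _ (C (f.coeff 0)) := by
    conv_lhs => rw [← divX_mul_X_add f]
    rw [map_add, map_mul]
    rfl
  by_cases hs : f.coeff 0 ∈ maximalIdeal S
  · right
    rw [h.max_S] at hs
    obtain ⟨a, b, hab⟩ := Ideal.mem_span_pair.mp hs
    have hq : 1 ≤ q := le_trans (by norm_num) h.two_le
    have hx : (xiQ S P2 x) ^ q = (xiQ S P2 x) ^ (q - 1) * xiQ S P2 x := by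
      rw [← pow_succ, Nat.sub_add_cancel hq]
    refine ⟨Ideal.Quotient.mk _ (f.divX) + Ideal.Quotient.mk _ (C b) * (xiQ S P2 x) ^ (q - 1), ?_⟩
    rw [e1, ← hab, C_add, C_mul, C_mul, map_add, map_mul, map_mul, h.mk_natCast, h.mk_theta]
    change _ + (_ * 0 + _ * (xiQ S P2 x) ^ q) = _
    rw [hx]
    ring
  · left
    have hu : IsUnit (f.coeff 0) := IsLocalRing.notMem_maximalIdeal.mp hs
    by_contra hnu
    obtain ⟨m, hm, hmem⟩ := exists_max_ideal_of_mem_nonunits (mem_nonunits_iff.mpr hnu)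
    haveI := hm
    have hξ := h.xiQ_mem_of_isMaximal m
    have h3 : (Ideal.Quotient.mk (RingHom.ker (evalQ S P2 x)) (C (f.coeff 0)) : ImgQ S P2 x)
        ∈ m := by
      have h4 := m.sub_mem hmem (m.mul_mem_left (Ideal.Quotient.mk _ f.divX) hξ)
      rwa [e1, add_sub_cancel_left] at h4
    have h4 : IsUnit (Ideal.Quotient.mk (RingHom.ker (evalQ S P2 x)) (C (f.coeff 0))) :=
      (hu.map C).map _
    exact hm.ne_top (Ideal.eq_top_of_isUnit_mem _ h3 h4)

/-- `x` is not a unit modulo `P2`. -/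
theorem PreNode.not_isUnit_mk_x (h : PreNode q S R θ P1 P2 x) :
    ¬ IsUnit (Ideal.Quotient.mk P2 x) := by
  intro hu
  obtain ⟨n, hn, hle⟩ := Ideal.exists_le_maximal P2 h.prime2.ne_top
  haveI := hn
  have hx := h.x_mem_of_le n hle
  obtain ⟨w, hw⟩ := hu.exists_right_inv
  obtain ⟨w, rfl⟩ := Ideal.Quotient.mk_surjective w
  rw [← map_mul, ← map_one (Ideal.Quotient.mk P2), Ideal.Quotient.eq] at hw
  have h1 : (1 : R) ∈ n := by
    have h2 := n.sub_mem (n.mul_mem_right w hx) (hle hw)
    rwa [sub_sub_cancel] at h2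
  exact hn.ne_top ((Ideal.eq_top_iff_one _).mpr h1)

/-- Krull: a non-zero element of the image of `S[X]` has finite `x`-order. -/
theorem PreNode.exists_not_pow_dvd (h : PreNode q S R θ P1 P2 x) (d : ImgQ S P2 x)
    (hd : d ≠ 0) : ∃ k : ℕ, ¬ (xiQ S P2 x) ^ k ∣ d := by
  haveI := h.prime2
  haveI : (RingHom.ker (evalQ S P2 x)).IsPrime := RingHom.ker_isPrime _
  by_contra hall0
  have hall : ∀ k : ℕ, (xiQ S P2 x) ^ k ∣ d := fun k => by_contra fun hk => hall0 ⟨k, hk⟩
  have hne : Ideal.span {xiQ S P2 x} ≠ ⊤ := by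
    intro htop
    rw [Ideal.span_singleton_eq_top] at htop
    have h1 := htop.map (incQ S P2 x)
    rw [incQ_xiQ] at h1
    exact h.not_isUnit_mk_x h1
  have hkr := Ideal.iInf_pow_eq_bot_of_isDomain (Ideal.span {xiQ S P2 x}) hne
  have hmem : d ∈ ⨅ i : ℕ, Ideal.span {xiQ S P2 x} ^ i := by
    rw [Ideal.mem_iInf]
    intro i
    rw [Ideal.span_singleton_pow, Ideal.mem_span_singleton]
    exact hall i
  rw [hkr] at hmem
  exact hd hmem

/-- An element of `R/P2` which is a fraction of elements of the image of `S[X]` lies in the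
image. -/
theorem PreNode.mem_range_incQ (h : PreNode q S R θ P1 P2 x) :
    ∀ (k : ℕ) (d f : ImgQ S P2 x) (t : R ⧸ P2), ¬ (xiQ S P2 x) ^ k ∣ d →
      incQ S P2 x d * t = incQ S P2 x f → ∃ e, incQ S P2 x e = t := by
  haveI := h.prime2
  intro k
  induction k with
  | zero =>
    intro d f t hd
    exact absurd (by rw [pow_zero]; exact one_dvd d) hd
  | succ k ih =>
    intro d f t hd hdf
    rcases h.isUnit_or_dvd d with hu | ⟨d', rfl⟩
    · obtain ⟨u, rfl⟩ := hu
      refine ⟨(↑u⁻¹ : ImgQ S P2 x) * f, ?_⟩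
      rw [map_mul, ← hdf, ← mul_assoc, ← map_mul, Units.inv_mul, map_one, one_mul]
    · have hd' : ¬ (xiQ S P2 x) ^ k ∣ d' := fun hdvd =>
        hd (by rw [pow_succ']; exact mul_dvd_mul_left _ hdvd)
      rw [map_mul, incQ_xiQ] at hdf
      rcases h.isUnit_or_dvd f with hu | ⟨f', rfl⟩
      · exfalso
        apply h.not_isUnit_mk_x
        obtain ⟨u, rfl⟩ := hu
        refine IsUnit.of_mul_eq_one
          (incQ S P2 x d' * t * incQ S P2 x (↑u⁻¹ : ImgQ S P2 x)) ?_
        calc Ideal.Quotient.mk P2 x * (incQ S P2 x d' * t * incQ S P2 x (↑u⁻¹ : ImgQ S P2 x))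
            = (Ideal.Quotient.mk P2 x * incQ S P2 x d' * t)
                * incQ S P2 x (↑u⁻¹ : ImgQ S P2 x) := by ring
          _ = incQ S P2 x (u : ImgQ S P2 x) * incQ S P2 x (↑u⁻¹ : ImgQ S P2 x) := by rw [hdf]
          _ = 1 := by rw [← map_mul, Units.mul_inv, map_one]
      · rw [map_mul, incQ_xiQ, mul_assoc] at hdf
        have hx0 : Ideal.Quotient.mk P2 x ≠ 0 := by
          rw [Ne, Ideal.Quotient.eq_zero_iff_mem]
          exact h.x_not_mem2
        exact ih d' f' t hd' (mul_left_cancel₀ hx0 hdf)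

/-- **(D1a)** `R/P2 = (S/q)[x]`: every element of `R` is a polynomial in `x` modulo `P2`. -/
theorem PreNode.surj2 (h : PreNode q S R θ P1 P2 x) (r : R) :
    ∃ f : S[X], r - aeval x f ∈ P2 := by
  haveI := h.prime2
  obtain ⟨d, f, hd, hdf⟩ := h.frac2 r
  have hd0 : (Ideal.Quotient.mk (RingHom.ker (evalQ S P2 x)) d : ImgQ S P2 x) ≠ 0 := by
    intro h0
    have h1 := congrArg (incQ S P2 x) h0
    rw [incQ_mk, map_zero, Ideal.Quotient.eq_zero_iff_mem] at h1
    exact hd h1
  obtain ⟨k, hk⟩ := h.exists_not_pow_dvd _ hd0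
  have heq : incQ S P2 x (Ideal.Quotient.mk _ d) * Ideal.Quotient.mk P2 r
      = incQ S P2 x (Ideal.Quotient.mk _ f) := by
    rw [incQ_mk, incQ_mk, ← map_mul, Ideal.Quotient.eq]
    exact hdf
  obtain ⟨e, he⟩ := h.mem_range_incQ k _ _ _ hk heq
  obtain ⟨g, rfl⟩ := Ideal.Quotient.mk_surjective e
  rw [incQ_mk] at he
  exact ⟨g, Ideal.Quotient.eq.mp he.symm⟩

end Surj2Core

/-! ### The dichotomy -/

section Dichotomy

variable {q : ℕ} {S R : Type*} [CommRing S] [CommRing R] [IsDomain R] [Algebra S R]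
  [IsLocalRing S] [IsNoetherianRing S] [Module.Finite S R] {θ : S} {P1 P2 : Ideal R} {x : R}

/-- A proper ideal containing `P2` lies in `P2 + (x)`. -/
theorem PreNode.le_sup2 (h : PreNode q S R θ P1 P2 x) (I : Ideal R) (hI : I ≠ ⊤)
    (hle : P2 ≤ I) : I ≤ P2 ⊔ Ideal.span {x} := by
  obtain ⟨n, hn, hIn⟩ := Ideal.exists_le_maximal I hI
  haveI := hn
  have hxn : x ∈ n := h.x_mem_of_le n (hle.trans hIn)
  intro i hi
  obtain ⟨f, hf⟩ := h.surj2 i
  have e1 : aeval x f = aeval x f.divX * x + algebraMap S R (f.coeff 0) := by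
    conv_lhs => rw [← divX_mul_X_add f]
    rw [map_add, map_mul, aeval_X, aeval_C]
  have hs : algebraMap S R (f.coeff 0) ∈ n := by
    have h1 : aeval x f ∈ n := by
      have h0 := n.sub_mem (hIn hi) (hIn (hle hf))
      rwa [sub_sub_cancel] at h0
    have h2 := n.sub_mem h1 (n.mul_mem_left (aeval x f.divX) hxn)
    rwa [e1, add_sub_cancel_left] at h2
  have hsm : f.coeff 0 ∈ maximalIdeal S := by
    by_contra hns
    exact algebraMap_notMem_of_isUnit n hn.ne_top (IsLocalRing.notMem_maximalIdeal.mp hns) hs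
  have h3 : aeval x f ∈ P2 ⊔ Ideal.span {x} := by
    rw [e1]
    exact Ideal.add_mem _
      (Ideal.mem_sup_right (Ideal.mul_mem_left _ _ (Ideal.mem_span_singleton_self x)))
      (h.algebraMap_mem_sup2 hsm)
  have h4 := Ideal.add_mem _ (Ideal.mem_sup_left hf) h3
  rwa [sub_add_cancel] at h4

/-- A maximal ideal of `R` contains `P1` or `P2`. -/
theorem PreNode.le_or_le (h : PreNode q S R θ P1 P2 x) (n : Ideal R) [hn : n.IsMaximal] :
    P1 ≤ n ∨ P2 ≤ n := by
  have hq : (q : R) ∈ n := by
    have h1 := algebraMap_mem_of_isMaximal n h.q_mem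
    rwa [map_natCast] at h1
  have hinf : P1 ⊓ P2 ≤ n := by
    rw [h.inf_eq, Ideal.span_singleton_le_iff_mem]
    exact hq
  exact (hn.isPrime.inf_le).mp hinf

/-- **(D1b) The dichotomy.**  Either `P1 + P2 = R` (the two components do not meet over the
closed point of `S`: two smooth points, see `split_local`), or `R` is a local ring and the
hypotheses `NodeHyp` of the monogenic-node package hold (a node). -/
theorem PreNode.dichotomy (h : PreNode q S R θ P1 P2 x) :
    P1 ⊔ P2 = ⊤ ∨ ∃ _ : IsLocalRing R, H46.NodeHyp q S R θ P1 P2 x := by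
  by_cases hs : P1 ⊔ P2 = ⊤
  · exact Or.inl hs
  right
  obtain ⟨n, hn, hle⟩ := Ideal.exists_le_maximal _ hs
  have hP1n : P1 ≤ n := le_sup_left.trans hle
  have hP2n : P2 ≤ n := le_sup_right.trans hle
  have hn1 : n ≤ P1 ⊔ Ideal.span {algebraMap S R θ} := h.le_sup1 n hn.ne_top hP1n
  have hn2 : n ≤ P2 ⊔ Ideal.span {x} := h.le_sup2 n hn.ne_top hP2n
  have hxn : x ∈ n := h.x_mem_of_le n hP2n
  have huniq : ∀ n' : Ideal R, n'.IsMaximal → n' = n := by
    intro n' hn'
    haveI := hn'
    rcases h.le_or_le n' with h1 | h2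
    · have hθ : algebraMap S R θ ∈ n' := algebraMap_mem_of_isMaximal n' h.theta_mem
      have hnn : n ≤ n' := hn1.trans (sup_le h1 ((Ideal.span_singleton_le_iff_mem _).mpr hθ))
      exact (hn.eq_of_le hn'.ne_top hnn).symm
    · have hx : x ∈ n' := h.x_mem_of_le n' h2
      have hnn : n ≤ n' := hn2.trans (sup_le h2 ((Ideal.span_singleton_le_iff_mem _).mpr hx))
      exact (hn.eq_of_le hn'.ne_top hnn).symm
  have hloc : IsLocalRing R :=
    IsLocalRing.of_unique_max_ideal ⟨n, hn, fun n' hn' => huniq n' hn'⟩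
  refine ⟨hloc, ?_⟩
  have hmax : maximalIdeal R = n := huniq _ (IsLocalRing.maximalIdeal.isMaximal R)
  exact
    { two_le := h.two_le
      prime_q := h.prime_q
      max_S := h.max_S
      inj := h.inj
      prime1 := h.prime1
      prime2 := h.prime2
      inf_eq := h.inf_eq
      surj1 := h.surj1
      comap1 := h.comap1
      x_mem1 := h.x_mem1
      x_not_mem2 := h.x_not_mem2
      x_pow := h.x_pow
      max_R := by
        rw [hmax]
        exact le_antisymm hn2 (sup_le hP2n ((Ideal.span_singleton_le_iff_mem _).mpr hxn)) }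

end Dichotomy

/-! ### The split case: smooth points -/

section Split

variable {q : ℕ} {S R : Type*} [CommRing S] [CommRing R] [IsDomain R] [Algebra S R]
  [IsLocalRing S] [IsNoetherianRing S] [Module.Finite S R] {θ : S} {P1 P2 : Ideal R} {x : R}

/-- In the localisation at a prime `n` not containing `P'`, the ideal generated by `P` is
generated by a generator of `P ⊓ P'`. -/
theorem map_eq_span_of_not_le {R : Type*} [CommRing R] {T : Type*} [CommRing T] [Algebra R T]
    (n : Ideal R) [n.IsPrime] [IsLocalization.AtPrime T n] (P P' : Ideal R) (a : R)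
    (hinf : P ⊓ P' = Ideal.span {a}) (hP' : ¬ P' ≤ n) :
    Ideal.map (algebraMap R T) P = Ideal.span {algebraMap R T a} := by
  obtain ⟨e, heP', hen⟩ := Set.not_subset.mp hP'
  have hu : IsUnit (algebraMap R T e) := IsLocalization.map_units T (⟨e, hen⟩ : n.primeCompl)
  apply le_antisymm
  · rw [Ideal.map_le_iff_le_comap]
    intro p hp
    have h1 : p * e ∈ P ⊓ P' := ⟨P.mul_mem_right e hp, P'.mul_mem_left p heP'⟩
    rw [hinf, Ideal.mem_span_singleton] at h1
    obtain ⟨c, hc⟩ := h1
    rw [Ideal.mem_comap, Ideal.mem_span_singleton]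
    obtain ⟨v, hv⟩ := hu.exists_right_inv
    refine ⟨algebraMap R T c * v, ?_⟩
    have h2 := congrArg (algebraMap R T) hc
    rw [map_mul, map_mul] at h2
    calc algebraMap R T p = algebraMap R T p * (algebraMap R T e * v) := by rw [hv, mul_one]
      _ = (algebraMap R T p * algebraMap R T e) * v := by ring
      _ = algebraMap R T a * (algebraMap R T c * v) := by rw [h2]; ring
  · rw [Ideal.span_singleton_le_iff_mem]
    apply Ideal.mem_map_of_mem
    have h1 : a ∈ P ⊓ P' := by
      rw [hinf]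
      exact Ideal.mem_span_singleton_self a
    exact h1.1

/-- **(D1c) The split case.**  If `P1 + P2 = R`, the localisation `T` of `R` at any maximal ideal
`n` is a "smooth point": `q T` is prime and the maximal ideal of `T` is `(q, t)` with `t ∉ q T`
(`t = θ` if `P1 ⊆ n`, `t = x` if `P2 ⊆ n`). -/
theorem PreNode.split_local (h : PreNode q S R θ P1 P2 x) (hs : P1 ⊔ P2 = ⊤) (n : Ideal R)
    [hn : n.IsMaximal] (T : Type*) [CommRing T] [Algebra R T] [IsLocalization.AtPrime T n] :
    ∃ t : R, t ∈ n ∧ (Ideal.span {(q : T)}).IsPrime ∧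
      Ideal.map (algebraMap R T) n = Ideal.span {(q : T), algebraMap R T t} ∧
      algebraMap R T t ∉ Ideal.span {(q : T)} := by
  have hqn : (q : R) ∈ n := by
    have h1 := algebraMap_mem_of_isMaximal n h.q_mem
    rwa [map_natCast] at h1
  have hnot : ¬ (P1 ≤ n ∧ P2 ≤ n) := fun h12 =>
    hn.ne_top (top_le_iff.mp (hs ▸ sup_le h12.1 h12.2))
  have hqT : algebraMap R T (q : R) = (q : T) := map_natCast _ _
  have key : ∀ (P P' : Ideal R) (t : R), P.IsPrime → P ⊓ P' = Ideal.span {(q : R)} → P ≤ n →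
      ¬ P' ≤ n → t ∈ n → n ≤ P ⊔ Ideal.span {t} → t ∉ P →
      ∃ t : R, t ∈ n ∧ (Ideal.span {(q : T)}).IsPrime ∧
        Ideal.map (algebraMap R T) n = Ideal.span {(q : T), algebraMap R T t} ∧
        algebraMap R T t ∉ Ideal.span {(q : T)} := by
    intro P P' t hPprime hinf hP hP' htn hle htP
    have hmap : Ideal.map (algebraMap R T) P = Ideal.span {(q : T)} := by
      rw [map_eq_span_of_not_le n P P' _ hinf hP', hqT]
    have hdisj : Disjoint (n.primeCompl : Set R) (P : Set R) :=
      Set.disjoint_left.mpr fun a ha haP => ha (hP haP)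
    refine ⟨t, htn, ?_, ?_, ?_⟩
    · rw [← hmap]
      exact IsLocalization.isPrime_of_isPrime_disjoint n.primeCompl T P hPprime hdisj
    · apply le_antisymm
      · refine (Ideal.map_mono hle).trans ?_
        rw [Ideal.map_sup, hmap, Ideal.map_span, Set.image_singleton, Ideal.span_insert]
      · rw [Ideal.span_le]
        intro y hy
        rcases hy with rfl | hy
        · rw [← hqT]
          exact Ideal.mem_map_of_mem _ hqn
        · rw [Set.mem_singleton_iff.mp hy]
          exact Ideal.mem_map_of_mem _ htn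
    · intro hmem
      rw [← hmap] at hmem
      have h1 : t ∈ (Ideal.map (algebraMap R T) P).under R := hmem
      rw [IsLocalization.under_map_of_isPrime_disjoint n.primeCompl T hPprime hdisj] at h1
      exact htP h1
  rcases h.le_or_le n with h1 | h2
  · have h2 : ¬ P2 ≤ n := fun h2 => hnot ⟨h1, h2⟩
    refine key P1 P2 (algebraMap S R θ) h.prime1 h.inf_eq h1 h2
      (algebraMap_mem_of_isMaximal n h.theta_mem) (h.le_sup1 n hn.ne_top h1) ?_
    intro hθ
    obtain ⟨c, hc⟩ := h.comap1 θ hθ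
    have h3 : algebraMap S R θ ∈ P2 := by
      rw [hc, map_mul, map_natCast]
      exact P2.mul_mem_right _ h.q_mem2
    have h4 : x ^ q ∈ P2 := by
      have h5 := P2.add_mem h.x_pow h3
      rwa [sub_add_cancel] at h5
    exact h.x_not_mem2 (h.prime2.mem_of_pow_mem _ h4)
  · have h1 : ¬ P1 ≤ n := fun h1 => hnot ⟨h1, h2⟩
    exact key P2 P1 x h.prime2 (by rw [inf_comm]; exact h.inf_eq) h2 h1
      (h.x_mem_of_le n h2) (h.le_sup2 n hn.ne_top h2) h.x_not_mem2

/-- A noetherian local ring `T` with `(a)` prime, `m_T = (a, t)` and `t ∉ (a)`: the quotient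
`T/(a)` is a discrete valuation ring (with uniformiser `t`). -/
theorem isDiscreteValuationRing_quotient {T : Type*} [CommRing T] [IsLocalRing T]
    [IsNoetherianRing T] (a t : T) (hprime : (Ideal.span {a}).IsPrime)
    (hmax : maximalIdeal T = Ideal.span {a, t}) (ht : t ∉ Ideal.span {a}) :
    ∃ _ : IsDomain (T ⧸ Ideal.span {a}), IsDiscreteValuationRing (T ⧸ Ideal.span {a}) := by
  haveI := hprime
  have hdom : IsDomain (T ⧸ Ideal.span {a}) := Ideal.Quotient.isDomain _
  refine ⟨hdom, ?_⟩
  haveI : IsLocalRing (T ⧸ Ideal.span {a}) :=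
    IsLocalRing.of_surjective' (Ideal.Quotient.mk _) Ideal.Quotient.mk_surjective
  have h1 : Ideal.map (Ideal.Quotient.mk (Ideal.span {a})) (maximalIdeal T)
      = Ideal.span {Ideal.Quotient.mk (Ideal.span {a}) t} := by
    have h0 : Ideal.Quotient.mk (Ideal.span {a}) a = 0 :=
      Ideal.Quotient.eq_zero_iff_mem.mpr (Ideal.mem_span_singleton_self a)
    rw [hmax, Ideal.map_span, Set.image_pair, h0, Ideal.span_insert_zero]
  have hmaxQ : maximalIdeal (T ⧸ Ideal.span {a})
      = Ideal.span {Ideal.Quotient.mk (Ideal.span {a}) t} := by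
    rw [← h1]
    symm
    rcases Ideal.map_eq_top_or_isMaximal_of_surjective (Ideal.Quotient.mk (Ideal.span {a}))
      Ideal.Quotient.mk_surjective (IsLocalRing.maximalIdeal.isMaximal T) with htop | hmaxl
    · exfalso
      rw [h1, Ideal.span_singleton_eq_top] at htop
      obtain ⟨w, hw⟩ := htop.exists_right_inv
      obtain ⟨w, rfl⟩ := Ideal.Quotient.mk_surjective w
      rw [← map_mul, ← map_one (Ideal.Quotient.mk (Ideal.span {a})), Ideal.Quotient.eq] at hw
      have ha : Ideal.span {a} ≤ maximalIdeal T := IsLocalRing.le_maximalIdeal hprime.ne_top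
      have htm : t ∈ maximalIdeal T := by
        rw [hmax]
        exact Ideal.subset_span (Set.mem_insert_of_mem _ rfl)
      have h2 : (1 : T) ∈ maximalIdeal T := by
        have h3 := (maximalIdeal T).sub_mem ((maximalIdeal T).mul_mem_right w htm) (ha hw)
        rwa [sub_sub_cancel] at h3
      exact (IsLocalRing.maximalIdeal.isMaximal T).ne_top ((Ideal.eq_top_iff_one _).mpr h2)
    · exact IsLocalRing.eq_maximalIdeal hmaxl
  have hnf : ¬ IsField (T ⧸ Ideal.span {a}) := by
    rw [IsLocalRing.isField_iff_maximalIdeal_eq, hmaxQ, Ideal.span_singleton_eq_bot,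
      Ideal.Quotient.eq_zero_iff_mem]
    exact ht
  refine ((IsDiscreteValuationRing.TFAE (T ⧸ Ideal.span {a}) hnf).out 0 4).mpr ?_
  rw [hmaxQ]
  exact ⟨⟨_, rfl⟩⟩

/-- **(D1c), DVR form.**  In the split case the special fibre of the localisation of `R` at any
maximal ideal is a discrete valuation ring. -/
theorem PreNode.split_dvr (h : PreNode q S R θ P1 P2 x) (hs : P1 ⊔ P2 = ⊤) (n : Ideal R)
    [hn : n.IsMaximal] (T : Type*) [CommRing T] [Algebra R T] [IsLocalization.AtPrime T n] :
    ∃ _ : IsDomain (T ⧸ Ideal.span {(q : T)}),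
      IsDiscreteValuationRing (T ⧸ Ideal.span {(q : T)}) := by
  obtain ⟨t, -, hprime, hmap, htq⟩ := h.split_local hs n T
  haveI : IsLocalRing T := IsLocalization.AtPrime.isLocalRing T n
  haveI : IsNoetherianRing R := IsNoetherianRing.of_finite S R
  haveI : IsNoetherianRing T := IsLocalization.isNoetherianRing n.primeCompl T inferInstance
  refine isDiscreteValuationRing_quotient (q : T) (algebraMap R T t) hprime ?_ htq
  rw [← hmap]
  exact (IsLocalization.AtPrime.map_eq_maximalIdeal n T).symm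

end Split

end Fermat.Agent.S34.H36
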