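import Mathlib
import Fermat.Agent.S34.H46.Node
import Fermat.Agent.S34.H60.UnramDeriv

/-!
# The regular node from `NodeHyp` and unramifiedness in characteristic zero
(helper36; part (D) of M6b-LOC, Program B', S34)

Generic glue between helper46's abstract node package (`H46.NodeHyp ⟹ H46.NodeConcl`) and
helper60's (U-ALG) (`H60.exists_natCast_pow_mem_span_derivative`): under `NodeHyp`, the ring `R`
is `S[X]/(G)` with `G` the (monic) minimal polynomial of `x`, so that the hypothesis
"`q ^ k ∈ (G'(x))`" of `NodeConcl.regular` follows from the ideal-theoretic unramifiedness of the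
primes of `R` not containing `q`.  Conclusion: the node is regular, `J * b = q`,
`m_R = (J, b)`, `P2 = (J)`, `P1 = (b)`.
-/

set_option autoImplicit false
set_option linter.unusedSectionVars false

namespace Fermat.Agent.S34.H36

open Ideal IsLocalRing Polynomial

variable {q : ℕ} {S R : Type*} [CommRing S] [CommRing R] [IsDomain S] [IsDomain R]
  [Algebra S R] [IsLocalRing S] [IsLocalRing R] [IsNoetherianRing S] [Module.Finite S R]
  {θ : S} {P1 P2 : Ideal R} {x : R}

/-- Under `NodeHyp`, evaluation at `x` is surjective: `R = S[x]`. -/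
theorem aeval_surjective_of_nodeHyp (h : H46.NodeHyp q S R θ P1 P2 x) :
    Function.Surjective (aeval x : S[X] →ₐ[S] R) := by
  intro r
  obtain ⟨f, -, hf⟩ := h.concl.gen r
  exact ⟨f, hf⟩

/-- Under `NodeHyp`, the kernel of evaluation at `x` is generated by the minimal polynomial. -/
theorem aeval_eq_zero_iff_of_nodeHyp (h : H46.NodeHyp q S R θ P1 P2 x) (p : S[X]) :
    aeval x p = 0 ↔ minpoly S x ∣ p := by
  have hc := h.concl
  have hG := hc.monic
  constructor
  · intro hp
    rw [← Polynomial.modByMonic_eq_zero_iff_dvd hG]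
    have hdeg : (p %ₘ minpoly S x).natDegree ≤ q := by
      have hne : minpoly S x ≠ 1 := by
        intro h1
        have := hc.natDegree_eq
        rw [h1, natDegree_one] at this
        omega
      have := Polynomial.natDegree_modByMonic_lt p hG hne
      rw [hc.natDegree_eq] at this
      omega
    apply hc.indep _ hdeg
    have e := Polynomial.modByMonic_add_div p (minpoly S x)
    have e2 : aeval x (p %ₘ minpoly S x + minpoly S x * (p /ₘ minpoly S x)) = 0 := by
      rw [e]
      exact hp
    rwa [map_add, map_mul, minpoly.aeval, zero_mul, add_zero] at e2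
  · rintro ⟨r, rfl⟩
    rw [map_mul, minpoly.aeval, zero_mul]

/-- **The regular node.**  `NodeHyp` together with the unramifiedness of the primes of `R` not
containing `q` (the conclusion of `H60.forall_unramified_of_places`) gives `J * b = q`,
`m_R = (J, b)`, `P2 = (J)`, `P1 = (b)`. -/
theorem regular_of_nodeHyp (hq : q.Prime) (h : H46.NodeHyp q S R θ P1 P2 x)
    (hunr : ∀ Q : Ideal R, Q.IsPrime → (q : R) ∉ Q → ∀ a ∈ Q, ∃ b ∉ Q,
      b * a ∈ Ideal.map (algebraMap S R) (Q.comap (algebraMap S R))) :
    ∃ J b : R, J * b = (q : R) ∧ maximalIdeal R = Ideal.span {J, b} ∧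
      P2 = Ideal.span {J} ∧ P1 = Ideal.span {b} := by
  have hc := h.concl
  have hU : ∃ k : ℕ, (q : R) ^ k ∈ Ideal.span {H46.nodeJ S x} :=
    H60.exists_natCast_pow_mem_span_derivative q hq h.prime_q.not_isUnit (minpoly S x) hc.monic x
      (aeval_surjective_of_nodeHyp h) (aeval_eq_zero_iff_of_nodeHyp h) hunr
  obtain ⟨b, hJb, hP2, hP1, hm, -⟩ := hc.regular hU
  exact ⟨H46.nodeJ S x, b, hJb, hm, hP2, hP1⟩

end Fermat.Agent.S34.H36
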