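import Mathlib
import Fermat.Agent.S34.H6.TwoExt

/-!
# `f(O₂ | V) = q` in elementwise form (helper36; Program B', S34)

An add-on to helper6's proof of the two-extension lemma (`S34/H6/TwoExt.lean`): under the
hypotheses of `H64.TwoExtStatement`, the residue degree of `O₂` over `V` is exactly `q`, and for
every `y' ∈ O₂` whose residue class is not in the residue field of `V` but whose `q`-th power is,
every element of `O₂` is congruent modulo the maximal ideal to a `V`-combination of
`1, y', …, y'^(q-1)` (`res2`).  This is the input of `PreNode.frac2` (`S34/H36/Dichotomy.lean`).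
-/

set_option autoImplicit false
set_option linter.style.haveILetI false
set_option linter.deprecated false

namespace Fermat.Agent.S34.H36

open Fermat.Agent.S34.H64 Fermat.Agent.S34.H6

section quot

variable {R S : Type*} [CommRing R] [CommRing S] [Algebra R S]

/-- If the residue degree is exactly `q` and the class of `c` is purely inseparable of degree `q`,
then every residue class is a combination of `1, c, …, c^(q-1)`. -/
theorem exists_sum_pow_of_inertiaDeg_eq (p : Ideal R) [p.IsMaximal] (P : Ideal S)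
    [P.IsMaximal] [P.LiesOver p] (q : ℕ) (hq : q.Prime) (hqP : (q : S) ∈ P) (c : S) (v₀ : R)
    (hc : c ^ q - algebraMap R S v₀ ∈ P) (hcV : ∀ v : R, c - algebraMap R S v ∉ P)
    (hf : p.inertiaDeg' P = q) (g : S) :
    ∃ a : Fin q → R, g - ∑ i, algebraMap R S (a i) * c ^ (i : ℕ) ∈ P := by
  classical
  rw [Ideal.inertiaDeg'_algebraMap] at hf
  letI := Ideal.Quotient.field p
  letI := Ideal.Quotient.field P
  haveI : Fact q.Prime := ⟨hq⟩
  haveI : CharP (S ⧸ P) q := by
    rw [CharP.charP_iff_prime_eq_zero hq]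
    have h1 : ((q : ℕ) : S ⧸ P) = Ideal.Quotient.mk P (q : S) := by simp
    rw [h1]
    exact Ideal.Quotient.eq_zero_iff_mem.mpr hqP
  set y : S ⧸ P := Ideal.Quotient.mk P c with hy
  set a : R ⧸ p := Ideal.Quotient.mk p v₀ with ha
  have h1 : y ^ q = algebraMap (R ⧸ p) (S ⧸ P) a := by
    rw [ha, Ideal.Quotient.algebraMap_mk_of_liesOver, hy, ← map_pow]
    exact Ideal.Quotient.eq.mpr hc
  have h2 : ∀ b : R ⧸ p, y ≠ algebraMap (R ⧸ p) (S ⧸ P) b := by
    intro b hb
    obtain ⟨v, rfl⟩ := Ideal.Quotient.mk_surjective b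
    rw [Ideal.Quotient.algebraMap_mk_of_liesOver, hy] at hb
    exact hcV v (Ideal.Quotient.eq.mp hb)
  have hirr : Irreducible (Polynomial.X ^ q - Polynomial.C a : Polynomial (R ⧸ p)) := by
    apply X_pow_sub_C_irreducible_of_prime hq
    intro b hb
    apply h2 b
    have h3 : (y - algebraMap (R ⧸ p) (S ⧸ P) b) ^ q = 0 := by
      rw [sub_pow_char, h1, ← map_pow, hb, sub_self]
    exact sub_eq_zero.mp (pow_eq_zero_iff hq.ne_zero |>.mp h3)
  have hmin : (Polynomial.X ^ q - Polynomial.C a : Polynomial (R ⧸ p)) = minpoly (R ⧸ p) y :=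
    minpoly.eq_of_irreducible_of_monic hirr (by simp [h1])
      (Polynomial.monic_X_pow_sub_C a hq.ne_zero)
  have hnat : (minpoly (R ⧸ p) y).natDegree = q := by
    rw [← hmin]
    exact Polynomial.natDegree_X_pow_sub_C
  have hli : ∀ n : ℕ, n = (minpoly (R ⧸ p) y).natDegree →
      LinearIndependent (R ⧸ p) fun i : Fin n => y ^ (i : ℕ) := by
    rintro n rfl
    exact linearIndependent_pow y
  have hli' := hli q hnat.symm
  haveI : FiniteDimensional (R ⧸ p) (S ⧸ P) :=
    Module.finite_of_finrank_pos (by rw [hf]; exact hq.pos)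
  have hspan := hli'.span_eq_top_of_card_eq_finrank' (by rw [Fintype.card_fin, hf])
  have hmem : Ideal.Quotient.mk P g ∈ Submodule.span (R ⧸ p)
      (Set.range fun i : Fin q => y ^ (i : ℕ)) := by
    rw [hspan]
    trivial
  obtain ⟨cf, hcf⟩ := (Submodule.mem_span_range_iff_exists_fun (R ⧸ p)).mp hmem
  choose af haf using fun i => Ideal.Quotient.mk_surjective (cf i)
  refine ⟨af, ?_⟩
  rw [← Ideal.Quotient.eq_zero_iff_mem, map_sub, map_sum, sub_eq_zero, ← hcf]
  refine Finset.sum_congr rfl fun i _ => ?_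
  rw [map_mul, map_pow, ← haf i, Algebra.smul_def, Ideal.Quotient.algebraMap_mk_of_liesOver]

end quot

section gen

variable {F : Type*} [Field F]

/-- A finite sum of non-units of a valuation ring is a non-unit. -/
theorem sum_mem_nonunits (A : ValuationSubring F) {ι : Type*} (s : Finset ι) (f : ι → F)
    (h : ∀ i ∈ s, f i ∈ A.nonunits) : ∑ i ∈ s, f i ∈ A.nonunits := by
  classical
  induction s using Finset.induction_on with
  | empty =>
    rw [Finset.sum_empty, ValuationSubring.mem_nonunits_iff, map_zero]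
    exact zero_lt_one
  | insert i s hi ih =>
    rw [Finset.sum_insert hi]
    exact add_mem_nonunits A (h i (Finset.mem_insert_self i s))
      (ih fun j hj => h j (Finset.mem_insert_of_mem hj))

end gen

section main

universe u v

variable (K : Type u) (L : Type v) [Field K] [Field L] [Algebra K L] [FiniteDimensional K L]
  [CharZero K] (V : ValuationSubring K) [IsDiscreteValuationRing V] (q : ℕ)

/-- Under the hypotheses of the two-extension lemma, `f(O₂ | V) = q`. -/
theorem inertiaDeg_two (hq : q.Prime) (hqV : (q : K) ∈ V.nonunits)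
    (hdeg : Module.finrank K L = q + 1) (O₁ O₂ : ValuationSubring L)
    (hO₁ : O₁.comap (algebraMap K L) = V) (hO₂ : O₂.comap (algebraMap K L) = V) (hne : O₁ ≠ O₂)
    (y : L) (hy : y ∈ O₂) (hyq : ∃ v ∈ V, y ^ q - algebraMap K L v ∈ O₂.nonunits)
    (hyV : ∀ v ∈ V, y - algebraMap K L v ∉ O₂.nonunits) :
    (IsLocalRing.maximalIdeal V).inertiaDeg' (primeOf V O₂ hO₂) = q := by
  classical
  haveI : IsDedekindDomain (integralClosure V L) := integralClosure.isDedekindDomain V K L
  haveI : IsFractionRing (integralClosure V L) L :=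
    integralClosure.isFractionRing_of_finite_extension K L
  haveI : Module.Finite V (integralClosure V L) :=
    IsIntegralClosure.finite V K L (integralClosure V L)
  have hinj : Function.Injective (algebraMap V (integralClosure V L)) := by
    intro a b hab
    have h1 : algebraMap K L (a : K) = algebraMap K L (b : K) :=
      congrArg (fun z : integralClosure V L => (z : L)) hab
    exact Subtype.ext ((algebraMap K L).injective h1)
  haveI : Module.IsTorsionFree V (integralClosure V L) :=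
    Module.isTorsionFree_iff_algebraMap_injective.mpr hinj
  have hp0 : IsLocalRing.maximalIdeal V ≠ ⊥ := IsDiscreteValuationRing.not_a_field V
  haveI hP₁ := primeOf_isPrime V O₁ hO₁
  haveI hP₂ := primeOf_isPrime V O₂ hO₂
  haveI hL₁ := primeOf_liesOver V O₁ hO₁
  haveI hL₂ := primeOf_liesOver V O₂ hO₂
  have hP₁0 : primeOf V O₁ hO₁ ≠ ⊥ := Ideal.ne_bot_of_liesOver_of_ne_bot hp0 _
  have hP₂0 : primeOf V O₂ hO₂ ≠ ⊥ := Ideal.ne_bot_of_liesOver_of_ne_bot hp0 _
  haveI hM₂ : (primeOf V O₂ hO₂).IsMaximal := hP₂.isMaximal hP₂0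
  have hP12 : primeOf V O₁ hO₁ ≠ primeOf V O₂ hO₂ :=
    fun h => hne (eq_of_primeOf_eq V O₁ O₂ hO₁ hO₂ hP₁0 h)
  have hmem₁ : primeOf V O₁ hO₁ ∈ IsDedekindDomain.primesOverFinset
      (IsLocalRing.maximalIdeal V) (integralClosure V L) :=
    (IsDedekindDomain.mem_primesOverFinset_iff hp0 _).mpr ⟨hP₁, hL₁⟩
  have hmem₂ : primeOf V O₂ hO₂ ∈ IsDedekindDomain.primesOverFinset
      (IsLocalRing.maximalIdeal V) (integralClosure V L) :=
    (IsDedekindDomain.mem_primesOverFinset_iff hp0 _).mpr ⟨hP₂, hL₂⟩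
  have hf₂ : q ≤ (IsLocalRing.maximalIdeal V).inertiaDeg' (primeOf V O₂ hO₂) := by
    obtain ⟨c, hc⟩ := exists_residue_rep V O₂ hO₂ hP₂0 hy
    obtain ⟨v₀, hv₀V, hv₀⟩ := hyq
    have hcO : (c : L) ∈ O₂ := mem_of_isIntegral V O₂ hO₂ c.2
    refine le_inertiaDeg_of_pow _ _ q hq ?_ c ⟨v₀, hv₀V⟩ ?_ ?_
    · rw [mem_primeOf]
      have h1 : (((q : ℕ) : integralClosure V L) : L) = algebraMap K L (q : K) := by simp
      rw [h1, algebraMap_mem_nonunits_iff V O₂ hO₂]
      exact hqV
    · rw [mem_primeOf]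
      have h1 : ((c ^ q - algebraMap V (integralClosure V L) ⟨v₀, hv₀V⟩ :
          integralClosure V L) : L) = (y ^ q - algebraMap K L v₀) - (y ^ q - (c : L) ^ q) := by
        have h2 : ((c ^ q - algebraMap V (integralClosure V L) ⟨v₀, hv₀V⟩ :
          integralClosure V L) : L) = (c : L) ^ q - algebraMap K L v₀ := rfl
        rw [h2]
        ring
      rw [h1]
      exact sub_mem_nonunits O₂ hv₀ (pow_sub_pow_mem_nonunits O₂ hy hcO hc q)
    · intro v hv
      rw [mem_primeOf] at hv
      apply hyV v v.2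
      have h1 : y - algebraMap K L (v : K)
          = (y - (c : L)) + ((c : L) - algebraMap K L (v : K)) := by
        ring
      rw [h1]
      exact add_mem_nonunits O₂ hc hv
  have he₁ : (IsLocalRing.maximalIdeal V).ramificationIdx' (primeOf V O₁ hO₁) ≠ 0 :=
    Ideal.IsDedekindDomain.ramificationIdx'_ne_zero_of_liesOver _ hp0
  have he₂ : (IsLocalRing.maximalIdeal V).ramificationIdx' (primeOf V O₂ hO₂) ≠ 0 :=
    Ideal.IsDedekindDomain.ramificationIdx'_ne_zero_of_liesOver _ hp0
  have hf₁ : (IsLocalRing.maximalIdeal V).inertiaDeg' (primeOf V O₁ hO₁) ≠ 0 :=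
    Ideal.inertiaDeg'_ne_zero _ _
  have hsum := Ideal.sum_ramification_inertia (integralClosure V L) K L hp0
  rw [hdeg, ← Finset.add_sum_erase _ _ hmem₁,
    ← Finset.add_sum_erase _ _ (Finset.mem_erase.mpr ⟨hP12.symm, hmem₂⟩)] at hsum
  generalize (IsLocalRing.maximalIdeal V).ramificationIdx' (primeOf V O₁ hO₁) = e₁ at *
  generalize (IsLocalRing.maximalIdeal V).inertiaDeg' (primeOf V O₁ hO₁) = f₁ at *
  generalize (IsLocalRing.maximalIdeal V).ramificationIdx' (primeOf V O₂ hO₂) = e₂ at *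
  generalize (IsLocalRing.maximalIdeal V).inertiaDeg' (primeOf V O₂ hO₂) = f₂ at *
  generalize (∑ P ∈ ((IsDedekindDomain.primesOverFinset (IsLocalRing.maximalIdeal V)
    (integralClosure V L)).erase (primeOf V O₁ hO₁)).erase (primeOf V O₂ hO₂),
      (IsLocalRing.maximalIdeal V).ramificationIdx' P *
      (IsLocalRing.maximalIdeal V).inertiaDeg' P) = sr at *
  have h1 : 1 ≤ e₁ * f₁ := Right.one_le_mul (Nat.pos_of_ne_zero he₁) (Nat.pos_of_ne_zero hf₁)
  have h2 : q ≤ e₂ * f₂ := le_trans hf₂ (Nat.le_mul_of_pos_left _ (Nat.pos_of_ne_zero he₂))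
  have h4 : e₂ * f₂ = q := by omega
  have h5 : f₂ ≤ e₂ * f₂ := Nat.le_mul_of_pos_left _ (Nat.pos_of_ne_zero he₂)
  omega

/-- **(RES2)** Under the hypotheses of the two-extension lemma: for every `y' ∈ O₂` whose residue
class is not in the residue field of `V` but whose `q`-th power is, every element of `O₂` is
congruent modulo the maximal ideal of `O₂` to a `V`-combination of `1, y', …, y'^(q-1)`. -/
theorem res2 (hq : q.Prime) (hqV : (q : K) ∈ V.nonunits)
    (hdeg : Module.finrank K L = q + 1) (O₁ O₂ : ValuationSubring L)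
    (hO₁ : O₁.comap (algebraMap K L) = V) (hO₂ : O₂.comap (algebraMap K L) = V) (hne : O₁ ≠ O₂)
    (y : L) (hy : y ∈ O₂) (hyq : ∃ v ∈ V, y ^ q - algebraMap K L v ∈ O₂.nonunits)
    (hyV : ∀ v ∈ V, y - algebraMap K L v ∉ O₂.nonunits)
    (y' : L) (hy' : y' ∈ O₂) (hyq' : ∃ v ∈ V, y' ^ q - algebraMap K L v ∈ O₂.nonunits)
    (hyV' : ∀ v ∈ V, y' - algebraMap K L v ∉ O₂.nonunits) (g : L) (hg : g ∈ O₂) :
    ∃ c : Fin q → K, (∀ i, c i ∈ V) ∧
      g - ∑ i, algebraMap K L (c i) * y' ^ (i : ℕ) ∈ O₂.nonunits := by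
  classical
  have hf := inertiaDeg_two K L V q hq hqV hdeg O₁ O₂ hO₁ hO₂ hne y hy hyq hyV
  haveI : IsDedekindDomain (integralClosure V L) := integralClosure.isDedekindDomain V K L
  haveI : IsFractionRing (integralClosure V L) L :=
    integralClosure.isFractionRing_of_finite_extension K L
  haveI : Module.Finite V (integralClosure V L) :=
    IsIntegralClosure.finite V K L (integralClosure V L)
  have hinj : Function.Injective (algebraMap V (integralClosure V L)) := by
    intro a b hab
    have h1 : algebraMap K L (a : K) = algebraMap K L (b : K) :=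
      congrArg (fun z : integralClosure V L => (z : L)) hab
    exact Subtype.ext ((algebraMap K L).injective h1)
  haveI : Module.IsTorsionFree V (integralClosure V L) :=
    Module.isTorsionFree_iff_algebraMap_injective.mpr hinj
  have hp0 : IsLocalRing.maximalIdeal V ≠ ⊥ := IsDiscreteValuationRing.not_a_field V
  haveI hP₂ := primeOf_isPrime V O₂ hO₂
  haveI hL₂ := primeOf_liesOver V O₂ hO₂
  have hP₂0 : primeOf V O₂ hO₂ ≠ ⊥ := Ideal.ne_bot_of_liesOver_of_ne_bot hp0 _
  haveI hM₂ : (primeOf V O₂ hO₂).IsMaximal := hP₂.isMaximal hP₂0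
  obtain ⟨c, hc⟩ := exists_residue_rep V O₂ hO₂ hP₂0 hy'
  obtain ⟨cg, hcg⟩ := exists_residue_rep V O₂ hO₂ hP₂0 hg
  obtain ⟨v₀, hv₀V, hv₀⟩ := hyq'
  have hcO : (c : L) ∈ O₂ := mem_of_isIntegral V O₂ hO₂ c.2
  obtain ⟨a, ha⟩ := exists_sum_pow_of_inertiaDeg_eq (IsLocalRing.maximalIdeal V)
    (primeOf V O₂ hO₂) q hq (by
      rw [mem_primeOf]
      have h1 : (((q : ℕ) : integralClosure V L) : L) = algebraMap K L (q : K) := by simp
      rw [h1, algebraMap_mem_nonunits_iff V O₂ hO₂]
      exact hqV) c ⟨v₀, hv₀V⟩ (by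
      rw [mem_primeOf]
      have h1 : ((c ^ q - algebraMap V (integralClosure V L) ⟨v₀, hv₀V⟩ :
          integralClosure V L) : L) = (y' ^ q - algebraMap K L v₀) - (y' ^ q - (c : L) ^ q) := by
        have h2 : ((c ^ q - algebraMap V (integralClosure V L) ⟨v₀, hv₀V⟩ :
          integralClosure V L) : L) = (c : L) ^ q - algebraMap K L v₀ := rfl
        rw [h2]
        ring
      rw [h1]
      exact sub_mem_nonunits O₂ hv₀ (pow_sub_pow_mem_nonunits O₂ hy' hcO hc q)) (by
      intro v hv
      rw [mem_primeOf] at hv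
      apply hyV' v v.2
      have h1 : y' - algebraMap K L (v : K)
          = (y' - (c : L)) + ((c : L) - algebraMap K L (v : K)) := by
        ring
      rw [h1]
      exact add_mem_nonunits O₂ hc hv) hf cg
  refine ⟨fun i => (a i : K), fun i => (a i).2, ?_⟩
  rw [mem_primeOf] at ha
  have hcoe : ((cg - ∑ i, algebraMap V (integralClosure V L) (a i) * c ^ (i : ℕ) :
      integralClosure V L) : L) = (cg : L) - ∑ i, algebraMap K L (a i : K) * (c : L) ^ (i : ℕ) := by
    have h1 := map_sub (integralClosure V L).val cg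
      (∑ i, algebraMap V (integralClosure V L) (a i) * c ^ (i : ℕ))
    rw [map_sum] at h1
    exact h1
  rw [hcoe] at ha
  have hsplit : g - ∑ i, algebraMap K L (a i : K) * y' ^ (i : ℕ)
      = (g - (cg : L)) + ((cg : L) - ∑ i, algebraMap K L (a i : K) * (c : L) ^ (i : ℕ))
        - ∑ i, algebraMap K L (a i : K) * (y' ^ (i : ℕ) - (c : L) ^ (i : ℕ)) := by
    simp only [mul_sub, Finset.sum_sub_distrib]
    ring
  rw [hsplit]
  refine sub_mem_nonunits O₂ (add_mem_nonunits O₂ hcg ha) (sum_mem_nonunits O₂ _ _ fun i _ => ?_)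
  rw [mul_comm]
  exact mul_mem_nonunits_left O₂ (pow_sub_pow_mem_nonunits O₂ hy' hcO hc _)
    ((algebraMap_mem_iff V O₂ hO₂ _).mpr (a i).2)

omit [FiniteDimensional K L] [CharZero K] [IsDiscreteValuationRing ↥V] in
/-- **The supplier of `PreNode.frac2`.**  `S → K`, `R → L` compatible ring homomorphisms with
`V` the localisation of `S` at the complement of `m_V` (every element of `V` is `s / d` with `d` a
unit of `V`), `R` mapping into `O₂` with `P2` the contraction of the maximal ideal of `O₂`, and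
`x ∈ R` such that every element of `O₂` is a `V`-combination of `1, x, …, x^(q-1)` modulo the
maximal ideal (`res2`).  Then the fraction field of `R/P2` is generated by `x`. -/
theorem frac2_of_res2 {S R : Type*} [CommRing S] [CommRing R] [Algebra S R]
    (O₂ : ValuationSubring L) (hO₂ : O₂.comap (algebraMap K L) = V)
    (iS : S →+* K) (iR : R →+* L)
    (hcomm : ∀ s : S, iR (algebraMap S R s) = algebraMap K L (iS s))
    (hSV : ∀ s : S, iS s ∈ V)
    (hV : ∀ v ∈ V, ∃ d s : S, iS d ∉ V.nonunits ∧ v * iS d = iS s)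
    (P2 : Ideal R) (hP2 : ∀ r : R, r ∈ P2 ↔ iR r ∈ O₂.nonunits) (hR : ∀ r : R, iR r ∈ O₂)
    (x : R)
    (hres : ∀ g ∈ O₂, ∃ c : Fin q → K, (∀ i, c i ∈ V) ∧
      g - ∑ i, algebraMap K L (c i) * iR x ^ (i : ℕ) ∈ O₂.nonunits)
    (r : R) :
    ∃ d f : Polynomial S, Polynomial.aeval x d ∉ P2 ∧
      Polynomial.aeval x d * r - Polynomial.aeval x f ∈ P2 := by
  classical
  obtain ⟨c, hcV, hc⟩ := hres (iR r) (hR r)
  choose d s hd hs using fun i => hV (c i) (hcV i)
  set D : S := ∏ i, d i with hD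
  have hDi : ∀ i, D = d i * ∏ j ∈ Finset.univ.erase i, d j := fun i =>
    (Finset.mul_prod_erase Finset.univ d (Finset.mem_univ i)).symm
  have hDV : iS D ∉ V.nonunits := by
    rw [hD, map_prod, not_mem_nonunits_iff]
    refine ⟨Finset.prod_ne_zero_iff.mpr fun i _ => ((not_mem_nonunits_iff V _).mp (hd i)).1, ?_⟩
    rw [← Finset.prod_inv_distrib]
    exact prod_mem fun i _ => ((not_mem_nonunits_iff V _).mp (hd i)).2
  have hDL : algebraMap K L (iS D) ∉ O₂.nonunits := by
    rw [algebraMap_mem_nonunits_iff V O₂ hO₂]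
    exact hDV
  refine ⟨Polynomial.C D,
    ∑ i : Fin q, Polynomial.C (s i * ∏ j ∈ Finset.univ.erase i, d j) * Polynomial.X ^ (i : ℕ),
    ?_, ?_⟩
  · rw [Polynomial.aeval_C, hP2, hcomm]
    exact hDL
  · rw [hP2, map_sub, map_mul, Polynomial.aeval_C, hcomm, map_sum]
    have e : ∀ i : Fin q, iR (Polynomial.aeval x
        (Polynomial.C (s i * ∏ j ∈ Finset.univ.erase i, d j) * Polynomial.X ^ (i : ℕ)))
        = algebraMap K L (iS D) * (algebraMap K L (c i) * iR x ^ (i : ℕ)) := by
      intro i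
      rw [map_mul, Polynomial.aeval_C, map_pow, Polynomial.aeval_X, map_mul, hcomm, map_pow,
        map_mul, map_mul, ← hs i, ← mul_assoc, ← map_mul, ← map_mul]
      congr 2
      rw [mul_assoc, ← map_mul, ← hDi i, mul_comm]
    rw [map_sum, Finset.sum_congr rfl fun i _ => e i, ← Finset.mul_sum, ← mul_sub, mul_comm]
    exact mul_mem_nonunits_left O₂ hc ((algebraMap_mem_iff V O₂ hO₂ _).mpr (hSV D))

end main

end Fermat.Agent.S34.H36
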