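/-
S34 / Program B', M6b (helper36): **the hypothesis `hunr` of the regular node at a crossing point,
on the concrete model, for all three standard base functions** (`j(q^M)` for `q ≥ 5`, the
Hauptmodul of level two for `q = 3`, of level three for `q = 2`).

On a Hauptmodul chart the degeneracy map `α` is ramified at the cusps inside the chart, so the
unramifiedness of the level-`Mq` chart over the level-`M` chart only holds over the points which
are not zeros of `D(x)` (`j(q^M) · D(x) = N(x)`).  A crossing point of the two components of the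
special fibre is not a zero of `D(x)` (helper19's local form of (M6c)), and at the places through
such a point `j` is finite, so `α` is unramified there (helper60 / helper92, no elliptic points).

* `jgen_mem_of_alpha_jtop_mem`, `exists_place_ord_alpha_eq_of_rel` : places;
* `aeval_notMem_of_both` : a point on both components is not a zero of `D`;
* `hunr_chart_le_of_place`, `hunr_chart_le_of_place_top` : helper59's `H59.hunr_chart_le` with the
  hypothesis on places asked only where `α x` is finite and `α (D(x))` is a unit;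
* `hunr_le_of_jrel` : the concrete statement on the `E`-forms for a coordinate with a
  `j`-relation;
* `hunr_le_stdB`, `hunr_stdB` : the same for the standard base function (`H30.StdB`), in the
  shapes of `H68.hunr_le_of_comap_le` and of the hypothesis `hunr` of
  `H68.crossing_regular_of_dsetup_le`.
-/
import Fermat.Agent.S34.H60.HUnrModular
import Fermat.Agent.S37.H46.RegionModular
import Fermat.Agent.S34.H64.ChartJ
import Fermat.Agent.S34.H19.CuspTop
import Fermat.Agent.S34.H59.HUnrChart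
import Fermat.Agent.S34.H59.FDeg
import Fermat.Agent.S34.H61.Concrete3
import Fermat.Agent.S34.H68.CrossNode2
import Fermat.Agent.S34.H19.HauptRel
import Fermat.Agent.S34.H30.Final

set_option autoImplicit false
set_option linter.style.haveILetI false
set_option linter.unusedSectionVars false

open AlgebraicCurve ModularCurve Polynomial

noncomputable section

namespace Fermat.Agent.S34.H36

open Fermat.Agent.S18 Fermat.Agent.S18.H74 Fermat.Agent.S18.H19 Fermat.Agent.S34.H19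
  Fermat.Agent.S34.H61 Fermat.Agent.S34.H64

/-! ### Places: `j(q^M)` finite implies `j` finite -/

section Places

/-- Integer polynomials preserve a valuation subring. -/
theorem aeval_int_mem_valuationSubring {F : Type*} [Field F] (O : ValuationSubring F) {y : F}
    (hy : y ∈ O) (P : ℤ[X]) : aeval y P ∈ O := by
  induction P using Polynomial.induction_on' with
  | add p q hp hq =>
    rw [map_add]
    exact O.add_mem _ _ hp hq
  | monomial n a =>
    rw [aeval_monomial]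
    refine O.mul_mem _ _ ?_ (pow_mem hy n)
    rw [eq_intCast]
    exact intCast_mem O a

variable (M q : ℕ) [NeZero M] [NeZero q]

/-- If `α(j(q^M))` is finite at a place of `F_{Mq}`, so is `j`. -/
theorem jgen_mem_of_alpha_jtop_mem (w : Place Kb (FN (M * q)))
    (h : heckeAlphaBar Kb M q (Fermat.Agent.S18.H28.jtop M) ∈ w.toValuationSubring) :
    Fermat.Agent.S24.jgen (M * q) ∈ w.toValuationSubring := by
  rw [heckeAlphaBar_jtop] at h
  obtain ⟨c, hc⟩ := Fermat.Agent.S37.H46.hasValues_FN (M * q) w _ h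
  have h1 : Fermat.Agent.S18.H28.jFN (M * q) M (dvd_mul_right M q) ∈
      Fermat.Agent.S37.H46.valRing (⊤ : ValuationSubring Kb) w := ⟨c, trivial, hc⟩
  have h2 := (Fermat.Agent.S37.H46.jFN_mem_valRing_iff (⊤ : ValuationSubring Kb) w M 1
    (dvd_mul_right M q) (one_dvd _)).mp h1
  rw [jgen_eq_jFN]
  exact Fermat.Agent.S37.H46.mem_of_mem_valRing h2

/-- **`e = 1` at the places where a coordinate with `j(q^M) · D(x₀) = N(x₀)` is finite and
`D(x₀)` is a unit.** -/
theorem exists_place_ord_alpha_eq_of_rel (hN : Fermat.Agent.S34.H92.NoElliptic M) (x₀ : FN M)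
    (N D : ℤ[X])
    (hrel : Fermat.Agent.S18.H28.jtop M * aeval x₀ D = aeval x₀ N)
    (hD0 : aeval x₀ D ≠ 0)
    (w : Place Kb (FN (M * q)))
    (hx : heckeAlphaBar Kb M q x₀ ∈ w.toValuationSubring)
    (hD : (heckeAlphaBar Kb M q (aeval x₀ D))⁻¹ ∈ w.toValuationSubring) :
    ∃ v : Place Kb (FN M), ∀ f : FN M, v.ord f = w.ord (heckeAlphaBar Kb M q f) := by
  refine Fermat.Agent.S34.H60.exists_place_ord_alpha_eq M q hN w
    (jgen_mem_of_alpha_jtop_mem M q w ?_)
  have hαD0 : heckeAlphaBar Kb M q (aeval x₀ D) ≠ 0 :=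
    (map_ne_zero_iff _ (heckeAlphaBar Kb M q).toRingHom.injective).mpr hD0
  have hαN : heckeAlphaBar Kb M q (aeval x₀ N) ∈ w.toValuationSubring := by
    have e : heckeAlphaBar Kb M q (aeval x₀ N) = aeval (heckeAlphaBar Kb M q x₀) N :=
      (Polynomial.aeval_algHom_apply (heckeAlphaBar Kb M q).toRingHom.toIntAlgHom x₀ N).symm
    rw [e]
    exact aeval_int_mem_valuationSubring _ hx N
  have e2 : heckeAlphaBar Kb M q (Fermat.Agent.S18.H28.jtop M) =
      heckeAlphaBar Kb M q (aeval x₀ N) * (heckeAlphaBar Kb M q (aeval x₀ D))⁻¹ := by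
    rw [← hrel, map_mul, mul_assoc, mul_inv_cancel₀ hαD0, mul_one]
  rw [e2]
  exact (w.toValuationSubring).mul_mem _ _ hαN hD

end Places

/-! ### A crossing point is not a zero of `D` -/

section NonCusp

variable {M q : ℕ} [NeZero M] [Fact q.Prime] {hqM : ¬ q ∣ M} {A : ValuationSubring Kb}
  {hA : A.LiesOverPrime q} {O₁ : ValuationSubring ↥(modularFunctionFieldBar (M * q))}
  {w : ↥(modularFunctionFieldBar (M * q)) ≃+* ↥(modularFunctionFieldBar (M * q))}

/-- Integer polynomials commute with the inclusion of a subalgebra. -/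
theorem coe_aeval_int {A₀ F₀ : Type*} [CommRing A₀] [Field F₀] [Algebra A₀ F₀]
    (C₀ : Subalgebra A₀ F₀) (t : ↥C₀) (P : ℤ[X]) :
    ((aeval t P : ↥C₀) : F₀) = aeval (t : F₀) P :=
  (Polynomial.aeval_algHom_apply ((C₀.val : ↥C₀ →+* F₀).toIntAlgHom) t P).symm

/-- **A point on both components is not a zero of `D`** (`j₁ · D(t) = N(t)`, `N` and `D`
coprime up to an integer which is a unit at the point; for a Hauptmodul `t`: the point is not a
cusp inside the finite chart). -/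
theorem aeval_notMem_of_both (h : TwoGauss M q hqM A hA O₁ w)
    {A₀ F₀ : Type*} [CommRing A₀] [Field F₀] [Algebra A₀ F₀]
    (ι : F₀ →+* ↥(modularFunctionFieldBar (M * q)))
    (C₀ : Subalgebra A₀ F₀) [IsIntegrallyClosed ↥C₀]
    (hfrac : ∀ y : F₀, ∃ a ∈ C₀, ∃ b ∈ C₀, b ≠ 0 ∧ y = a / b)
    (j₁ j₂ : F₀) (hι₁ : ι j₁ = heckeAlphaBar Kb M q (Fermat.Agent.S18.H28.jtop M))
    (hι₂ : ι j₂ = heckeBetaBar Kb M q (Fermat.Agent.S18.H28.jtop M))
    (hC₁ : ∀ c ∈ C₀, ι c ∈ O₁) (hC₂ : ∀ c ∈ C₀, ι c ∈ secondGauss O₁ w)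
    (x : Ideal ↥C₀) [hx : x.IsPrime]
    (hb₁ : ∀ c : ↥C₀, ι (c : F₀) ∈ O₁.nonunits → c ∈ x)
    (hb₂ : ∀ c : ↥C₀, ι (c : F₀) ∈ (secondGauss O₁ w).nonunits → c ∈ x)
    (t : ↥C₀) (N D : ℤ[X]) (hrel : j₁ * aeval (t : F₀) D = aeval (t : F₀) N)
    (a b : ℤ[X]) (r : ℤ) (hr : (r : ↥C₀) ∉ x) (hab : a * N + b * D = Polynomial.C r) :
    aeval t D ∉ x := by
  intro hD
  have hNx : aeval t N ∉ x := by
    intro hN
    apply hr
    have h1 : aeval t (a * N + b * D) ∈ x := by
      rw [map_add, map_mul, map_mul]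
      exact x.add_mem (x.mul_mem_left _ hN) (x.mul_mem_left _ hD)
    rw [hab, aeval_C] at h1
    simpa using h1
  have hj₁ : j₁ ≠ 0 := by
    rintro rfl
    rw [zero_mul] at hrel
    apply hNx
    have e : aeval t N = 0 := by
      apply Subtype.ext
      rw [coe_aeval_int, ← hrel]
      rfl
    rw [e]
    exact x.zero_mem
  refine cusp_not_both_twoGauss_top_loc h ι C₀ hfrac j₁ j₂ hι₁ hι₂ hC₁ hC₂ x (aeval t D)
    (aeval t N) hD hNx ?_ ⟨hb₁, hb₂⟩
  rw [coe_aeval_int, coe_aeval_int, ← hrel, ← mul_assoc, inv_mul_cancel₀ hj₁, one_mul]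

end NonCusp

/-! ### The chart-level statement for a coordinate with a `j`-relation -/

section Layer1

open IntermediateField

variable {k K : Type*} [Field k] [Field K] [Algebra k K] (K₀ : IntermediateField k K)
  {FM FN : Type*} [Field FM] [Field FN] [Algebra K FM] [Algebra K FN]
  (F0M : IntermediateField K₀ FM) (F0N : IntermediateField K₀ FN)
  {A₀ : Type*} [CommRing A₀] [IsDomain A₀] [IsDiscreteValuationRing A₀] [CharZero A₀]
  [Algebra A₀ K₀] [IsFractionRing A₀ K₀]
  [Algebra A₀ F0M] [FaithfulSMul A₀ F0M]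
  [Algebra A₀ F0N] [IsScalarTower A₀ K₀ F0N] [FaithfulSMul A₀ F0N]

/-- **Chart-level (U-GEOM) over a point which is not a zero of `D`**: `H59.hunr_chart_le`, with
the hypothesis `e = 1` asked only at the places of `FN` where `α x` is finite and `α (D(x))` is a
unit (`hplace`), for a point `s` of the lower chart with `D(x) ∉ s`. -/
theorem hunr_chart_le_of_place [Algebra.IsAlgebraic K₀ K] [CharZero K]
    (q : ℕ) (hqA : Irreducible ((q : ℕ) : A₀))
    (x : F0M) (htr : Transcendental A₀ x) (hfin : Module.Finite ↥(ratSub A₀ x) F0M)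
    (y : F0N) (htr' : Transcendental A₀ y) (hfin' : Module.Finite ↥(ratSub A₀ y) F0N)
    [Algebra ↥(chart A₀ x) ↥(chart A₀ y)]
    (α : FM →+* FN) (hαA : ∀ a : A₀, α ((algebraMap A₀ F0M a : F0M) : FM) =
      ((algebraMap A₀ F0N a : F0N) : FN))
    (hαx : α ((x : F0M) : FM) = ((y : F0N) : FN))
    (hcompat : ∀ s : ↥(chart A₀ x),
      (((algebraMap ↥(chart A₀ x) ↥(chart A₀ y) s : ↥(chart A₀ y)) : F0N) : FN) =
        α (((s : F0M)) : FM))
    (xN : FN) [FiniteDimensional K⟮xN⟯ FN]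
    (hcomp : Subfield.closure ((F0M : Set FM) ∪ Set.range (algebraMap K FM)) = ⊤)
    (D : ℤ[X])
    (hplace : ∀ w : Place K FN, α ((x : F0M) : FM) ∈ w.toValuationSubring →
      (α (aeval ((x : F0M) : FM) D))⁻¹ ∈ w.toValuationSubring →
      ∃ v : Place K FM, ∀ f : FM, v.ord f = w.ord (α f))
    (s : Ideal ↥(chart A₀ x))
    (hDs : aeval (⟨x, self_mem_chart A₀ x⟩ : ↥(chart A₀ x)) D ∉ s) :
    ∀ Q : Ideal ↥(chart A₀ y), Q.IsPrime → ((q : ℕ) : ↥(chart A₀ y)) ∉ Q →
      Q.comap (algebraMap ↥(chart A₀ x) ↥(chart A₀ y)) ≤ s → ∀ a ∈ Q, ∃ b ∉ Q,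
      b * a ∈ Ideal.map (algebraMap ↥(chart A₀ x) ↥(chart A₀ y))
        (Q.comap (algebraMap ↥(chart A₀ x) ↥(chart A₀ y))) := by
  refine Fermat.Agent.S34.H59.hunr_chart_le K₀ F0M F0N q hqA x htr hfin y htr' hfin' α hαA hαx
    hcompat xN hcomp s ?_
  intro Q hQ hqQ hQs w hw hcentre
  refine hplace w ?_ ?_
  · rw [hαx]
    exact hw y (self_mem_chart A₀ y)
  · set d : ↥(chart A₀ x) := aeval (⟨x, self_mem_chart A₀ x⟩ : ↥(chart A₀ x)) D with hd
    have hdQ : algebraMap ↥(chart A₀ x) ↥(chart A₀ y) d ∉ Q := fun hmem => hDs (hQs hmem)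
    have hd0 : algebraMap ↥(chart A₀ x) ↥(chart A₀ y) d ≠ 0 := fun h0 => hdQ (h0 ▸ Q.zero_mem)
    have e1 : ((d : F0M) : FM) = aeval ((x : F0M) : FM) D := by
      have e2 : (d : F0M) = aeval (x : F0M) D := coe_aeval_int (chart A₀ x) _ D
      rw [e2]
      exact (Polynomial.aeval_algHom_apply ((algebraMap F0M FM).toIntAlgHom) x D).symm
    have e3 := hcompat d
    rw [e1] at e3
    rw [← e3]
    have hmem := hw _ (algebraMap ↥(chart A₀ x) ↥(chart A₀ y) d).2
    have hne : (((algebraMap ↥(chart A₀ x) ↥(chart A₀ y) d : ↥(chart A₀ y)) : F0N) : FN) ≠ 0 :=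
      fun h0 => hd0 (Subtype.ext (Subtype.ext h0))
    have h1 := (Fermat.Agent.S24.mem_iff_ord_nonneg w hne).mp hmem
    have h2 := (hcentre _ hd0).not.mp hdQ
    rw [Fermat.Agent.S24.mem_iff_ord_nonneg w (inv_ne_zero hne), Place.ord_inv]
    omega

/-- Integer polynomials commute with the inclusion of an intermediate field. -/
theorem coe_aeval_int_field {K' F : Type*} [Field K'] [Field F] [Algebra K' F]
    (F0 : IntermediateField K' F) (t : F0) (P : ℤ[X]) :
    ((aeval t P : F0) : F) = aeval (t : F) P :=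
  (Polynomial.aeval_algHom_apply ((algebraMap F0 F).toIntAlgHom) t P).symm

/-- A `j`-relation with integer coefficients descends along an embedding of fields. -/
theorem rel_of_map {F0 F : Type*} [Field F0] [Field F] (ι : F0 →+* F) (j₁ t : F0) (N D : ℤ[X])
    (h : ι j₁ * aeval (ι t) D = aeval (ι t) N) : j₁ * aeval t D = aeval t N := by
  apply ι.injective
  have e : ∀ P : ℤ[X], ι (aeval t P) = aeval (ι t) P :=
    fun P => (Polynomial.aeval_algHom_apply ι.toIntAlgHom t P).symm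
  rw [map_mul, e, e]
  exact h

/-- **Chart-level (U-GEOM) over a point of the upper chart which is not a zero of `D`**:
`hunr_chart_le_of_place` at the image `s = Y ∩ S₀` of a prime `Y` of the upper chart with
`D(y) ∉ Y` (`y = α x` the coordinate of the upper chart). -/
theorem hunr_chart_le_of_place_top [Algebra.IsAlgebraic K₀ K] [CharZero K]
    (q : ℕ) (hqA : Irreducible ((q : ℕ) : A₀))
    (x : F0M) (htr : Transcendental A₀ x) (hfin : Module.Finite ↥(ratSub A₀ x) F0M)
    (y : F0N) (htr' : Transcendental A₀ y) (hfin' : Module.Finite ↥(ratSub A₀ y) F0N)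
    [Algebra ↥(chart A₀ x) ↥(chart A₀ y)]
    (α : FM →+* FN) (hαA : ∀ a : A₀, α ((algebraMap A₀ F0M a : F0M) : FM) =
      ((algebraMap A₀ F0N a : F0N) : FN))
    (hαx : α ((x : F0M) : FM) = ((y : F0N) : FN))
    (hcompat : ∀ s : ↥(chart A₀ x),
      (((algebraMap ↥(chart A₀ x) ↥(chart A₀ y) s : ↥(chart A₀ y)) : F0N) : FN) =
        α (((s : F0M)) : FM))
    (xN : FN) [FiniteDimensional K⟮xN⟯ FN]
    (hcomp : Subfield.closure ((F0M : Set FM) ∪ Set.range (algebraMap K FM)) = ⊤)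
    (D : ℤ[X])
    (hplace : ∀ w : Place K FN, α ((x : F0M) : FM) ∈ w.toValuationSubring →
      (α (aeval ((x : F0M) : FM) D))⁻¹ ∈ w.toValuationSubring →
      ∃ v : Place K FM, ∀ f : FM, v.ord f = w.ord (α f))
    (Y : Ideal ↥(chart A₀ y))
    (hDY : aeval (⟨y, self_mem_chart A₀ y⟩ : ↥(chart A₀ y)) D ∉ Y) :
    ∀ Q : Ideal ↥(chart A₀ y), Q.IsPrime → ((q : ℕ) : ↥(chart A₀ y)) ∉ Q →
      Q.comap (algebraMap ↥(chart A₀ x) ↥(chart A₀ y)) ≤
        Y.comap (algebraMap ↥(chart A₀ x) ↥(chart A₀ y)) → ∀ a ∈ Q, ∃ b ∉ Q,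
      b * a ∈ Ideal.map (algebraMap ↥(chart A₀ x) ↥(chart A₀ y))
        (Q.comap (algebraMap ↥(chart A₀ x) ↥(chart A₀ y))) := by
  refine hunr_chart_le_of_place K₀ F0M F0N q hqA x htr hfin y htr' hfin' α hαA hαx hcompat xN
    hcomp D hplace (Y.comap (algebraMap ↥(chart A₀ x) ↥(chart A₀ y))) ?_
  intro hmem
  apply hDY
  have e : algebraMap ↥(chart A₀ x) ↥(chart A₀ y)
      (aeval (⟨x, self_mem_chart A₀ x⟩ : ↥(chart A₀ x)) D) =
      aeval (⟨y, self_mem_chart A₀ y⟩ : ↥(chart A₀ y)) D := by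
    have h1 : α (aeval ((x : F0M) : FM) D) = aeval ((y : F0N) : FN) D := by
      rw [← hαx]
      exact (Polynomial.aeval_algHom_apply α.toIntAlgHom ((x : F0M) : FM) D).symm
    have eL : (((algebraMap ↥(chart A₀ x) ↥(chart A₀ y)
        (aeval (⟨x, self_mem_chart A₀ x⟩ : ↥(chart A₀ x)) D) : ↥(chart A₀ y)) : F0N) : FN) =
        aeval ((y : F0N) : FN) D := by
      rw [hcompat, coe_aeval_int, coe_aeval_int_field]
      exact h1
    have eR : (((aeval (⟨y, self_mem_chart A₀ y⟩ : ↥(chart A₀ y)) D : ↥(chart A₀ y)) : F0N) :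
        FN) = aeval ((y : F0N) : FN) D := by
      rw [coe_aeval_int, coe_aeval_int_field]
    exact Subtype.ext (Subtype.ext (eL.trans eR.symm))
  rw [← e]
  exact hmem

end Layer1

/-! ### The concrete statement on the `E`-forms -/

section Concrete

open Fermat.Agent.S34.H68

variable (M q : ℕ) [NeZero M] [hqF : Fact q.Prime] (hqM : ¬ q ∣ M)
  (A : ValuationSubring Kb) (hA : A.LiesOverPrime q)
  (O₁ : ValuationSubring (FN (M * q))) (w : FN (M * q) ≃+* FN (M * q))
  (E : IntermediateField ℚ Kb)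

set_option maxHeartbeats 400000 in
/-- **`hunr` over a crossing point, for a coordinate with a `j`-relation**: the hypothesis of
`H68.hunr_le_of_comap_le` (hence `hunr` of `H68.crossing_regular_of_dsetup_le`) on the `E`-forms,
for a coordinate `x` of level `M` with `j(q^M) · D(x) = N(x)` (`a N + b D = r`, `q ∤ r`), at a
prime `y` of the level-`Mq` chart containing both components of the special fibre. -/
theorem hunr_le_of_jrel (hNoEll : Fermat.Agent.S34.H92.NoElliptic M)
    (hTG : TwoGauss M q hqM A hA O₁ w)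
    [IsDiscreteValuationRing ↥(A.comap (algebraMap E Kb))]
    (hqA : Irreducible ((q : ℕ) : ↥(A.comap (algebraMap E Kb))))
    (x : ↥(ratForm M E))
    (hS : @DSetup ↥(A.comap (algebraMap E Kb)) _ ↥(ratForm M E) _ (algComap (A.comap (algebraMap E Kb)) (ratForm M E))
      ((Fermat.Agent.S18.H66.gaussO A M hA hqM).comap (algebraMap ↥(ratForm M E) (FN M))) x)
    (N D : ℤ[X])
    (hrel : Fermat.Agent.S18.H28.jtop M * aeval (x : FN M) D = aeval (x : FN M) N)
    (a b : ℤ[X]) (r : ℤ) (hr : ¬ (q : ℤ) ∣ r) (hab : a * N + b * D = Polynomial.C r) :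
    letI := algComap (A.comap (algebraMap E Kb)) (ratForm M E)
    letI := algComap (A.comap (algebraMap E Kb)) (ratForm (M * q) E)
    letI := algAlpha M q E
    haveI := isScalarTower_algAlpha M q E A
    ∀ (y : Ideal ↥(chart ↥(A.comap (algebraMap E Kb)) (algebraMap ↥(ratForm M E) ↥(ratForm (M * q) E) x))) [y.IsPrime],
      (∀ c : ↥(chart ↥(A.comap (algebraMap E Kb)) (algebraMap ↥(ratForm M E) ↥(ratForm (M * q) E) x)),
        (c : ↥(ratForm (M * q) E)) ∈ (O₁.comap (algebraMap ↥(ratForm (M * q) E) (FN (M * q)))).nonunits → c ∈ y) →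
      (∀ c : ↥(chart ↥(A.comap (algebraMap E Kb)) (algebraMap ↥(ratForm M E) ↥(ratForm (M * q) E) x)),
        (c : ↥(ratForm (M * q) E)) ∈ ((gaussTwo M q O₁ w).comap (algebraMap ↥(ratForm (M * q) E) (FN (M * q)))).nonunits → c ∈ y) →
      ∀ Q : Ideal ↥(chart ↥(A.comap (algebraMap E Kb)) (algebraMap ↥(ratForm M E) ↥(ratForm (M * q) E) x)), Q.IsPrime →
        ((q : ℕ) : ↥(chart ↥(A.comap (algebraMap E Kb)) (algebraMap ↥(ratForm M E) ↥(ratForm (M * q) E) x))) ∉ Q →
        Q.comap (chartMap (A₀ := ↥(A.comap (algebraMap E Kb))) (L := ↥(ratForm (M * q) E)) x) ≤ y.comap (chartMap (A₀ := ↥(A.comap (algebraMap E Kb))) (L := ↥(ratForm (M * q) E)) x) →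
        ∀ a ∈ Q, ∃ b ∉ Q, b * a ∈ Ideal.map (chartMap (A₀ := ↥(A.comap (algebraMap E Kb))) (L := ↥(ratForm (M * q) E)) x)
          (Q.comap (chartMap (A₀ := ↥(A.comap (algebraMap E Kb))) (L := ↥(ratForm (M * q) E)) x)) := by
  letI algK := algComap (A.comap (algebraMap E Kb)) (ratForm M E)
  letI algL := algComap (A.comap (algebraMap E Kb)) (ratForm (M * q) E)
  letI algKL := algAlpha M q E
  haveI tow := isScalarTower_algAlpha M q E A
  letI modK : Module ↥(A.comap (algebraMap E Kb)) ↥(ratForm M E) := algK.toModule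
  letI modL : Module ↥(A.comap (algebraMap E Kb)) ↥(ratForm (M * q) E) := algL.toModule
  letI smulK : SMul ↥(A.comap (algebraMap E Kb)) ↥(ratForm M E) := algK.toSMul
  letI smulL : SMul ↥(A.comap (algebraMap E Kb)) ↥(ratForm (M * q) E) := algL.toSMul
  intro y hy hb₁ hb₂
  have hq : q.Prime := hqF.out
  haveI faithK : FaithfulSMul ↥(A.comap (algebraMap E Kb)) ↥(ratForm M E) := Fermat.Agent.S34.H78.faithfulSMul_comap A E (ratForm M E)
  haveI faithL : FaithfulSMul ↥(A.comap (algebraMap E Kb)) ↥(ratForm (M * q) E) :=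
    Fermat.Agent.S34.H78.faithfulSMul_comap A E (ratForm (M * q) E)
  haveI towE : IsScalarTower ↥(A.comap (algebraMap E Kb)) ↥E ↥(ratForm (M * q) E) := IsScalarTower.of_algebraMap_eq (fun _ => rfl)
  letI modKL : Module ↥(ratForm M E) ↥(ratForm (M * q) E) := (algAlpha M q E).toModule
  haveI finKL : Module.Finite ↥(ratForm M E) ↥(ratForm (M * q) E) := Fermat.Agent.S34.H59.finite_alphaForm M q E hq hqM
  haveI finK : Module.Finite ↥(ratSub ↥(A.comap (algebraMap E Kb)) x) ↥(ratForm M E) := hS.finite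
  have htr' : Transcendental ↥(A.comap (algebraMap E Kb)) (algebraMap ↥(ratForm M E) ↥(ratForm (M * q) E) x) := transcendental_top x hS.transc
  have hfin' : Module.Finite ↥(ratSub ↥(A.comap (algebraMap E Kb)) (algebraMap ↥(ratForm M E) ↥(ratForm (M * q) E) x)) ↥(ratForm (M * q) E) := finite_ratSub_top x
  haveI : FiniteDimensional (IntermediateField.adjoin Kb {Fermat.Agent.S24.jgen (M * q)})
      (FN (M * q)) := Fermat.Agent.S18.H55.finiteDimensional_jgen (M * q)
  letI algSC := chartAlgTop (A₀ := ↥(A.comap (algebraMap E Kb))) (L := ↥(ratForm (M * q) E)) x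
  -- `D(x) ≠ 0`
  have hr0 : r ≠ 0 := by
    rintro rfl
    exact hr (dvd_zero _)
  have hD0 : aeval (x : FN M) D ≠ 0 := by
    intro h0
    have hN0 : aeval (x : FN M) N = 0 := by rw [← hrel, h0, mul_zero]
    have h1 : aeval (x : FN M) (a * N + b * D) = 0 := by
      rw [map_add, map_mul, map_mul, hN0, h0, mul_zero, mul_zero, add_zero]
    rw [hab, aeval_C] at h1
    have h2 : ((r : ℤ) : FN M) = 0 := by simpa using h1
    exact hr0 (Int.cast_eq_zero.mp h2)
  -- the places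
  have hplace : ∀ w' : Place Kb (FN (M * q)),
      heckeAlphaBar Kb M q (x : FN M) ∈ w'.toValuationSubring →
      (heckeAlphaBar Kb M q (aeval (x : FN M) D))⁻¹ ∈ w'.toValuationSubring →
      ∃ v : Place Kb (FN M), ∀ f : FN M, v.ord f = w'.ord (heckeAlphaBar Kb M q f) :=
    fun w' hx hD => exists_place_ord_alpha_eq_of_rel M q hNoEll (x : FN M) N D hrel hD0 w' hx hD
  -- the crossing point is not a zero of `D`
  haveI icl : IsIntegrallyClosed ↥(chart ↥(A.comap (algebraMap E Kb)) (algebraMap ↥(ratForm M E) ↥(ratForm (M * q) E) x)) :=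
    Fermat.Agent.S18.H95.isIntegrallyClosed_chart _
  have hfracL := Fermat.Agent.S18.H95.chart_frac_sub (algebraMap ↥(ratForm M E) ↥(ratForm (M * q) E) x) htr' hfin'
  have hjt : Fermat.Agent.S18.H28.jtop M ∈ ratForm M E := jFN_mem_ratForm M E M dvd_rfl
  have hc₁ : ∀ v : ↥(ratForm M E), algebraMap ↥(ratForm M E) ↥(ratForm (M * q) E) v ∈ O₁.comap (algebraMap ↥(ratForm (M * q) E) (FN (M * q))) ↔
      v ∈ (Fermat.Agent.S18.H66.gaussO A M hA hqM).comap (algebraMap ↥(ratForm M E) (FN M)) :=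
    fun v => alphaForm_mem_comap_iff hTG E v
  have hc₂ : ∀ v : ↥(ratForm M E), algebraMap ↥(ratForm M E) ↥(ratForm (M * q) E) v ∈
      (gaussTwo M q O₁ w).comap (algebraMap ↥(ratForm (M * q) E) (FN (M * q))) ↔
      v ∈ (Fermat.Agent.S18.H66.gaussO A M hA hqM).comap (algebraMap ↥(ratForm M E) (FN M)) :=
    fun v => alphaForm_mem_comap_gaussTwo_iff hTG E v
  have hC₁ := chart_top_le _ x hS _ hc₁
  have hC₂ := chart_top_le _ x hS _ hc₂
  have hqy : ((q : ℕ) : ↥(chart ↥(A.comap (algebraMap E Kb)) (algebraMap ↥(ratForm M E) ↥(ratForm (M * q) E) x))) ∈ y := by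
    apply hb₁
    have hqK0 : algebraMap ↥(A.comap (algebraMap E Kb)) ↥(ratForm M E) ((q : ℕ) : ↥(A.comap (algebraMap E Kb))) ∈
        ((Fermat.Agent.S18.H66.gaussO A M hA hqM).comap (algebraMap ↥(ratForm M E) (FN M))).nonunits :=
      Fermat.Agent.S18.H80.ds_unif_mem_nonunits hqA hS
    rw [map_natCast] at hqK0
    have h1 := (Fermat.Agent.S34.H6.algebraMap_mem_nonunits_iff _ _
      (comap_eq_of_forall _ _ hc₁) ((q : ℕ) : ↥(ratForm M E))).mpr hqK0
    rw [map_natCast] at h1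
    exact_mod_cast h1
  have hry : ((r : ℤ) : ↥(chart ↥(A.comap (algebraMap E Kb)) (algebraMap ↥(ratForm M E) ↥(ratForm (M * q) E) x))) ∉ y := by
    intro hrm
    have hcop : IsCoprime (q : ℤ) r :=
      (Nat.prime_iff_prime_int.mp hq).irreducible.coprime_iff_not_dvd.mpr hr
    obtain ⟨u, v, huv⟩ := hcop
    apply hy.ne_top
    rw [Ideal.eq_top_iff_one]
    have h1 : ((u : ℤ) : ↥(chart ↥(A.comap (algebraMap E Kb)) (algebraMap ↥(ratForm M E) ↥(ratForm (M * q) E) x))) * ((q : ℕ) : _) +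
        ((v : ℤ) : _) * ((r : ℤ) : _) = 1 := by
      exact_mod_cast congrArg (Int.cast : ℤ → ↥(chart ↥(A.comap (algebraMap E Kb)) (algebraMap ↥(ratForm M E) ↥(ratForm (M * q) E) x))) huv
    rw [← h1]
    exact y.add_mem (y.mul_mem_left _ hqy) (y.mul_mem_left _ hrm)
  have hrelFN : heckeAlphaBar Kb M q (Fermat.Agent.S18.H28.jtop M) *
      aeval (heckeAlphaBar Kb M q (x : FN M)) D = aeval (heckeAlphaBar Kb M q (x : FN M)) N := by
    have e : ∀ P : ℤ[X], aeval (heckeAlphaBar Kb M q (x : FN M)) P =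
        heckeAlphaBar Kb M q (aeval (x : FN M) P) := fun P =>
      Polynomial.aeval_algHom_apply ((heckeAlphaBar Kb M q).toRingHom.toIntAlgHom) (x : FN M) P
    rw [e, e, ← map_mul, hrel]
  have hDY := aeval_notMem_of_both hTG (algebraMap ↥(ratForm (M * q) E) (FN (M * q)))
    (chart ↥(A.comap (algebraMap E Kb)) (algebraMap ↥(ratForm M E) ↥(ratForm (M * q) E) x))
    hfracL (alphaForm M q E ⟨Fermat.Agent.S18.H28.jtop M, hjt⟩)
    (betaForm M q E ⟨Fermat.Agent.S18.H28.jtop M, hjt⟩) rfl rfl hC₁ hC₂ y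
    (fun c hc => hb₁ c ((mem_nonunits_iff_of_mem_iff _ _ O₁ (fun _ => Iff.rfl) _).mp hc))
    (fun c hc => hb₂ c ((mem_nonunits_iff_of_mem_iff _ _ (secondGauss O₁ w)
      (fun _ => Iff.rfl) _).mp hc))
    ⟨algebraMap ↥(ratForm M E) ↥(ratForm (M * q) E) x, self_mem_chart _ _⟩ N D
    (rel_of_map (algebraMap ↥(ratForm (M * q) E) (FN (M * q))) _ _ N D hrelFN) a b r hry hab
  intro Q hQ hqQ hQy
  exact hunr_chart_le_of_place_top E (ratForm M E) (ratForm (M * q) E) q hqA x hS.transc hS.finite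
    (algebraMap ↥(ratForm M E) ↥(ratForm (M * q) E) x) htr' hfin'
    ((heckeAlphaBar Kb M q : FN M →ₐ[Kb] FN (M * q)) : FN M →+* FN (M * q))
    (fun a' => (heckeAlphaBar Kb M q).commutes (((a' : E) : Kb))) rfl (fun _ => rfl)
    (Fermat.Agent.S24.jgen (M * q)) (ratForm_closure_eq_top M E) D hplace y hDY Q hQ hqQ hQy

/-- **`hunr` over a crossing point for the standard base function** (all three cases), in the
shape of the hypothesis of `H68.hunr_le_of_comap_le`: `E` any intermediate field in which `q` is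
a uniformiser of `A ∩ E`, `x = ⟨x₀, _⟩` the standard base function in the `E`-form of level `M`,
`y` a prime of the level-`Mq` chart `chart (A ∩ E) (α x)` containing both components of the
special fibre. -/
theorem hunr_le_stdB (hlev : Fermat.Agent.S34.H77.LevelOK M q)
    (hTG : TwoGauss M q hqM A hA O₁ w)
    (x₀ : FN M) (hx₀ : Fermat.Agent.S34.H30.IsBase M q hqM A hA x₀)
    (hB : Fermat.Agent.S34.H30.StdB M q x₀)
    [IsDiscreteValuationRing ↥(A.comap (algebraMap E Kb))]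
    (hqA : Irreducible ((q : ℕ) : ↥(A.comap (algebraMap E Kb))))
    (hx : x₀ ∈ ratForm M E) :
    letI := algComap (A.comap (algebraMap E Kb)) (ratForm M E)
    letI := algComap (A.comap (algebraMap E Kb)) (ratForm (M * q) E)
    letI := algAlpha M q E
    haveI := isScalarTower_algAlpha M q E A
    ∀ (y : Ideal ↥(chart ↥(A.comap (algebraMap E Kb)) (algebraMap ↥(ratForm M E) ↥(ratForm (M * q) E) (⟨x₀, hx⟩ : ↥(ratForm M E))))) [y.IsPrime],
      (∀ c : ↥(chart ↥(A.comap (algebraMap E Kb)) (algebraMap ↥(ratForm M E) ↥(ratForm (M * q) E) (⟨x₀, hx⟩ : ↥(ratForm M E)))),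
        (c : ↥(ratForm (M * q) E)) ∈ (O₁.comap (algebraMap ↥(ratForm (M * q) E) (FN (M * q)))).nonunits → c ∈ y) →
      (∀ c : ↥(chart ↥(A.comap (algebraMap E Kb)) (algebraMap ↥(ratForm M E) ↥(ratForm (M * q) E) (⟨x₀, hx⟩ : ↥(ratForm M E)))),
        (c : ↥(ratForm (M * q) E)) ∈ ((gaussTwo M q O₁ w).comap (algebraMap ↥(ratForm (M * q) E) (FN (M * q)))).nonunits → c ∈ y) →
      ∀ Q : Ideal ↥(chart ↥(A.comap (algebraMap E Kb)) (algebraMap ↥(ratForm M E) ↥(ratForm (M * q) E) (⟨x₀, hx⟩ : ↥(ratForm M E)))), Q.IsPrime →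
        ((q : ℕ) : ↥(chart ↥(A.comap (algebraMap E Kb)) (algebraMap ↥(ratForm M E) ↥(ratForm (M * q) E) (⟨x₀, hx⟩ : ↥(ratForm M E))))) ∉ Q →
        Q.comap (chartMap (A₀ := ↥(A.comap (algebraMap E Kb))) (L := ↥(ratForm (M * q) E)) (⟨x₀, hx⟩ : ↥(ratForm M E))) ≤
          y.comap (chartMap (A₀ := ↥(A.comap (algebraMap E Kb))) (L := ↥(ratForm (M * q) E)) (⟨x₀, hx⟩ : ↥(ratForm M E))) →
        ∀ a ∈ Q, ∃ b ∉ Q, b * a ∈ Ideal.map (chartMap (A₀ := ↥(A.comap (algebraMap E Kb))) (L := ↥(ratForm (M * q) E)) (⟨x₀, hx⟩ : ↥(ratForm M E)))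
          (Q.comap (chartMap (A₀ := ↥(A.comap (algebraMap E Kb))) (L := ↥(ratForm (M * q) E)) (⟨x₀, hx⟩ : ↥(ratForm M E)))) := by
  have hq : q.Prime := hqF.out
  have hS := (hx₀.2 E hx).1
  have key : ∃ N D : ℤ[X], N.Monic ∧ D.natDegree < N.natDegree ∧
      Fermat.Agent.S18.H28.jtop M * aeval x₀ D = aeval x₀ N ∧
      ∃ (a b : ℤ[X]) (r : ℤ), ¬ (q : ℤ) ∣ r ∧ a * N + b * D = Polynomial.C r := by
    rcases hB.cases with ⟨-, -, rfl⟩ | ⟨h3, n, hn, hN, rfl⟩ | ⟨h2, n, hn, hN, rfl⟩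
    · exact jrel_top M q hq
    · exact jrel_haupt_two n M hN hq (by omega)
    · exact jrel_haupt_three n M hN hq (by omega)
  obtain ⟨N, D, -, -, hrel, a, b, r, hr, hab⟩ := key
  exact hunr_le_of_jrel M q hqM A hA O₁ w E hlev.1 hTG hqA ⟨x₀, hx⟩ hS N D hrel a b r hr hab

/-- **`hunr` of `H68.crossing_regular_of_dsetup_le` for the standard base function**: the primes
`Q ≤ y` of the level-`Mq` chart not containing `q` are unramified over the level-`M` chart. -/
theorem hunr_stdB (hlev : Fermat.Agent.S34.H77.LevelOK M q)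
    (hTG : TwoGauss M q hqM A hA O₁ w)
    (x₀ : FN M) (hx₀ : Fermat.Agent.S34.H30.IsBase M q hqM A hA x₀)
    (hB : Fermat.Agent.S34.H30.StdB M q x₀)
    [IsDiscreteValuationRing ↥(A.comap (algebraMap E Kb))]
    (hqA : Irreducible ((q : ℕ) : ↥(A.comap (algebraMap E Kb))))
    (hx : x₀ ∈ ratForm M E) :
    letI := algComap (A.comap (algebraMap E Kb)) (ratForm M E)
    letI := algComap (A.comap (algebraMap E Kb)) (ratForm (M * q) E)
    letI := algAlpha M q E
    haveI := isScalarTower_algAlpha M q E A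
    ∀ (y : Ideal ↥(chart ↥(A.comap (algebraMap E Kb)) (algebraMap ↥(ratForm M E) ↥(ratForm (M * q) E) (⟨x₀, hx⟩ : ↥(ratForm M E))))) [y.IsPrime],
      (∀ c : ↥(chart ↥(A.comap (algebraMap E Kb)) (algebraMap ↥(ratForm M E) ↥(ratForm (M * q) E) (⟨x₀, hx⟩ : ↥(ratForm M E)))),
        (c : ↥(ratForm (M * q) E)) ∈ (O₁.comap (algebraMap ↥(ratForm (M * q) E) (FN (M * q)))).nonunits → c ∈ y) →
      (∀ c : ↥(chart ↥(A.comap (algebraMap E Kb)) (algebraMap ↥(ratForm M E) ↥(ratForm (M * q) E) (⟨x₀, hx⟩ : ↥(ratForm M E)))),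
        (c : ↥(ratForm (M * q) E)) ∈ ((gaussTwo M q O₁ w).comap (algebraMap ↥(ratForm (M * q) E) (FN (M * q)))).nonunits → c ∈ y) →
      ∀ Q : Ideal ↥(chart ↥(A.comap (algebraMap E Kb)) (algebraMap ↥(ratForm M E) ↥(ratForm (M * q) E) (⟨x₀, hx⟩ : ↥(ratForm M E)))), Q.IsPrime →
        ((q : ℕ) : ↥(chart ↥(A.comap (algebraMap E Kb)) (algebraMap ↥(ratForm M E) ↥(ratForm (M * q) E) (⟨x₀, hx⟩ : ↥(ratForm M E))))) ∉ Q → Q ≤ y →
        ∀ a ∈ Q, ∃ b ∉ Q, b * a ∈ Ideal.map (chartMap (A₀ := ↥(A.comap (algebraMap E Kb))) (L := ↥(ratForm (M * q) E)) (⟨x₀, hx⟩ : ↥(ratForm M E)))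
          (Q.comap (chartMap (A₀ := ↥(A.comap (algebraMap E Kb))) (L := ↥(ratForm (M * q) E)) (⟨x₀, hx⟩ : ↥(ratForm M E)))) := by
  intro y hy hb₁ hb₂ Q hQ hqQ hle
  exact hunr_le_stdB M q hqM A hA O₁ w E hlev hTG x₀ hx₀ hB hqA hx y hb₁ hb₂ Q hQ hqQ
    (Ideal.comap_mono hle)

end Concrete

end Fermat.Agent.S34.H36
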