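/-
S34 / Program B', M6b (helper36): **the crossing points are regular nodes, with unramifiedness
asked only over the crossing point.**

helper68's `H68.crossing_regular_of_dsetup` asks the hypothesis `hunr` (the primes of the
level-`qM'` chart `C₀` not containing `q` are unramified over the level-`M'` chart `S₀`) for ALL
primes `Q` of `C₀`.  On a Hauptmodul chart (residue characteristic `2`, `3`) this is false: the
chart contains cusps, and the degeneracy map is ramified there.  Here the same conclusions are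
proved from the restricted hypothesis: only the primes `Q` with `Q ∩ S₀ ⊆ x₀ ∩ S₀` (the primes
through the image of the crossing point `x₀`).

* `hunr_local_le`                 : `H68.ChartCross.hunr_local` from the restricted hypothesis;
* `chartCross_regular_le`         : `H68.ChartCross.regular`;
* `chartCross_regular_atPrime_le` : `H68.ChartCross.regular_atPrime`;
* `crossing_regular_of_dsetup_le` : `H68.crossing_regular_of_dsetup`.

The proofs are helper68's, with `hunr_local_le` in place of `hunr_local`.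
-/
import Fermat.Agent.S34.H68.CrossNode

set_option autoImplicit false
set_option linter.style.haveILetI false
set_option linter.unusedSectionVars false

open Polynomial

noncomputable section

namespace Fermat.Agent.S34.H36

open Fermat.Agent.S18 Fermat.Agent.S18.H19 Fermat.Agent.S34.H6 Fermat.Agent.S34.H68 IsLocalRing

section Loc

variable {S₀ C₀ K L : Type*} [CommRing S₀] [IsDomain S₀] [CommRing C₀] [IsDomain C₀]
  [Field K] [Field L] [Algebra K L] [Algebra S₀ C₀] [Algebra S₀ K] [Algebra C₀ L] [Algebra S₀ L]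
  [IsScalarTower S₀ K L] [IsScalarTower S₀ C₀ L]

variable {q : ℕ} {O₀ : ValuationSubring K} {V₁ V₂ : ValuationSubring L} {β : S₀ →+* C₀}
  {σ : S₀ ≃+* S₀} {s : Ideal S₀} [s.IsPrime] {x₀ : Ideal C₀}

/-- Unramifiedness away from `q` over the point `s` passes to the semilocal ring. -/
theorem hunr_local_le (h : ChartCross q O₀ V₁ V₂ β σ s x₀)
    (hunr : ∀ Q : Ideal C₀, Q.IsPrime → (q : C₀) ∉ Q → Q.comap (algebraMap S₀ C₀) ≤ s →
      ∀ a ∈ Q, ∃ b ∉ Q, b * a ∈ Ideal.map (algebraMap S₀ C₀) (Q.comap (algebraMap S₀ C₀))) :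
    ∀ Q : Ideal (SemiLoc C₀ s), Q.IsPrime → (q : SemiLoc C₀ s) ∉ Q → ∀ a ∈ Q, ∃ b ∉ Q,
      b * a ∈ Ideal.map (algebraMap (Localization.AtPrime s) (SemiLoc C₀ s))
        (Q.comap (algebraMap (Localization.AtPrime s) (SemiLoc C₀ s))) := by
  intro Q hQ hqQ a ha
  obtain ⟨c, d, hd, hac⟩ := h.repR a
  have hu := h.isUnit_algebraMap_R hd
  have hQ' : (Q.comap (algebraMap C₀ (SemiLoc C₀ s))).IsPrime := Ideal.comap_isPrime _ _
  have hqQ' : (q : C₀) ∉ Q.comap (algebraMap C₀ (SemiLoc C₀ s)) := fun hm => hqQ (by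
    have h1 : algebraMap C₀ (SemiLoc C₀ s) (q : C₀) ∈ Q := hm
    rwa [map_natCast] at h1)
  have hles : (Q.comap (algebraMap C₀ (SemiLoc C₀ s))).comap (algebraMap S₀ C₀) ≤ s := by
    intro a₀ ha₀
    by_contra hcon
    have h1 : algebraMap C₀ (SemiLoc C₀ s) (algebraMap S₀ C₀ a₀) ∈ Q := ha₀
    exact hQ.ne_top (Ideal.eq_top_of_isUnit_mem _ h1 (h.isUnit_algebraMap_R hcon))
  have hc : c ∈ Q.comap (algebraMap C₀ (SemiLoc C₀ s)) := by
    show algebraMap C₀ (SemiLoc C₀ s) c ∈ Q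
    rw [← hac]
    exact Q.mul_mem_right _ ha
  obtain ⟨b', hb', hbc⟩ := hunr _ hQ' hqQ' hles c hc
  refine ⟨algebraMap C₀ (SemiLoc C₀ s) b' * algebraMap C₀ (SemiLoc C₀ s) (algebraMap S₀ C₀ d),
    fun hm => hb' ((Ideal.mul_unit_mem_iff_mem _ hu).mp hm), ?_⟩
  have e : algebraMap C₀ (SemiLoc C₀ s) b' * algebraMap C₀ (SemiLoc C₀ s) (algebraMap S₀ C₀ d) * a =
      algebraMap C₀ (SemiLoc C₀ s) (b' * c) := by
    rw [map_mul, ← hac]
    ring
  rw [e]
  have h1 : algebraMap C₀ (SemiLoc C₀ s) (b' * c) ∈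
      Ideal.map (algebraMap C₀ (SemiLoc C₀ s)) (Ideal.map (algebraMap S₀ C₀)
        ((Q.comap (algebraMap C₀ (SemiLoc C₀ s))).comap (algebraMap S₀ C₀))) :=
    Ideal.mem_map_of_mem _ hbc
  rw [Ideal.map_map] at h1
  have h2 : (algebraMap C₀ (SemiLoc C₀ s)).comp (algebraMap S₀ C₀) =
      (algebraMap (Localization.AtPrime s) (SemiLoc C₀ s)).comp
        (algebraMap S₀ (Localization.AtPrime s)) := by
    ext a₀
    simp only [RingHom.comp_apply]
    exact (h.algebraMap_S_S₀ a₀).symm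
  rw [h2, ← Ideal.map_map] at h1
  refine Ideal.map_mono ?_ h1
  rw [Ideal.map_le_iff_le_comap]
  intro a₀ ha₀
  show algebraMap (Localization.AtPrime s) (SemiLoc C₀ s)
    (algebraMap S₀ (Localization.AtPrime s) a₀) ∈ Q
  rw [h.algebraMap_S_S₀]
  exact ha₀

/-- **The regular node on the semilocal ring** (`H68.ChartCross.regular`), unramifiedness asked
only over the point `s`. -/
theorem chartCross_regular_le (h : ChartCross q O₀ V₁ V₂ β σ s x₀)
    [IsNoetherianRing S₀] [Module.Finite S₀ C₀] [FiniteDimensional K L]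
    [IsDiscreteValuationRing O₀] (hne : V₁ ≠ V₂) (hdeg : Module.finrank K L = q + 1)
    (hprime : Prime (q : Localization.AtPrime s)) (t : S₀)
    (hmax : maximalIdeal (Localization.AtPrime s) =
      Ideal.span {(q : Localization.AtPrime s), algebraMap S₀ (Localization.AtPrime s) t})
    (w : S₀) (hw : σ w = w) (hwu : algebraMap S₀ K (w - w ^ (q ^ 2)) ∉ O₀.nonunits)
    (hunr : ∀ Q : Ideal C₀, Q.IsPrime → (q : C₀) ∉ Q → Q.comap (algebraMap S₀ C₀) ≤ s →
      ∀ a ∈ Q, ∃ b ∉ Q, b * a ∈ Ideal.map (algebraMap S₀ C₀) (Q.comap (algebraMap S₀ C₀))) :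
    ∃ _ : IsLocalRing (SemiLoc C₀ s), ∃ J b : SemiLoc C₀ s, J * b = (q : SemiLoc C₀ s) ∧
      maximalIdeal (SemiLoc C₀ s) = Ideal.span {J, b} ∧
      (maximalIdeal (SemiLoc C₀ s)).comap (algebraMap C₀ (SemiLoc C₀ s)) = x₀ := by
  obtain ⟨hloc, hnode⟩ := h.nodeHyp hne hdeg hprime t hmax w hw hwu
  haveI := hloc
  haveI : IsDomain (SemiLoc C₀ s) := h.isDomain_semiLoc
  obtain ⟨J, b, hJb, hm, -, -⟩ :=
    Fermat.Agent.S34.H36.regular_of_nodeHyp h.hq hnode (hunr_local_le h hunr)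
  refine ⟨hloc, J, b, hJb, hm, ?_⟩
  have hk := h.crossKron
  have hmn : maximalIdeal (SemiLoc C₀ s) = Ideal.map (algebraMap C₀ (SemiLoc C₀ s)) x₀ := by
    apply le_antisymm
    · rw [hnode.max_R]
      exact sup_le hk.le2 ((Ideal.span_singleton_le_iff_mem _).mpr (hk.le1 hnode.x_mem1))
    · exact IsLocalRing.le_maximalIdeal h.map_x₀_isPrime.ne_top
  rw [hmn]
  exact IsLocalization.under_map_of_isPrime_disjoint _ _ h.prime_x₀ h.disjoint_x₀

/-- **The regular node on the local ring of `C₀` at the crossing point**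
(`H68.ChartCross.regular_atPrime`), unramifiedness asked only over the point `s`. -/
theorem chartCross_regular_atPrime_le (h : ChartCross q O₀ V₁ V₂ β σ s x₀)
    [hx₀ : x₀.IsPrime] [IsNoetherianRing S₀] [Module.Finite S₀ C₀]
    [FiniteDimensional K L] [IsDiscreteValuationRing O₀] (hne : V₁ ≠ V₂)
    (hdeg : Module.finrank K L = q + 1)
    (hprime : Prime (q : Localization.AtPrime s)) (t : S₀)
    (hmax : maximalIdeal (Localization.AtPrime s) =
      Ideal.span {(q : Localization.AtPrime s), algebraMap S₀ (Localization.AtPrime s) t})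
    (w : S₀) (hw : σ w = w) (hwu : algebraMap S₀ K (w - w ^ (q ^ 2)) ∉ O₀.nonunits)
    (hunr : ∀ Q : Ideal C₀, Q.IsPrime → (q : C₀) ∉ Q → Q.comap (algebraMap S₀ C₀) ≤ s →
      ∀ a ∈ Q, ∃ b ∉ Q, b * a ∈ Ideal.map (algebraMap S₀ C₀) (Q.comap (algebraMap S₀ C₀))) :
    ∃ J b : Localization.AtPrime x₀, J * b = (q : Localization.AtPrime x₀) ∧
      maximalIdeal (Localization.AtPrime x₀) = Ideal.span {J, b} := by
  obtain ⟨hloc, J, b, hJb, hm, hcomap⟩ :=
    chartCross_regular_le h hne hdeg hprime t hmax w hw hwu hunr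
  haveI := hloc
  haveI : IsLocalization.AtPrime (SemiLoc C₀ s) x₀ := by
    refine IsLocalization.of_le (Algebra.algebraMapSubmonoid C₀ s.primeCompl) x₀.primeCompl ?_ ?_
    · rintro y ⟨d, hd, rfl⟩
      show algebraMap S₀ C₀ d ∉ x₀
      intro hy
      apply hd
      rw [← h.comap_x₀]
      exact hy
    · intro r hr
      have h1 : algebraMap C₀ (SemiLoc C₀ s) r ∉ maximalIdeal (SemiLoc C₀ s) := fun hm' =>
        hr (by rw [← hcomap]; exact hm')
      exact not_not.mp (fun hnu => h1 ((IsLocalRing.mem_maximalIdeal _).mpr hnu))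
  let e : SemiLoc C₀ s ≃ₐ[C₀] Localization.AtPrime x₀ :=
    IsLocalization.algEquiv x₀.primeCompl _ _
  have key : ∀ z ∈ maximalIdeal (SemiLoc C₀ s), e z ∈ maximalIdeal (Localization.AtPrime x₀) := by
    intro z hz
    rw [IsLocalRing.mem_maximalIdeal, mem_nonunits_iff] at hz ⊢
    intro hu
    apply hz
    have h1 := hu.map e.symm
    rwa [AlgEquiv.symm_apply_apply] at h1
  refine ⟨e J, e b, ?_, ?_⟩
  · rw [← map_mul, hJb, map_natCast]
  · ext y
    constructor
    · intro hy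
      have hy' : e.symm y ∈ maximalIdeal (SemiLoc C₀ s) := by
        rw [IsLocalRing.mem_maximalIdeal, mem_nonunits_iff] at hy ⊢
        intro hu
        apply hy
        have h1 := hu.map e
        rwa [AlgEquiv.apply_symm_apply] at h1
      rw [hm, Ideal.mem_span_pair] at hy'
      obtain ⟨a1, a2, ha⟩ := hy'
      rw [Ideal.mem_span_pair]
      refine ⟨e a1, e a2, ?_⟩
      rw [← map_mul, ← map_mul, ← map_add, ha, AlgEquiv.apply_symm_apply]
    · intro hy
      have hJm : J ∈ maximalIdeal (SemiLoc C₀ s) := by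
        rw [hm]
        exact Ideal.subset_span (Set.mem_insert _ _)
      have hbm : b ∈ maximalIdeal (SemiLoc C₀ s) := by
        rw [hm]
        exact Ideal.subset_span (Set.mem_insert_of_mem _ rfl)
      refine (Ideal.span_le.mpr ?_) hy
      rintro z (rfl | hz)
      · exact key _ hJm
      · rw [Set.mem_singleton_iff.mp hz]
        exact key _ hbm

end Loc

section Main

variable {A₀ : Type*} [CommRing A₀] [IsDomain A₀] [IsDiscreteValuationRing A₀] [CharZero A₀]
  {K L : Type*} [Field K] [Field L] [Algebra A₀ K] [Algebra A₀ L] [Algebra K L]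
  [IsScalarTower A₀ K L] [FaithfulSMul A₀ K] [FiniteDimensional K L]

attribute [local instance] chartAlgTop

/-- The scalar tower of the two charts (local instance). -/
local instance chartTowerLe (x : K) :
    IsScalarTower ↥(chart A₀ x) ↥(chart A₀ (algebraMap K L x)) L :=
  chart_isScalarTower x

/-- **M6b-concrete (i), restricted form: the crossing points are regular nodes.**  The statement
of `H68.crossing_regular_of_dsetup`, with the unramifiedness `hunr` asked only for the primes `Q`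
of the level-`qM'` chart `C₀ = chart A₀ (α x)` whose contraction to the level-`M'` chart
`S₀ = chart A₀ x` lies inside the contraction of the crossing point `x₀`. -/
theorem crossing_regular_of_dsetup_le (q : ℕ) (hq : q.Prime) (hqA : Irreducible ((q : ℕ) : A₀))
    (O₀ : ValuationSubring K) (x : K) (hS : DSetup A₀ O₀ x)
    (V₁ V₂ : ValuationSubring L)
    (hc₁ : ∀ v : K, algebraMap K L v ∈ V₁ ↔ v ∈ O₀)
    (hc₂ : ∀ v : K, algebraMap K L v ∈ V₂ ↔ v ∈ O₀)
    (hT : Fermat.Agent.S34.H64.TwoExt O₀ V₁ V₂) (hne : V₁ ≠ V₂)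
    (hdeg : Module.finrank K L = q + 1)
    (β : K →+* L) (σ : K ≃+* K)
    (hσA : ∀ a : A₀, ∃ a' : A₀, σ (algebraMap A₀ K a) = algebraMap A₀ K a')
    (hσA' : ∀ a : A₀, ∃ a' : A₀, σ.symm (algebraMap A₀ K a) = algebraMap A₀ K a')
    (hσx : σ x = x)
    (hβC : ∀ f ∈ chart A₀ x, β f ∈ chart A₀ (algebraMap K L x))
    (kron1 : ∀ g ∈ chart A₀ x, β g - algebraMap K L (σ.symm g) ^ q ∈ V₁.nonunits)
    (kron2 : ∀ f ∈ chart A₀ x, algebraMap K L f - β (σ.symm f) ^ q ∈ V₂.nonunits)
    (x₀ : Ideal ↥(chart A₀ (algebraMap K L x))) [hx₀ : x₀.IsMaximal]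
    (hunr : ∀ Q : Ideal ↥(chart A₀ (algebraMap K L x)), Q.IsPrime →
      (q : ↥(chart A₀ (algebraMap K L x))) ∉ Q →
      Q.comap (chartMap (A₀ := A₀) (L := L) x) ≤ x₀.comap (chartMap (A₀ := A₀) (L := L) x) →
      ∀ a ∈ Q, ∃ b ∉ Q,
        b * a ∈ Ideal.map (chartMap (A₀ := A₀) (L := L) x) (Q.comap (chartMap (A₀ := A₀) (L := L) x)))
    (h₁ : ∀ c : ↥(chart A₀ (algebraMap K L x)), (c : L) ∈ V₁.nonunits → c ∈ x₀)
    (h₂ : ∀ c : ↥(chart A₀ (algebraMap K L x)), (c : L) ∈ V₂.nonunits → c ∈ x₀) :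
    ∃ J b : Localization.AtPrime x₀, J * b = (q : Localization.AtPrime x₀) ∧
      maximalIdeal (Localization.AtPrime x₀) = Ideal.span {J, b} := by
  have hσC : ∀ f : K, σ f ∈ chart A₀ x ↔ f ∈ chart A₀ x :=
    fun f => Fermat.Agent.S34.H10.chart_equiv_mem_iff σ hσA hσA' x hσx f
  have h := chartCross_of_dsetup q hq hqA O₀ x hS V₁ V₂ hc₁ hc₂ hT β σ hσC hβC kron1 kron2 x₀
    h₁ h₂
  haveI : IsNoetherianRing ↥(chart A₀ x) := H78.chart_isNoetherianRing O₀ x hS
  haveI : Module.Finite ↥(chart A₀ x) ↥(chart A₀ (algebraMap K L x)) :=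
    chart_finite_top O₀ x hS
  haveI : IsDiscreteValuationRing ↥O₀ :=
    Fermat.Agent.S34.H10.isDiscreteValuationRing_of_dsetup hqA hS
  haveI hsmax : (x₀.comap (algebraMap ↥(chart A₀ x) ↥(chart A₀ (algebraMap K L x)))).IsMaximal :=
    Ideal.isMaximal_comap_of_isIntegral_of_isMaximal x₀
  obtain ⟨hprime, t, -, hmax⟩ := H78.chart_nodeBase_natCast q hqA O₀ x hS
    (x₀.comap (algebraMap ↥(chart A₀ x) ↥(chart A₀ (algebraMap K L x)))) h.q_mem_s
  -- the witness: the coordinate
  have hgu : ∃ i, IsUnit ((X - X ^ (q ^ 2) : A₀[X]).coeff i) := by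
    refine ⟨1, ?_⟩
    have hq2 : q ^ 2 ≠ 1 := by
      have := hq.two_le
      intro h1
      have : 4 ≤ q ^ 2 := by nlinarith
      omega
    rw [coeff_sub, coeff_X_one, coeff_X_pow, if_neg (Ne.symm hq2), sub_zero]
    exact isUnit_one
  have hwu : algebraMap ↥(chart A₀ x) K
      ((⟨x, self_mem_chart A₀ x⟩ : ↥(chart A₀ x)) -
        (⟨x, self_mem_chart A₀ x⟩ : ↥(chart A₀ x)) ^ (q ^ 2)) ∉ O₀.nonunits := by
    have e : algebraMap ↥(chart A₀ x) K
        ((⟨x, self_mem_chart A₀ x⟩ : ↥(chart A₀ x)) -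
          (⟨x, self_mem_chart A₀ x⟩ : ↥(chart A₀ x)) ^ (q ^ 2)) =
        aeval x (X - X ^ (q ^ 2) : A₀[X]) := by
      simp only [map_sub, map_pow, aeval_X]
      rfl
    rw [e, not_mem_nonunits_iff]
    exact ⟨H80.ds_aeval_ne_zero_of_unit hS _ hgu, (hS.gauss _ hgu).2⟩
  exact chartCross_regular_atPrime_le h hne hdeg hprime t hmax ⟨x, self_mem_chart A₀ x⟩
    (Subtype.ext hσx) hwu hunr

end Main

end Fermat.Agent.S34.H36
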