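import Mathlib
import Fermat.Agent.S34.H6.TwoExt

/-!
# The Kronecker element is not congruent to an element of `V` (helper36; Program B', S34)

`S` a noetherian local ring with `a` a prime element and `m_S = (a, θ)`, `a ∤ θ` (so `S/a` is a
discrete valuation ring with uniformiser `θ`).  Then `θ` is not a `q`-th power in the fraction
field of `S/a` (`2 ≤ q`): `a ∣ s^q - θ d^q ⟹ a ∣ d`.  Consequently, if `V` is the localisation of
`S` at `(a)` inside a field `K` and `x` is an element of an extension `L` with `x^q ≡ θ` modulo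
the maximal ideal of a valuation ring `O₂` over `V`, then `x` is not congruent to any element of
`V`: the hypothesis `hyV'` of `res2` (`S34/H36/Res2.lean`) for the Kronecker element `x`.
-/

set_option autoImplicit false
set_option linter.style.haveILetI false

namespace Fermat.Agent.S34.H36

open IsLocalRing Fermat.Agent.S34.H6

/-- In a noetherian domain `D` with a prime element `t` generating a proper ideal, `t` is not a
`q`-th power in the fraction field: `s^q = t * d^q ⟹ d = 0`. -/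
theorem eq_zero_of_pow_eq_mul_pow {D : Type*} [CommRing D] [IsDomain D] [IsNoetherianRing D]
    (t : D) (ht : Prime t) (q : ℕ) (hq : 2 ≤ q) (s d : D) (h : s ^ q = t * d ^ q) : d = 0 := by
  have hq0 : q ≠ 0 := by omega
  have key : ∀ n : ℕ, ∀ s d : D, s ^ q = t * d ^ q → t ^ n ∣ d := by
    intro n
    induction n with
    | zero => intro s d _; rw [pow_zero]; exact one_dvd d
    | succ n ih =>
      intro s d h
      have h1 : t ∣ s := ht.dvd_of_dvd_pow (h ▸ dvd_mul_right t _)
      obtain ⟨s₁, rfl⟩ := h1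
      obtain ⟨k, rfl⟩ : ∃ k, q = k + 2 := ⟨q - 2, by omega⟩
      -- `t^(k+1) * s₁^(k+2) = d^(k+2)`
      have h2 : t ^ (k + 1) * s₁ ^ (k + 2) = d ^ (k + 2) := by
        have h3 : t * (t ^ (k + 1) * s₁ ^ (k + 2)) = t * d ^ (k + 2) := by
          rw [← h]
          ring
        exact mul_left_cancel₀ ht.ne_zero h3
      have h4 : t ∣ d := ht.dvd_of_dvd_pow (h2 ▸ Dvd.intro _ (by ring :
        t * (t ^ k * s₁ ^ (k + 2)) = t ^ (k + 1) * s₁ ^ (k + 2)))
      obtain ⟨d₁, rfl⟩ := h4
      have h5 : s₁ ^ (k + 2) = t * d₁ ^ (k + 2) := by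
        have h6 : t ^ (k + 1) * s₁ ^ (k + 2) = t ^ (k + 1) * (t * d₁ ^ (k + 2)) := by
          rw [h2]
          ring
        exact mul_left_cancel₀ (pow_ne_zero _ ht.ne_zero) h6
      obtain ⟨e, he⟩ := ih s₁ d₁ h5
      exact ⟨e, by rw [he]; ring⟩
  have hne : Ideal.span {t} ≠ ⊤ := by
    rw [Ne, Ideal.span_singleton_eq_top]
    exact ht.not_isUnit
  have hkr := Ideal.iInf_pow_eq_bot_of_isDomain (Ideal.span {t}) hne
  have hmem : d ∈ ⨅ i : ℕ, Ideal.span {t} ^ i := by
    rw [Ideal.mem_iInf]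
    intro i
    rw [Ideal.span_singleton_pow, Ideal.mem_span_singleton]
    exact key i s d h
  rw [hkr] at hmem
  exact hmem

/-- **`θ` is not a `q`-th power modulo `a`.**  `S` noetherian local, `a` prime, `m_S = (a, θ)`,
`a ∤ θ`, `2 ≤ q`: if `a ∣ s^q - θ d^q` then `a ∣ d`. -/
theorem dvd_of_dvd_pow_sub_mul_pow {S : Type*} [CommRing S] [IsLocalRing S] [IsNoetherianRing S]
    (a θ : S) (ha : Prime a) (hmax : maximalIdeal S = Ideal.span {a, θ}) (hθ : ¬ a ∣ θ)
    (q : ℕ) (hq : 2 ≤ q) (s d : S) (h : a ∣ s ^ q - θ * d ^ q) : a ∣ d := by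
  haveI hprime : (Ideal.span {a}).IsPrime := (Ideal.span_singleton_prime ha.ne_zero).mpr ha
  haveI : IsDomain (S ⧸ Ideal.span {a}) := Ideal.Quotient.isDomain _
  set mk := Ideal.Quotient.mk (Ideal.span {a}) with hmk
  have hθ0 : mk θ ≠ 0 := by
    rw [Ne, Ideal.Quotient.eq_zero_iff_mem, Ideal.mem_span_singleton]
    exact hθ
  -- the ideal generated by the class of `θ` is the image of the maximal ideal
  have hmap : Ideal.map mk (maximalIdeal S) = Ideal.span {mk θ} := by
    have h0 : mk a = 0 := Ideal.Quotient.eq_zero_iff_mem.mpr (Ideal.mem_span_singleton_self a)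
    rw [hmax, Ideal.map_span, Set.image_pair, h0, Ideal.span_insert_zero]
  have hle : Ideal.span {a} ≤ maximalIdeal S := IsLocalRing.le_maximalIdeal hprime.ne_top
  have hθprime : Prime (mk θ) := by
    rw [← Ideal.span_singleton_prime hθ0, ← hmap]
    rcases Ideal.map_eq_top_or_isMaximal_of_surjective mk Ideal.Quotient.mk_surjective
      (IsLocalRing.maximalIdeal.isMaximal S) with htop | hmaxl
    · exfalso
      have h1 : (1 : S ⧸ Ideal.span {a}) ∈ Ideal.map mk (maximalIdeal S) := by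
        rw [htop]
        trivial
      obtain ⟨m, hm, hm1⟩ := (Ideal.mem_map_iff_of_surjective mk
        Ideal.Quotient.mk_surjective).mp h1
      have h2 : m - 1 ∈ Ideal.span {a} := by
        rw [← Ideal.Quotient.eq, hm1, map_one]
      have h3 := Ideal.sub_mem _ hm (hle h2)
      rw [sub_sub_cancel] at h3
      exact (IsLocalRing.maximalIdeal.isMaximal S).ne_top ((Ideal.eq_top_iff_one _).mpr h3)
    · exact hmaxl.isPrime
  have heq : mk s ^ q = mk θ * mk d ^ q := by
    rw [← map_pow, ← map_pow, ← map_mul, ← sub_eq_zero, ← map_sub,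
      Ideal.Quotient.eq_zero_iff_mem, Ideal.mem_span_singleton]
    exact h
  have hd := eq_zero_of_pow_eq_mul_pow (mk θ) hθprime q hq (mk s) (mk d) heq
  rw [Ideal.Quotient.eq_zero_iff_mem, Ideal.mem_span_singleton] at hd
  exact hd

section val

variable {K L : Type*} [Field K] [Field L] [Algebra K L] (V : ValuationSubring K)

/-- `θ` is not a `q`-th power in the residue field of `V = S_(a)`. -/
theorem pow_sub_notMem_nonunits {S : Type*} [CommRing S] [IsLocalRing S] [IsNoetherianRing S]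
    (iS : S →+* K) (hSV : ∀ s : S, iS s ∈ V)
    (hV : ∀ v ∈ V, ∃ d s : S, iS d ∉ V.nonunits ∧ v * iS d = iS s)
    (a θ : S) (ha : Prime a) (hmax : maximalIdeal S = Ideal.span {a, θ}) (hθ : ¬ a ∣ θ)
    (haV : iS a ∈ V.nonunits) (hcomap : ∀ s : S, iS s ∈ V.nonunits → a ∣ s)
    (q : ℕ) (hq : 2 ≤ q) (v : K) (hv : v ∈ V) : v ^ q - iS θ ∉ V.nonunits := by
  intro hmem
  obtain ⟨d, s, hd, hs⟩ := hV v hv
  have h1 : iS (s ^ q - θ * d ^ q) = (v ^ q - iS θ) * iS d ^ q := by
    rw [map_sub, map_mul, map_pow, map_pow, ← hs]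
    ring
  have h2 : iS (s ^ q - θ * d ^ q) ∈ V.nonunits := by
    rw [h1]
    exact mul_mem_nonunits_left V hmem (V.pow_mem (hSV d) q)
  obtain ⟨e, he⟩ := dvd_of_dvd_pow_sub_mul_pow a θ ha hmax hθ q hq s d (hcomap _ h2)
  apply hd
  rw [he, map_mul]
  exact mul_mem_nonunits_left V haV (hSV e)

/-- **The Kronecker element is not congruent to an element of `V`**: the hypothesis `hyV'` of
`res2` for `y' = x` with `x^q ≡ θ`. -/
theorem sub_algebraMap_notMem_nonunits {S : Type*} [CommRing S] [IsLocalRing S]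
    [IsNoetherianRing S] (O₂ : ValuationSubring L) (hO₂ : O₂.comap (algebraMap K L) = V)
    (iS : S →+* K) (hSV : ∀ s : S, iS s ∈ V)
    (hV : ∀ v ∈ V, ∃ d s : S, iS d ∉ V.nonunits ∧ v * iS d = iS s)
    (a θ : S) (ha : Prime a) (hmax : maximalIdeal S = Ideal.span {a, θ}) (hθ : ¬ a ∣ θ)
    (haV : iS a ∈ V.nonunits) (hcomap : ∀ s : S, iS s ∈ V.nonunits → a ∣ s)
    (q : ℕ) (hq : 2 ≤ q) (x : L) (hx : x ∈ O₂)
    (hxq : x ^ q - algebraMap K L (iS θ) ∈ O₂.nonunits) (v : K) (hv : v ∈ V) :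
    x - algebraMap K L v ∉ O₂.nonunits := by
  intro hmem
  have hvO : algebraMap K L v ∈ O₂ := (algebraMap_mem_iff V O₂ hO₂ v).mpr hv
  have h1 : x ^ q - algebraMap K L v ^ q ∈ O₂.nonunits :=
    pow_sub_pow_mem_nonunits O₂ hx hvO hmem q
  have h2 : algebraMap K L (v ^ q - iS θ) ∈ O₂.nonunits := by
    have e : algebraMap K L (v ^ q - iS θ)
        = (x ^ q - algebraMap K L (iS θ)) - (x ^ q - algebraMap K L v ^ q) := by
      rw [map_sub, map_pow]
      ring
    rw [e]
    exact sub_mem_nonunits O₂ hxq h1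
  rw [algebraMap_mem_nonunits_iff V O₂ hO₂] at h2
  exact pow_sub_notMem_nonunits V iS hSV hV a θ ha hmax hθ haV hcomap q hq v hv h2

end val

end Fermat.Agent.S34.H36
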