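import Mathlib
import Fermat.Agent.S34.H36.Res2
import Fermat.Agent.S34.H36.NotPow

/-!
# `frac2` for the Kronecker element (helper36; Program B', S34)

One lemma composing `res2` (Res2.lean), `sub_algebraMap_notMem_nonunits` (NotPow.lean) and
`frac2_of_res2`: under the hypotheses of the two-extension lemma for `V ⊆ K`, `O₁ ≠ O₂ ⊆ L`
(`[L : K] = q + 1`), let `S` be a noetherian local ring with `m_S = (q, θ)`, `q` prime in `S`,
`q ∤ θ`, mapping to `K` with `V = S_(q)`, and `R` an `S`-algebra mapping to `O₂ ⊆ L`, with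
`P2 = R ∩ m(O₂)`.  If `x ∈ R` satisfies `x ^ q ≡ θ` modulo `P2`, then the fraction field of
`R/P2` is generated by `x`: the field `frac2` of `PreNode` (Dichotomy.lean).
-/

set_option autoImplicit false
set_option linter.style.haveILetI false

namespace Fermat.Agent.S34.H36

open IsLocalRing

/-- **`frac2` for the Kronecker element.** -/
theorem frac2_of_kronecker (K : Type*) (L : Type*) [Field K] [Field L] [Algebra K L]
    [FiniteDimensional K L] [CharZero K] (V : ValuationSubring K) [IsDiscreteValuationRing V]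
    (q : ℕ) (hq : q.Prime) (hqV : (q : K) ∈ V.nonunits)
    (hdeg : Module.finrank K L = q + 1) (O₁ O₂ : ValuationSubring L)
    (hO₁ : O₁.comap (algebraMap K L) = V) (hO₂ : O₂.comap (algebraMap K L) = V) (hne : O₁ ≠ O₂)
    {S R : Type*} [CommRing S] [CommRing R] [Algebra S R] [IsLocalRing S] [IsNoetherianRing S]
    (iS : S →+* K) (iR : R →+* L)
    (hcomm : ∀ s : S, iR (algebraMap S R s) = algebraMap K L (iS s))
    (hSV : ∀ s : S, iS s ∈ V)
    (hV : ∀ v ∈ V, ∃ d s : S, iS d ∉ V.nonunits ∧ v * iS d = iS s)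
    (θ : S) (hprime : Prime ((q : ℕ) : S))
    (hmax : maximalIdeal S = Ideal.span {((q : ℕ) : S), θ}) (hθ : ¬ ((q : ℕ) : S) ∣ θ)
    (hcomap : ∀ s : S, iS s ∈ V.nonunits → ((q : ℕ) : S) ∣ s)
    (P2 : Ideal R) (hP2 : ∀ r : R, r ∈ P2 ↔ iR r ∈ O₂.nonunits) (hR : ∀ r : R, iR r ∈ O₂)
    (x : R) (hxpow : x ^ q - algebraMap S R θ ∈ P2) (r : R) :
    ∃ d f : Polynomial S, Polynomial.aeval x d ∉ P2 ∧
      Polynomial.aeval x d * r - Polynomial.aeval x f ∈ P2 := by
  have hxq : iR x ^ q - algebraMap K L (iS θ) ∈ O₂.nonunits := by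
    have h1 := (hP2 _).mp hxpow
    rwa [map_sub, map_pow, hcomm] at h1
  have haV : iS ((q : ℕ) : S) ∈ V.nonunits := by
    rw [map_natCast]
    exact hqV
  have hyV : ∀ v ∈ V, iR x - algebraMap K L v ∉ O₂.nonunits := fun v hv =>
    sub_algebraMap_notMem_nonunits V O₂ hO₂ iS hSV hV ((q : ℕ) : S) θ hprime hmax hθ haV hcomap
      q hq.two_le (iR x) (hR x) hxq v hv
  have hyq : ∃ v ∈ V, iR x ^ q - algebraMap K L v ∈ O₂.nonunits := ⟨iS θ, hSV θ, hxq⟩
  have hres : ∀ g ∈ O₂, ∃ c : Fin q → K, (∀ i, c i ∈ V) ∧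
      g - ∑ i, algebraMap K L (c i) * iR x ^ (i : ℕ) ∈ O₂.nonunits := fun g hg =>
    res2 K L V q hq hqV hdeg O₁ O₂ hO₁ hO₂ hne (iR x) (hR x) hyq hyV (iR x) (hR x) hyq hyV g hg
  exact frac2_of_res2 K L V q O₂ hO₂ iS iR hcomm hSV hV P2 hP2 hR x hres r

end Fermat.Agent.S34.H36
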