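import Mathlib
import Fermat.Agent.S34.H60.HUnr

/-!
# (U-GEOM) prime by prime (helper36; M6b-HUNR, Program B', S34)

A pointwise version of helper60's `H60.forall_unramified_of_places`: for ONE prime `Q` of `R`
(the chart at level `N`), if `Q ∩ S` has height `≤ 1`, the constants lie in `R_Q`, and every place
of `FN` centred AT `Q` has the same orders on `α(FM)` as a place of `FM` (`e = 1`), then
`Q R_Q = (Q ∩ S) R_Q`.

Consequence (`forall_unramified_of_places_le`): the same for all primes `Q` not containing `q`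
with `Q ∩ S ⊆ s`, where `e = 1` is only asked at the places `w` centred on `R` at which the
elements of `S ∖ s` are units.  This is the form needed for charts containing cusps (Hauptmodul
charts in residue characteristic `2`, `3`): the degeneracy map is ramified at cusps, but the
places through a non-cuspidal point `s` are not cuspidal.

The proof is helper60's, with the hypotheses used where they are needed.
-/

set_option autoImplicit false

open AlgebraicCurve IntermediateField

noncomputable section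

namespace Fermat.Agent.S34.H36

open Fermat.Agent.S34.H60

variable {k K : Type*} [Field k] [Field K] [Algebra k K] (K₀ : IntermediateField k K)

variable {FM FN : Type*} [Field FM] [Field FN] [Algebra K FM] [Algebra K FN]
  (F0M : IntermediateField K₀ FM) (F0N : IntermediateField K₀ FN)
  {S R : Type*} [CommRing S] [IsDomain S] [IsNoetherianRing S] [IsIntegrallyClosed S]
  [CommRing R] [IsDomain R] [IsNoetherianRing R] [IsIntegrallyClosed R]
  [Algebra S R] [Algebra.IsIntegral S R]
  [Algebra S F0M] [IsFractionRing S F0M] [Algebra R F0N] [IsFractionRing R F0N]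

/-- **(U-GEOM) at one prime.**  If the contraction of `Q` to `S` has height `≤ 1`, the constants
`K₀` lie in `R_Q`, and every place of `FN` centred at `Q` has the same orders on `α(FM)` as a
place of `FM`, then `Q R_Q = (Q ∩ S) R_Q`. -/
theorem unramified_at_of_place [Algebra.IsAlgebraic K₀ K] [CharZero K]
    (α : FM →+* FN) (xN : FN) [FiniteDimensional K⟮xN⟯ FN]
    (hcomp : Subfield.closure ((F0M : Set FM) ∪ Set.range (algebraMap K FM)) = ⊤)
    (hcompat : ∀ s : S, ((algebraMap R F0N (algebraMap S R s) : F0N) : FN)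
      = α ((algebraMap S F0M s : F0M) : FM))
    (Q : Ideal R) [hQ : Q.IsPrime]
    (hconstQ : ∀ c₀ : K₀, ∃ b : R, b ∉ Q ∧
      ∃ c : R, algebraMap R F0N b * algebraMap K₀ F0N c₀ = algebraMap R F0N c)
    (hht : (Q.comap (algebraMap S R)).height ≤ 1)
    (he : ∀ w : Place K FN,
      (∀ r : R, r ≠ 0 → 0 ≤ w.ord ((algebraMap R F0N r : F0N) : FN)) →
      (∀ r : R, r ≠ 0 → (r ∈ Q ↔ 0 < w.ord ((algebraMap R F0N r : F0N) : FN))) →
      ∃ v : Place K FM, ∀ f : FM, v.ord f = w.ord (α f))
    (a : R) (ha : a ∈ Q) :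
    ∃ b ∉ Q, b * a ∈ Ideal.map (algebraMap S R) (Q.comap (algebraMap S R)) := by
  classical
  have h1Q : (1 : R) ∉ Q := fun h => hQ.ne_top ((Ideal.eq_top_iff_one Q).mpr h)
  by_cases ha0 : a = 0
  · exact ⟨1, h1Q, by rw [ha0, mul_zero]; exact Ideal.zero_mem _⟩
  have hinjR : Function.Injective (algebraMap R F0N) := IsFractionRing.injective R F0N
  have hinjS : Function.Injective (algebraMap S F0M) := IsFractionRing.injective S F0M
  have hinjSR : Function.Injective (algebraMap S R) := by
    rw [injective_iff_map_eq_zero]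
    intro s hs
    have h1 := hcompat s
    rw [hs, map_zero] at h1
    have h2 : ((algebraMap S F0M s : F0M) : FM) = 0 := by
      have h3 : α ((algebraMap S F0M s : F0M) : FM) = 0 := h1.symm
      exact (map_eq_zero α).mp h3
    exact (map_eq_zero_iff _ hinjS).mp (Subtype.ext h2)
  set P : Ideal S := Q.comap (algebraMap S R) with hP
  have hP0 : P ≠ ⊥ :=
    Ideal.comap_ne_bot_of_integral_mem ha0 ha (Algebra.IsIntegral.isIntegral a)
  have hPht : P.height = 1 := height_eq_one_of_le_one P hP0 hht
  have hQ0 : Q ≠ ⊥ := fun h => ha0 (by rw [h] at ha; exact ha)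
  have hQht : Q.height = 1 :=
    height_eq_one_of_le_one Q hQ0 (hPht ▸ height_le_height_comap_of_isIntegral (S := S) Q)
  -- the place at `Q`
  obtain ⟨w, hw0, hwQ, hwV⟩ := exists_place_of_height_one K₀ F0N xN Q hQht hconstQ
  obtain ⟨v, hv⟩ := he w hw0 hwQ
  -- `v` is centred at `P`
  have hSR0 : ∀ s : S, s ≠ 0 → algebraMap S R s ≠ 0 := fun s hs h =>
    hs ((map_eq_zero_iff _ hinjSR).mp h)
  have hvw : ∀ s : S, v.ord ((algebraMap S F0M s : F0M) : FM)
      = w.ord ((algebraMap R F0N (algebraMap S R s) : F0N) : FN) := by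
    intro s
    rw [hv, hcompat]
  have hvS : ∀ s : S, s ≠ 0 → 0 ≤ v.ord ((algebraMap S F0M s : F0M) : FM) := by
    intro s hs
    rw [hvw]
    exact hw0 _ (hSR0 s hs)
  have hvP : ∀ s : S, s ≠ 0 → (s ∈ P ↔ 0 < v.ord ((algebraMap S F0M s : F0M) : FM)) := by
    intro s hs
    rw [hvw, ← hwQ _ (hSR0 s hs)]
    rfl
  obtain ⟨π, hπP, hπ⟩ := exists_ord_eq_one_of_centre K₀ F0M hcomp v hvS P hvP hPht
  rw [hvw] at hπ
  -- divide `a` by `π`
  have hπ0 : algebraMap S R π ≠ 0 := by
    intro h
    rw [h, map_zero] at hπ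
    simp [Place.ord_zero] at hπ
  have hπ0' : algebraMap R F0N (algebraMap S R π) ≠ 0 := fun h =>
    hπ0 ((map_eq_zero_iff _ hinjR).mp h)
  have ha0' : algebraMap R F0N a ≠ 0 := fun h => ha0 ((map_eq_zero_iff _ hinjR).mp h)
  have hcoe0 : ∀ f : F0N, f ≠ 0 → (f : FN) ≠ 0 := fun f hf h => hf (Subtype.ext h)
  have hapos := (hwQ a ha0).mp ha
  have hford : 0 ≤ w.ord (((algebraMap R F0N a / algebraMap R F0N (algebraMap S R π) : F0N)) : FN)
      := by
    rw [IntermediateField.coe_div,
      Fermat.Agent.S24.ord_div w (hcoe0 _ ha0') (hcoe0 _ hπ0'), hπ]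
    omega
  obtain ⟨b, hbQ, c, hbc⟩ := hwV _ (div_ne_zero ha0' hπ0') hford
  refine ⟨b, hbQ, ?_⟩
  have hba : b * a = c * algebraMap S R π := by
    apply hinjR
    rw [map_mul, map_mul, ← hbc, mul_assoc, div_mul_cancel₀ _ hπ0']
  rw [hba]
  exact Ideal.mul_mem_left _ c (Ideal.mem_map_of_mem _ hπP)

/-- **(U-GEOM) over a point.**  The conclusion of `H60.forall_unramified_of_places` for the
primes `Q` of `R` not containing `q` with `Q ∩ S ⊆ s`; the hypothesis `e = 1` is only asked at
the places centred on `R` at which the elements of `S ∖ s` are units, and the height bound only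
for the primes of `S` inside `s`. -/
theorem forall_unramified_of_places_le [Algebra.IsAlgebraic K₀ K] [CharZero K]
    (α : FM →+* FN) (xN : FN) [FiniteDimensional K⟮xN⟯ FN]
    (hcomp : Subfield.closure ((F0M : Set FM) ∪ Set.range (algebraMap K FM)) = ⊤)
    (hcompat : ∀ s : S, ((algebraMap R F0N (algebraMap S R s) : F0N) : FN)
      = α ((algebraMap S F0M s : F0M) : FM))
    (q : ℕ)
    (hconst : ∀ a : K₀, ∃ n : ℕ, ∃ c : R,
      algebraMap R F0N ((q : R) ^ n) * algebraMap K₀ F0N a = algebraMap R F0N c)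
    (s : Ideal S)
    (hht : ∀ P : Ideal S, P.IsPrime → (q : S) ∉ P → P ≤ s → P.height ≤ 1)
    (he : ∀ w : Place K FN,
      (∀ r : R, ((algebraMap R F0N r : F0N) : FN) ∈ w.toValuationSubring) →
      (∀ d : S, d ∉ s → w.ord (α ((algebraMap S F0M d : F0M) : FM)) = 0) →
      ∃ v : Place K FM, ∀ f : FM, v.ord f = w.ord (α f)) :
    ∀ Q : Ideal R, Q.IsPrime → (q : R) ∉ Q → Q.comap (algebraMap S R) ≤ s → ∀ a ∈ Q, ∃ b ∉ Q,
      b * a ∈ Ideal.map (algebraMap S R) (Q.comap (algebraMap S R)) := by
  classical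
  intro Q hQ hqQ hQs a ha
  have hinjR : Function.Injective (algebraMap R F0N) := IsFractionRing.injective R F0N
  have hqP : (q : S) ∉ Q.comap (algebraMap S R) := by
    intro h
    rw [Ideal.mem_comap, map_natCast] at h
    exact hqQ h
  refine unramified_at_of_place K₀ F0M F0N α xN hcomp hcompat Q ?_
    (hht _ (Ideal.comap_isPrime _ Q) hqP hQs) ?_ a ha
  · intro c₀
    obtain ⟨n, c, hc⟩ := hconst c₀
    exact ⟨(q : R) ^ n, fun h => hqQ (hQ.mem_of_pow_mem n h), c, hc⟩
  · intro w hw0 hwQ
    refine he w ?_ ?_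
    · intro r
      by_cases hr : r = 0
      · rw [hr, map_zero]
        exact w.toValuationSubring.zero_mem
      · have hr' : ((algebraMap R F0N r : F0N) : FN) ≠ 0 := fun h =>
          hr ((map_eq_zero_iff _ hinjR).mp (Subtype.ext h))
        exact (Fermat.Agent.S24.mem_iff_ord_nonneg w hr').mpr (hw0 r hr)
    · intro d hd
      rw [← hcompat]
      have hdQ : algebraMap S R d ∉ Q := fun h => hd (hQs h)
      have hd0 : algebraMap S R d ≠ 0 := fun h => hdQ (h ▸ Q.zero_mem)
      have h1 := hw0 _ hd0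
      have h2 := (hwQ _ hd0).not.mp hdQ
      omega

end Fermat.Agent.S34.H36
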