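import Mathlib
import Fermat.Agent.S34.H60.HeightVal

/-!
# Horizontal primes of a chart have height at most one (helper36; M6b-HUNR, Program B', S34)

`A₀` a discrete valuation ring with uniformiser `ϖ`, `S` a ring integral over `A₀[X]` (a chart:
the integral closure of `A₀[x]` in a function field).  A prime `P` of `S` not containing `ϖ`
has height at most one: it contracts to a prime of `A₀[X]` which survives in `Frac(A₀)[X]`, a
principal ideal domain.  This is the hypothesis `hht` of `H60.forall_unramified_of_places` at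
chart level (helper60's `height_le_one_of_ne_maximalIdeal` is the local form).
-/

set_option autoImplicit false
set_option linter.style.haveILetI false

namespace Fermat.Agent.S34.H36

open Polynomial

/-- In `A₀[X]`, `A₀` a discrete valuation ring with uniformiser `ϖ`, a prime not containing `ϖ`
has height at most one. -/
theorem polynomial_height_le_one {A₀ : Type*} [CommRing A₀] [IsDomain A₀]
    [IsDiscreteValuationRing A₀] (ϖ : A₀) (hϖ : Irreducible ϖ) (P : Ideal A₀[X]) [hP : P.IsPrime]
    (hϖP : C ϖ ∉ P) : P.height ≤ 1 := by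
  letI : Algebra A₀[X] (FractionRing A₀)[X] := Polynomial.algebra A₀ (FractionRing A₀)
  haveI : IsLocalization ((nonZeroDivisors A₀).map (C : A₀ →+* A₀[X])) (FractionRing A₀)[X] :=
    Polynomial.isLocalization (nonZeroDivisors A₀) (FractionRing A₀)
  have hdisj : Disjoint (((nonZeroDivisors A₀).map (C : A₀ →+* A₀[X]) : Submonoid A₀[X]) :
      Set A₀[X]) (P : Set A₀[X]) := by
    rw [Set.disjoint_left]
    rintro t ⟨a, ha, rfl⟩ htP
    have ha0 : a ≠ 0 := nonZeroDivisors.ne_zero ha
    obtain ⟨n, u, hu⟩ := IsDiscreteValuationRing.eq_unit_mul_pow_irreducible ha0 hϖ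
    have h1 : (C : A₀ →+* A₀[X]) a = C (u : A₀) * C ϖ ^ n := by
      rw [hu, map_mul, map_pow]
    have h2 : C (u : A₀) * C ϖ ^ n ∈ P := by
      rw [← h1]
      exact htP
    have hCu : IsUnit (C (u : A₀) : A₀[X]) := u.isUnit.map C
    have h3 : C ϖ ^ n ∈ P := by
      rcases hP.mem_or_mem h2 with h | h
      · exact absurd (P.eq_top_of_isUnit_mem h hCu) hP.ne_top
      · exact h
    exact hϖP (hP.mem_of_pow_mem n h3)
  have hheight := IsLocalization.height_map_of_disjoint
    (S := (FractionRing A₀)[X]) ((nonZeroDivisors A₀).map (C : A₀ →+* A₀[X])) P hdisj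
  haveI hprime : (P.map (algebraMap A₀[X] (FractionRing A₀)[X])).IsPrime :=
    IsLocalization.isPrime_of_isPrime_disjoint _ _ P hP hdisj
  rw [← hheight]
  have h1 : ((P.map (algebraMap A₀[X] (FractionRing A₀)[X])).height : WithBot ℕ∞)
      ≤ ringKrullDim (FractionRing A₀)[X] := Ideal.height_le_ringKrullDim_of_isPrime
  have h2 : ringKrullDim (FractionRing A₀)[X] ≤ 1 := by
    have : Ring.KrullDimLE 1 (FractionRing A₀)[X] := inferInstance
    rw [← Nat.cast_one, ← Ring.krullDimLE_iff]
    exact this
  exact_mod_cast h1.trans h2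

/-- **Horizontal primes of a chart have height at most one.** -/
theorem height_le_one_of_notMem {A₀ S : Type*} [CommRing A₀] [IsDomain A₀]
    [IsDiscreteValuationRing A₀] [CommRing S] [Algebra A₀[X] S] [Algebra.IsIntegral A₀[X] S]
    (ϖ : A₀) (hϖ : Irreducible ϖ) (P : Ideal S) [hP : P.IsPrime]
    (hϖP : algebraMap A₀[X] S (C ϖ) ∉ P) : P.height ≤ 1 := by
  haveI : (P.comap (algebraMap A₀[X] S)).IsPrime := Ideal.comap_isPrime _ P
  exact (H60.height_le_height_comap_of_isIntegral (S := A₀[X]) P).trans
    (polynomial_height_le_one ϖ hϖ _ hϖP)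

/-- The same when a natural number `q` is a uniformiser of `A₀`: the hypothesis `hht` of
`H60.forall_unramified_of_places`. -/
theorem height_le_one_of_natCast_notMem {A₀ S : Type*} [CommRing A₀] [IsDomain A₀]
    [IsDiscreteValuationRing A₀] [CommRing S] [Algebra A₀[X] S] [Algebra.IsIntegral A₀[X] S]
    (q : ℕ) (hq : Irreducible ((q : ℕ) : A₀)) (P : Ideal S) [hP : P.IsPrime]
    (hqP : (q : S) ∉ P) : P.height ≤ 1 := by
  refine height_le_one_of_notMem ((q : ℕ) : A₀) hq P ?_
  rw [map_natCast C, map_natCast]
  exact hqP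

end Fermat.Agent.S34.H36
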