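import Mathlib
import Fermat.Agent.S34.H36.Dichotomy
import Fermat.Agent.S34.H36.RegularNode

/-!
# From the charts to the local node (helper36; M6b-LOC, Program B', S34)

`S₀ → C₀` a finite injective homomorphism of domains (the level-`M'` chart inside the
level-`qM'` chart, over an unramified base), `s` a prime of `S₀`.  Put `S := (S₀)_s` and
`R := C₀ ⊗ S` (the localisation of `C₀` at the image of `S₀ ∖ s`: a semilocal ring, finite over
`S`).  This file transports chart-level statements to `(S, R)`: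

* (B) the fields of `PreNode` (`preNode_of_chart`);
* (C) the unramifiedness of the horizontal primes (`hunr_of_chart`);
* (E) if `R` is local and `x₀` is a prime of `C₀` over `s`, then `R` is the local ring of `C₀` at
  `x₀` (`isLocalization_atPrime_of_isLocalRing`), and the regular-node structure is transported
  to `Localization.AtPrime x₀` (`exists_regular_atPrime`);
* (F) `crossing_regular`: at a prime `x₀ ⊇ P1 + P2` of `C₀`, from chart-level hypotheses only, the
  local ring `(C₀)_{x₀}` is a regular node: `m = (J, b)`, `J * b = q`.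
-/

set_option autoImplicit false
set_option linter.unusedSectionVars false
set_option linter.style.haveILetI false

namespace Fermat.Agent.S34.H36

open Ideal IsLocalRing Polynomial

section Loc

variable {S₀ C₀ : Type*} [CommRing S₀] [CommRing C₀] [Algebra S₀ C₀]
  (s : Ideal S₀) [hs : s.IsPrime]
  (S : Type*) [CommRing S] [Algebra S₀ S] [IsLocalization.AtPrime S s]
  (R : Type*) [CommRing R] [Algebra C₀ R]
  [IsLocalization (Algebra.algebraMapSubmonoid C₀ s.primeCompl) R]
  [Algebra S R] [Algebra S₀ R] [IsScalarTower S₀ S R] [IsScalarTower S₀ C₀ R]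

/-- A prime of `C₀` whose contraction lies in `s` does not meet the image of `S₀ ∖ s`. -/
theorem disjoint_of_comap_le (P : Ideal C₀) (hP : P.comap (algebraMap S₀ C₀) ≤ s) :
    Disjoint ((Algebra.algebraMapSubmonoid C₀ s.primeCompl : Submonoid C₀) : Set C₀)
      (P : Set C₀) := by
  rw [Set.disjoint_left]
  rintro t ⟨d, hd, rfl⟩ htP
  exact hd (hP htP)

/-- The extension to `R` of a prime of `C₀` whose contraction lies in `s` is prime. -/
theorem isPrime_map_of_comap_le (P : Ideal C₀) [hPp : P.IsPrime]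
    (hP : P.comap (algebraMap S₀ C₀) ≤ s) : (P.map (algebraMap C₀ R)).IsPrime :=
  IsLocalization.isPrime_of_isPrime_disjoint (Algebra.algebraMapSubmonoid C₀ s.primeCompl) R P
    hPp (disjoint_of_comap_le s P hP)

/-- Membership in the extension of such a prime can be tested in `C₀`. -/
theorem algebraMap_mem_map_iff (P : Ideal C₀) [hPp : P.IsPrime]
    (hP : P.comap (algebraMap S₀ C₀) ≤ s) (c : C₀) :
    algebraMap C₀ R c ∈ P.map (algebraMap C₀ R) ↔ c ∈ P := by
  have h := IsLocalization.under_map_of_isPrime_disjoint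
    (Algebra.algebraMapSubmonoid C₀ s.primeCompl) R hPp (disjoint_of_comap_le s P hP)
  constructor
  · intro hc
    have : c ∈ Ideal.under C₀ (P.map (algebraMap C₀ R)) := hc
    rwa [h] at this
  · exact fun hc => Ideal.mem_map_of_mem _ hc

variable (C₀) in
include C₀ in
/-- The image in `R` of an element of `S₀ ∖ s` is a unit. -/
theorem isUnit_algebraMap_of_notMem {d : S₀} (hd : d ∉ s) : IsUnit (algebraMap S₀ R d) := by
  rw [IsScalarTower.algebraMap_apply S₀ C₀ R]
  exact IsLocalization.map_units R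
    (⟨algebraMap S₀ C₀ d, Algebra.mem_algebraMapSubmonoid_of_mem ⟨d, hd⟩⟩ :
      Algebra.algebraMapSubmonoid C₀ s.primeCompl)

/-- The image in `S` of an element of `S₀ ∖ s` is a unit. -/
theorem isUnit_algebraMap_base_of_notMem {d : S₀} (hd : d ∉ s) : IsUnit (algebraMap S₀ S d) :=
  IsLocalization.map_units S (⟨d, hd⟩ : s.primeCompl)

/-- Elements of `R` are fractions `c / d` with `d ∈ S₀ ∖ s`. -/
theorem exists_mul_eq_algebraMap (r : R) :
    ∃ (c : C₀) (d : S₀), d ∉ s ∧ r * algebraMap S₀ R d = algebraMap C₀ R c := by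
  obtain ⟨⟨c, ⟨t, d, hd, rfl⟩⟩, h⟩ :=
    IsLocalization.surj (Algebra.algebraMapSubmonoid C₀ s.primeCompl) r
  refine ⟨c, d, hd, ?_⟩
  rw [IsScalarTower.algebraMap_apply S₀ C₀ R]
  exact h

/-- Elements of `S` are fractions `a / d` with `d ∈ S₀ ∖ s`. -/
theorem exists_mul_eq_algebraMap_base (z : S) :
    ∃ (a d : S₀), d ∉ s ∧ z * algebraMap S₀ S d = algebraMap S₀ S a := by
  obtain ⟨⟨a, ⟨d, hd⟩⟩, h⟩ := IsLocalization.surj s.primeCompl z
  exact ⟨a, d, hd, h⟩

include s in
/-- `P1 ∩ P2 = (q)` localises. -/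
theorem map_inf_eq_span (q : ℕ) (P1 P2 : Ideal C₀) (hinf : P1 ⊓ P2 = Ideal.span {(q : C₀)}) :
    P1.map (algebraMap C₀ R) ⊓ P2.map (algebraMap C₀ R) = Ideal.span {(q : R)} := by
  rw [← IsLocalization.map_inf (Algebra.algebraMapSubmonoid C₀ s.primeCompl) R, hinf,
    Ideal.map_span, Set.image_singleton, map_natCast]

/-- `S₀ → C₀/P1` surjective up to denominators outside `s` gives `S → R/P1R` surjective. -/
theorem surj1_of_chart (P1 : Ideal C₀)
    (hsurj : ∀ c : C₀, ∃ d ∉ s, ∃ a : S₀,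
      algebraMap S₀ C₀ d * c - algebraMap S₀ C₀ a ∈ P1) (r : R) :
    ∃ z : S, r - algebraMap S R z ∈ P1.map (algebraMap C₀ R) := by
  obtain ⟨c, d₁, hd₁, hr⟩ := exists_mul_eq_algebraMap (C₀ := C₀) s R r
  obtain ⟨d₂, hd₂, a, ha⟩ := hsurj c
  have hu1 : IsUnit (algebraMap S₀ S d₁) := isUnit_algebraMap_base_of_notMem s S hd₁
  have hu2 : IsUnit (algebraMap S₀ S d₂) := isUnit_algebraMap_base_of_notMem s S hd₂
  obtain ⟨v₁, hv₁⟩ := hu1
  obtain ⟨v₂, hv₂⟩ := hu2
  refine ⟨algebraMap S₀ S a * ((v₁⁻¹ : Sˣ) : S) * ((v₂⁻¹ : Sˣ) : S), ?_⟩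
  have hU : IsUnit (algebraMap S₀ R d₁ * algebraMap S₀ R d₂) :=
    (isUnit_algebraMap_of_notMem C₀ s R hd₁).mul (isUnit_algebraMap_of_notMem C₀ s R hd₂)
  rw [← Ideal.mul_unit_mem_iff_mem _ hU]
  have e1 : algebraMap S R (algebraMap S₀ S a * ((v₁⁻¹ : Sˣ) : S) * ((v₂⁻¹ : Sˣ) : S))
      * (algebraMap S₀ R d₁ * algebraMap S₀ R d₂) = algebraMap S₀ R a := by
    rw [IsScalarTower.algebraMap_apply S₀ S R d₁, IsScalarTower.algebraMap_apply S₀ S R d₂,
      IsScalarTower.algebraMap_apply S₀ S R a, ← map_mul, ← map_mul, ← hv₁, ← hv₂]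
    congr 1
    have h1 : ((v₁⁻¹ : Sˣ) : S) * (v₁ : S) = 1 := by rw [← Units.val_mul, inv_mul_cancel, Units.val_one]
    have h2 : ((v₂⁻¹ : Sˣ) : S) * (v₂ : S) = 1 := by rw [← Units.val_mul, inv_mul_cancel, Units.val_one]
    calc algebraMap S₀ S a * ((v₁⁻¹ : Sˣ) : S) * ((v₂⁻¹ : Sˣ) : S) * ((v₁ : S) * (v₂ : S))
        = algebraMap S₀ S a * (((v₁⁻¹ : Sˣ) : S) * (v₁ : S)) * (((v₂⁻¹ : Sˣ) : S) * (v₂ : S)) := by
          ring
      _ = algebraMap S₀ S a := by rw [h1, h2, mul_one, mul_one]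
  have e2 : (r - algebraMap S R (algebraMap S₀ S a * ((v₁⁻¹ : Sˣ) : S) * ((v₂⁻¹ : Sˣ) : S)))
      * (algebraMap S₀ R d₁ * algebraMap S₀ R d₂)
      = algebraMap C₀ R (algebraMap S₀ C₀ d₂ * c - algebraMap S₀ C₀ a) := by
    rw [sub_mul, e1, map_sub, map_mul, ← IsScalarTower.algebraMap_apply S₀ C₀ R,
      ← IsScalarTower.algebraMap_apply S₀ C₀ R, ← hr]
    ring
  rw [e2]
  exact Ideal.mem_map_of_mem _ ha

/-- `P1 ∩ S₀ ⊆ q S₀` up to denominators outside `s` gives `P1R ∩ S = qS`. -/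
theorem comap1_of_chart (q : ℕ) (P1 : Ideal C₀) [P1.IsPrime]
    (hP1 : P1.comap (algebraMap S₀ C₀) ≤ s)
    (hcomap : ∀ a : S₀, algebraMap S₀ C₀ a ∈ P1 → ∃ d ∉ s, (q : S₀) ∣ d * a) (z : S)
    (hz : algebraMap S R z ∈ P1.map (algebraMap C₀ R)) : (q : S) ∣ z := by
  obtain ⟨a, d₁, hd₁, hza⟩ := exists_mul_eq_algebraMap_base s S z
  have h1 : algebraMap C₀ R (algebraMap S₀ C₀ a) ∈ P1.map (algebraMap C₀ R) := by
    rw [← IsScalarTower.algebraMap_apply S₀ C₀ R, IsScalarTower.algebraMap_apply S₀ S R, ← hza,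
      map_mul]
    exact Ideal.mul_mem_right _ _ hz
  have h2 : algebraMap S₀ C₀ a ∈ P1 := (algebraMap_mem_map_iff s R P1 hP1 _).mp h1
  obtain ⟨d₂, hd₂, e, he⟩ := hcomap a h2
  have hu1 : IsUnit (algebraMap S₀ S d₁) := isUnit_algebraMap_base_of_notMem s S hd₁
  have hu2 : IsUnit (algebraMap S₀ S d₂) := isUnit_algebraMap_base_of_notMem s S hd₂
  have h3 : (q : S) ∣ z * (algebraMap S₀ S d₁ * algebraMap S₀ S d₂) := by
    refine ⟨algebraMap S₀ S e, ?_⟩
    have := congrArg (algebraMap S₀ S) he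
    rw [map_mul, map_mul, map_natCast] at this
    rw [← this, ← hza]
    ring
  exact ((hu1.mul hu2).dvd_mul_right).mp h3

/-- Compatibility of evaluation with the localisation maps. -/
theorem aeval_map_algebraMap_loc (x : C₀) (p : S₀[X]) :
    aeval (algebraMap C₀ R x) (p.map (algebraMap S₀ S)) = algebraMap C₀ R (aeval x p) := by
  rw [Polynomial.aeval_map_algebraMap, Polynomial.aeval_algebraMap_apply]

/-- The hypothesis `frac2` localises. -/
theorem frac2_of_chart (x : C₀) (P2 : Ideal C₀) [P2.IsPrime]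
    (hP2 : P2.comap (algebraMap S₀ C₀) ≤ s)
    (hfrac : ∀ c : C₀, ∃ d f : S₀[X], aeval x d ∉ P2 ∧ aeval x d * c - aeval x f ∈ P2)
    (r : R) :
    ∃ d f : S[X], aeval (algebraMap C₀ R x) d ∉ P2.map (algebraMap C₀ R) ∧
      aeval (algebraMap C₀ R x) d * r - aeval (algebraMap C₀ R x) f
        ∈ P2.map (algebraMap C₀ R) := by
  obtain ⟨c, e, he, hr⟩ := exists_mul_eq_algebraMap (C₀ := C₀) s R r
  obtain ⟨d₀, f₀, hd₀, hf₀⟩ := hfrac c
  obtain ⟨v, hv⟩ := isUnit_algebraMap_base_of_notMem s S he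
  refine ⟨d₀.map (algebraMap S₀ S), Polynomial.C ((v⁻¹ : Sˣ) : S) * f₀.map (algebraMap S₀ S),
    ?_, ?_⟩
  · rw [aeval_map_algebraMap_loc, algebraMap_mem_map_iff s R P2 hP2]
    exact hd₀
  · rw [map_mul, Polynomial.aeval_C, aeval_map_algebraMap_loc, aeval_map_algebraMap_loc,
      ← Ideal.mul_unit_mem_iff_mem _ (isUnit_algebraMap_of_notMem C₀ s R he)]
    have h1 : algebraMap S R ((v⁻¹ : Sˣ) : S) * algebraMap S₀ R e = 1 := by
      rw [IsScalarTower.algebraMap_apply S₀ S R e, ← map_mul, ← hv, ← Units.val_mul,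
        inv_mul_cancel, Units.val_one, map_one]
    have e2 : (algebraMap C₀ R (aeval x d₀) * r
        - algebraMap S R ((v⁻¹ : Sˣ) : S) * algebraMap C₀ R (aeval x f₀)) * algebraMap S₀ R e
        = algebraMap C₀ R (aeval x d₀ * c - aeval x f₀) := by
      rw [map_sub, map_mul, ← hr]
      calc (algebraMap C₀ R (aeval x d₀) * r
            - algebraMap S R ((v⁻¹ : Sˣ) : S) * algebraMap C₀ R (aeval x f₀)) * algebraMap S₀ R e
          = algebraMap C₀ R (aeval x d₀) * (r * algebraMap S₀ R e)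
            - (algebraMap S R ((v⁻¹ : Sˣ) : S) * algebraMap S₀ R e)
              * algebraMap C₀ R (aeval x f₀) := by ring
        _ = algebraMap C₀ R (aeval x d₀) * (r * algebraMap S₀ R e)
            - algebraMap C₀ R (aeval x f₀) := by rw [h1, one_mul]
    rw [e2]
    exact Ideal.mem_map_of_mem _ hf₀

include s in
/-- Injectivity localises. -/
theorem algebraMap_injective_of_chart (hinj : Function.Injective (algebraMap S₀ C₀)) :
    Function.Injective (algebraMap S R) := by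
  rw [injective_iff_map_eq_zero]
  intro z hz
  obtain ⟨a, d, hd, hza⟩ := exists_mul_eq_algebraMap_base s S z
  have h1 : algebraMap C₀ R (algebraMap S₀ C₀ a) = 0 := by
    rw [← IsScalarTower.algebraMap_apply S₀ C₀ R, IsScalarTower.algebraMap_apply S₀ S R, ← hza,
      map_mul, hz, zero_mul]
  obtain ⟨⟨t, d', hd', rfl⟩, ht⟩ :=
    (IsLocalization.map_eq_zero_iff (Algebra.algebraMapSubmonoid C₀ s.primeCompl) R _).mp h1
  have h2 : d' * a = 0 := by
    apply hinj
    rw [map_mul, map_zero]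
    exact ht
  have h3 : algebraMap S₀ S d' * algebraMap S₀ S a = 0 := by
    rw [← map_mul, h2, map_zero]
  have h4 : algebraMap S₀ S a = 0 :=
    ((isUnit_algebraMap_base_of_notMem s S hd').mul_right_eq_zero).mp h3
  rw [h4] at hza
  exact ((isUnit_algebraMap_base_of_notMem s S hd).mul_left_eq_zero).mp hza

include s in
/-- `S` is a domain. -/
theorem isDomain_base [IsDomain S₀] : IsDomain S :=
  IsLocalization.isDomain_of_le_nonZeroDivisors S (Ideal.primeCompl_le_nonZeroDivisors s)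

include s in
/-- `R` is a domain. -/
theorem isDomain_loc [IsDomain S₀] [IsDomain C₀]
    (hinj : Function.Injective (algebraMap S₀ C₀)) : IsDomain R := by
  refine IsLocalization.isDomain_of_le_nonZeroDivisors R
    (M := Algebra.algebraMapSubmonoid C₀ s.primeCompl) ?_
  rintro t ⟨d, hd, rfl⟩
  apply mem_nonZeroDivisors_of_ne_zero
  intro h0
  have hd0 : d = 0 := hinj (by rw [h0, map_zero])
  exact hd (hd0 ▸ s.zero_mem)

include s in
/-- `S` is noetherian. -/
theorem isNoetherianRing_base [IsNoetherianRing S₀] : IsNoetherianRing S :=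
  IsLocalization.isNoetherianRing s.primeCompl S inferInstance

include s in
/-- `R` is finite over `S`. -/
theorem finite_loc [Module.Finite S₀ C₀] : Module.Finite S R :=
  Module.Finite.of_isLocalization S₀ C₀ s.primeCompl

/-- **(B) The fields of `PreNode` from chart-level statements.** -/
theorem preNode_of_chart [IsLocalRing S] (hinj : Function.Injective (algebraMap S₀ C₀))
    (q : ℕ) (hq2 : 2 ≤ q) (θ : S₀) (x : C₀) (P1 P2 : Ideal C₀) [P1.IsPrime] [P2.IsPrime]
    (hP1 : P1.comap (algebraMap S₀ C₀) ≤ s) (hP2 : P2.comap (algebraMap S₀ C₀) ≤ s)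
    (hprime : Prime ((q : ℕ) : S))
    (hmax : maximalIdeal S = Ideal.span {((q : ℕ) : S), algebraMap S₀ S θ})
    (hinf : P1 ⊓ P2 = Ideal.span {(q : C₀)})
    (hsurj1 : ∀ c : C₀, ∃ d ∉ s, ∃ a : S₀,
      algebraMap S₀ C₀ d * c - algebraMap S₀ C₀ a ∈ P1)
    (hcomap1 : ∀ a : S₀, algebraMap S₀ C₀ a ∈ P1 → ∃ d ∉ s, (q : S₀) ∣ d * a)
    (hx1 : x ∈ P1) (hx2 : x ∉ P2) (hxpow : x ^ q - algebraMap S₀ C₀ θ ∈ P2)
    (hfrac2 : ∀ c : C₀, ∃ d f : S₀[X], aeval x d ∉ P2 ∧ aeval x d * c - aeval x f ∈ P2) :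
    PreNode q S R (algebraMap S₀ S θ) (P1.map (algebraMap C₀ R)) (P2.map (algebraMap C₀ R))
      (algebraMap C₀ R x) where
  two_le := hq2
  prime_q := hprime
  max_S := hmax
  inj := algebraMap_injective_of_chart s S R hinj
  prime1 := isPrime_map_of_comap_le s R P1 hP1
  prime2 := isPrime_map_of_comap_le s R P2 hP2
  inf_eq := map_inf_eq_span s R q P1 P2 hinf
  surj1 := surj1_of_chart s S R P1 hsurj1
  comap1 := comap1_of_chart s S R q P1 hP1 hcomap1
  x_mem1 := Ideal.mem_map_of_mem _ hx1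
  x_not_mem2 := fun h => hx2 ((algebraMap_mem_map_iff s R P2 hP2 x).mp h)
  x_pow := by
    have h1 : algebraMap C₀ R (x ^ q - algebraMap S₀ C₀ θ) ∈ P2.map (algebraMap C₀ R) :=
      Ideal.mem_map_of_mem _ hxpow
    rwa [map_sub, map_pow, ← IsScalarTower.algebraMap_apply S₀ C₀ R,
      IsScalarTower.algebraMap_apply S₀ S R] at h1
  frac2 := frac2_of_chart s S R x P2 hP2 hfrac2

include s in
/-- **(C) Unramifiedness of the horizontal primes localises.** -/
theorem hunr_of_chart (q : ℕ)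
    (hunr : ∀ Q : Ideal C₀, Q.IsPrime → (q : C₀) ∉ Q → ∀ a ∈ Q, ∃ b ∉ Q,
      b * a ∈ Ideal.map (algebraMap S₀ C₀) (Q.comap (algebraMap S₀ C₀)))
    (Q : Ideal R) (hQ : Q.IsPrime) (hqQ : (q : R) ∉ Q) (a : R) (ha : a ∈ Q) :
    ∃ b ∉ Q, b * a ∈ Ideal.map (algebraMap S R) (Q.comap (algebraMap S R)) := by
  obtain ⟨c, e, he, hae⟩ := exists_mul_eq_algebraMap (C₀ := C₀) s R a
  have hQ₀ : (Q.comap (algebraMap C₀ R)).IsPrime := Ideal.comap_isPrime _ Q
  have hq₀ : (q : C₀) ∉ Q.comap (algebraMap C₀ R) := by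
    intro h
    rw [Ideal.mem_comap, map_natCast] at h
    exact hqQ h
  have hc : c ∈ Q.comap (algebraMap C₀ R) := by
    rw [Ideal.mem_comap, ← hae]
    exact Q.mul_mem_right _ ha
  obtain ⟨b₀, hb₀, hb⟩ := hunr _ hQ₀ hq₀ c hc
  refine ⟨algebraMap C₀ R b₀, hb₀, ?_⟩
  rw [← Ideal.mul_unit_mem_iff_mem _ (isUnit_algebraMap_of_notMem C₀ s R he)]
  have e1 : algebraMap C₀ R b₀ * a * algebraMap S₀ R e = algebraMap C₀ R (b₀ * c) := by
    rw [map_mul, ← hae]
    ring
  rw [e1]
  have h1 : algebraMap C₀ R (b₀ * c) ∈ Ideal.map (algebraMap C₀ R)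
      (Ideal.map (algebraMap S₀ C₀) ((Q.comap (algebraMap C₀ R)).comap (algebraMap S₀ C₀))) :=
    Ideal.mem_map_of_mem _ hb
  rw [Ideal.map_map, ← IsScalarTower.algebraMap_eq S₀ C₀ R,
    IsScalarTower.algebraMap_eq S₀ S R, ← Ideal.map_map] at h1
  refine Ideal.map_mono ?_ h1
  rw [Ideal.map_le_iff_le_comap]
  intro y hy
  rw [Ideal.mem_comap, Ideal.mem_comap] at hy
  rw [Ideal.mem_comap, Ideal.mem_comap, ← IsScalarTower.algebraMap_apply S₀ S R,
    IsScalarTower.algebraMap_apply S₀ C₀ R]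
  exact hy

/-- **(E) If `R` is local, it is the local ring of `C₀` at any prime over `s`.** -/
theorem isLocalization_atPrime_of_isLocalRing [Algebra.IsIntegral S₀ C₀] [IsLocalRing R]
    (x₀ : Ideal C₀) [hx₀p : x₀.IsPrime] (hx₀ : x₀.comap (algebraMap S₀ C₀) = s) :
    IsLocalization.AtPrime R x₀ := by
  have hdisj := disjoint_of_comap_le s x₀ hx₀.le
  refine IsLocalization.of_le (M := Algebra.algebraMapSubmonoid C₀ s.primeCompl)
    x₀.primeCompl ?_ ?_
  · intro t ht htx
    exact (Set.disjoint_left.mp hdisj) ht htx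
  · intro c hc
    by_contra hnu
    have hcm : algebraMap C₀ R c ∈ maximalIdeal R := hnu
    set n : Ideal C₀ := (maximalIdeal R).comap (algebraMap C₀ R) with hn
    have hnp : n.IsPrime := Ideal.comap_isPrime _ _
    have hx₀n : x₀ ≤ n := by
      have h1 : x₀.map (algebraMap C₀ R) ≠ ⊤ :=
        (IsLocalization.map_algebraMap_ne_top_iff_disjoint
          (Algebra.algebraMapSubmonoid C₀ s.primeCompl) R x₀).mpr hdisj
      have h2 : x₀.map (algebraMap C₀ R) ≤ maximalIdeal R := IsLocalRing.le_maximalIdeal h1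
      exact Ideal.map_le_iff_le_comap.mp h2
    have hns : n.comap (algebraMap S₀ C₀) ≤ s := by
      intro d hd
      by_contra hds
      have h1 : algebraMap C₀ R (algebraMap S₀ C₀ d) ∈ maximalIdeal R := hd
      rw [← IsScalarTower.algebraMap_apply S₀ C₀ R] at h1
      exact h1 (isUnit_algebraMap_of_notMem C₀ s R hds)
    have hcn : c ∈ n := hcm
    have hlt := Ideal.comap_lt_comap_of_integral_mem_sdiff (R := S₀) hx₀n
      (⟨hcn, hc⟩ : c ∈ (n : Set C₀) \ x₀) (Algebra.IsIntegral.isIntegral c)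
    rw [hx₀] at hlt
    exact (not_le_of_gt hlt) hns

end Loc

section Transfer

variable {C₀ : Type*} [CommRing C₀]

/-- A principal extended ideal stays principal, with the transported generator, in
`Localization.AtPrime x₀`. -/
theorem map_atPrime_eq_span (x₀ : Ideal C₀) [x₀.IsPrime] (R : Type*) [CommRing R]
    [Algebra C₀ R] [IsLocalization.AtPrime R x₀] (P : Ideal C₀) (g : R)
    (hP : P.map (algebraMap C₀ R) = Ideal.span {g}) :
    P.map (algebraMap C₀ (Localization.AtPrime x₀)) = Ideal.span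
      {IsLocalization.algEquiv x₀.primeCompl R (Localization.AtPrime x₀) g} := by
  set e : R ≃ₐ[C₀] Localization.AtPrime x₀ :=
    IsLocalization.algEquiv x₀.primeCompl R (Localization.AtPrime x₀) with he
  have hcomp : (e : R →+* Localization.AtPrime x₀).comp (algebraMap C₀ R)
      = algebraMap C₀ (Localization.AtPrime x₀) := by
    ext c
    exact e.commutes c
  have hmap : P.map (algebraMap C₀ (Localization.AtPrime x₀))
      = (P.map (algebraMap C₀ R)).map (e : R →+* Localization.AtPrime x₀) := by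
    rw [Ideal.map_map, hcomp]
  rw [hmap, hP, Ideal.map_span, Set.image_singleton]
  rfl

/-- Transport of `m_R = (J, b)`, `J * b = q` from any model `R` of the local ring of `C₀` at
`x₀` to `Localization.AtPrime x₀`. -/
theorem regular_atPrime (x₀ : Ideal C₀) [x₀.IsPrime] (R : Type*) [CommRing R]
    [Algebra C₀ R] [IsLocalization.AtPrime R x₀] [IsLocalRing R] (q : ℕ)
    (J b : R) (hJb : J * b = (q : R)) (hm : maximalIdeal R = Ideal.span {J, b}) :
    IsLocalization.algEquiv x₀.primeCompl R (Localization.AtPrime x₀) J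
        * IsLocalization.algEquiv x₀.primeCompl R (Localization.AtPrime x₀) b
        = (q : Localization.AtPrime x₀) ∧
      maximalIdeal (Localization.AtPrime x₀) = Ideal.span
        {IsLocalization.algEquiv x₀.primeCompl R (Localization.AtPrime x₀) J,
          IsLocalization.algEquiv x₀.primeCompl R (Localization.AtPrime x₀) b} := by
  set e : R ≃ₐ[C₀] Localization.AtPrime x₀ :=
    IsLocalization.algEquiv x₀.primeCompl R (Localization.AtPrime x₀) with he
  refine ⟨?_, ?_⟩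
  · rw [← map_mul, hJb, map_natCast]
  · have hmax : ((maximalIdeal R).map (e : R →+* Localization.AtPrime x₀)).IsMaximal :=
      Ideal.IsMaximal.map_bijective (f := (e : R →+* Localization.AtPrime x₀)) e.bijective
        (maximalIdeal.isMaximal R)
    rw [← IsLocalRing.eq_maximalIdeal hmax, hm, Ideal.map_span, Set.image_pair]
    rfl

end Transfer

section Final

variable {S₀ C₀ : Type*} [CommRing S₀] [CommRing C₀] [IsDomain S₀] [IsDomain C₀]
  [Algebra S₀ C₀] [Module.Finite S₀ C₀] [IsNoetherianRing S₀]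

/-- **(D)+(C)+(E): from `NodeHyp` on a model `(S, R)` of the localisations to the regular node
at `Localization.AtPrime x₀`.**  `S` a model of `(S₀)_s`, `R` a model of `C₀ ⊗ S`, local, with
`NodeHyp q S R θ P1 P2 x` (e.g. the output of `PreNode.dichotomy`); `hunr`: the chart-level
unramifiedness of the horizontal primes (`H60.forall_unramified_of_places`).  Then for every prime
`x₀` of `C₀` over `s`, the local ring `(C₀)_{x₀}` has `m = (J, b)`, `J * b = q`. -/
theorem exists_regular_atPrime_of_nodeHyp (hinj : Function.Injective (algebraMap S₀ C₀))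
    (s : Ideal S₀) [s.IsPrime]
    (S : Type*) [CommRing S] [Algebra S₀ S] [IsLocalization.AtPrime S s]
    (R : Type*) [CommRing R] [Algebra C₀ R]
    [IsLocalization (Algebra.algebraMapSubmonoid C₀ s.primeCompl) R]
    [Algebra S R] [Algebra S₀ R] [IsScalarTower S₀ S R] [IsScalarTower S₀ C₀ R]
    [IsLocalRing S] [IsLocalRing R]
    (q : ℕ) (hq : q.Prime) {θ : S} {P1 P2 : Ideal R} {x : R}
    (h : H46.NodeHyp q S R θ P1 P2 x)
    (hunr : ∀ Q : Ideal C₀, Q.IsPrime → (q : C₀) ∉ Q → ∀ a ∈ Q, ∃ b ∉ Q,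
      b * a ∈ Ideal.map (algebraMap S₀ C₀) (Q.comap (algebraMap S₀ C₀)))
    (x₀ : Ideal C₀) [x₀.IsPrime] (hx₀ : x₀.comap (algebraMap S₀ C₀) = s) :
    ∃ J b : Localization.AtPrime x₀, J * b = (q : Localization.AtPrime x₀) ∧
      maximalIdeal (Localization.AtPrime x₀) = Ideal.span {J, b} := by
  haveI : IsDomain S := isDomain_base s S
  haveI : IsDomain R := isDomain_loc s R hinj
  haveI : IsNoetherianRing S := isNoetherianRing_base s S
  haveI : Module.Finite S R := finite_loc (C₀ := C₀) s S R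
  obtain ⟨J, b, hJb, hm, -, -⟩ := regular_of_nodeHyp hq h (hunr_of_chart s S R q hunr)
  haveI : IsLocalization.AtPrime R x₀ := isLocalization_atPrime_of_isLocalRing s R x₀ hx₀
  obtain ⟨h1, h2⟩ := regular_atPrime x₀ R q J b hJb hm
  exact ⟨_, _, h1, h2⟩

/-- **(F) The crossing point is a regular node: chart-level form.**

`S₀ ⊆ C₀` finite (the level-`M'` chart inside the level-`qM'` chart over an unramified base),
`x₀` a prime of `C₀` containing the two components `P1`, `P2` of the special fibre, `s = x₀ ∩ S₀`.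
Hypotheses, all at chart level: the local ring `(S₀)_s` has `q` prime and `m = (q, θ)`;
`P1 ∩ P2 = (q)`; `S₀ → C₀/P1` is surjective and `P1 ∩ S₀ ⊆ (q)` (both up to denominators outside
`s`); `x ∈ P1`, `x ∉ P2`, `x ^ q ≡ θ` modulo `P2`, and `x` generates the fraction field of `C₀/P2`
over `S₀` (`hfrac2`); the horizontal primes of `C₀` are unramified over `S₀` (`hunr`).
Conclusion: the local ring of `C₀` at `x₀` has maximal ideal `(J, b)` with `J * b = q`,
`P2 = (J)`, `P1 = (b)` there. -/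
theorem crossing_regular (hinj : Function.Injective (algebraMap S₀ C₀))
    (s : Ideal S₀) [s.IsPrime] (q : ℕ) (hq : q.Prime)
    (θ : S₀) (x : C₀) (P1 P2 : Ideal C₀) [P1.IsPrime] [P2.IsPrime]
    (hprime : Prime ((q : ℕ) : Localization.AtPrime s))
    (hmax : maximalIdeal (Localization.AtPrime s)
      = Ideal.span {((q : ℕ) : Localization.AtPrime s), algebraMap S₀ (Localization.AtPrime s) θ})
    (hinf : P1 ⊓ P2 = Ideal.span {(q : C₀)})
    (hsurj1 : ∀ c : C₀, ∃ d ∉ s, ∃ a : S₀,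
      algebraMap S₀ C₀ d * c - algebraMap S₀ C₀ a ∈ P1)
    (hcomap1 : ∀ a : S₀, algebraMap S₀ C₀ a ∈ P1 → ∃ d ∉ s, (q : S₀) ∣ d * a)
    (hx1 : x ∈ P1) (hx2 : x ∉ P2) (hxpow : x ^ q - algebraMap S₀ C₀ θ ∈ P2)
    (hfrac2 : ∀ c : C₀, ∃ d f : S₀[X], aeval x d ∉ P2 ∧ aeval x d * c - aeval x f ∈ P2)
    (hunr : ∀ Q : Ideal C₀, Q.IsPrime → (q : C₀) ∉ Q → ∀ a ∈ Q, ∃ b ∉ Q,
      b * a ∈ Ideal.map (algebraMap S₀ C₀) (Q.comap (algebraMap S₀ C₀)))
    (x₀ : Ideal C₀) [x₀.IsPrime] (hx₀ : x₀.comap (algebraMap S₀ C₀) = s)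
    (h1 : P1 ≤ x₀) (h2 : P2 ≤ x₀) :
    ∃ J b : Localization.AtPrime x₀, J * b = (q : Localization.AtPrime x₀) ∧
      maximalIdeal (Localization.AtPrime x₀) = Ideal.span {J, b} ∧
      P2.map (algebraMap C₀ (Localization.AtPrime x₀)) = Ideal.span {J} ∧
      P1.map (algebraMap C₀ (Localization.AtPrime x₀)) = Ideal.span {b} := by
  set S := Localization.AtPrime s with hS
  set R := Localization (Algebra.algebraMapSubmonoid C₀ s.primeCompl) with hR
  have hP1 : P1.comap (algebraMap S₀ C₀) ≤ s := fun d hd => hx₀ ▸ (h1 hd : algebraMap S₀ C₀ d ∈ x₀)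
  have hP2 : P2.comap (algebraMap S₀ C₀) ≤ s := fun d hd => hx₀ ▸ (h2 hd : algebraMap S₀ C₀ d ∈ x₀)
  haveI : IsDomain S := isDomain_base s S
  haveI : IsDomain R := isDomain_loc s R hinj
  haveI : IsNoetherianRing S := isNoetherianRing_base s S
  haveI : Module.Finite S R := finite_loc (C₀ := C₀) s S R
  have hpre : PreNode q S R (algebraMap S₀ S θ) (P1.map (algebraMap C₀ R))
      (P2.map (algebraMap C₀ R)) (algebraMap C₀ R x) :=
    preNode_of_chart s S R hinj q hq.two_le θ x P1 P2 hP1 hP2 hprime hmax hinf hsurj1 hcomap1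
      hx1 hx2 hxpow hfrac2
  rcases hpre.dichotomy with hsplit | ⟨hloc, hnode⟩
  · exfalso
    have hne : x₀.map (algebraMap C₀ R) ≠ ⊤ :=
      (IsLocalization.map_algebraMap_ne_top_iff_disjoint
        (Algebra.algebraMapSubmonoid C₀ s.primeCompl) R x₀).mpr
        (disjoint_of_comap_le s x₀ hx₀.le)
    apply hne
    rw [eq_top_iff, ← hsplit]
    exact sup_le (Ideal.map_mono h1) (Ideal.map_mono h2)
  · haveI := hloc
    obtain ⟨J, b, hJb, hm, hJ2, hb1⟩ := regular_of_nodeHyp hq hnode (hunr_of_chart s S R q hunr)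
    haveI : IsLocalization.AtPrime R x₀ := isLocalization_atPrime_of_isLocalRing s R x₀ hx₀
    obtain ⟨e1, e2⟩ := regular_atPrime x₀ R q J b hJb hm
    exact ⟨_, _, e1, e2, map_atPrime_eq_span x₀ R P2 J hJ2, map_atPrime_eq_span x₀ R P1 b hb1⟩

end Final

end Fermat.Agent.S34.H36
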