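import Mathlib
import Fermat.Agent.S34.H36.LocNode

/-!
# From the charts to the local node, with unramifiedness only over the point
(helper36; M6b-LOC, Program B', S34)

Variants of `hunr_of_chart`, `exists_regular_atPrime_of_nodeHyp` and `crossing_regular`
(`LocNode.lean`) in which the unramifiedness of the horizontal primes `Q` of the chart `C₀` is
only asked for the primes with `Q ∩ S₀ ⊆ s` (the horizontal curves through the points over `s`).

This is the form that can be supplied when the chart contains cusps (Hauptmodul charts, residue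
characteristic `2` or `3`): the degeneracy map is ramified at some cusps, but no cusp passes
through a crossing point.
-/

set_option autoImplicit false
set_option linter.unusedSectionVars false
set_option linter.style.haveILetI false

namespace Fermat.Agent.S34.H36

open Ideal IsLocalRing Polynomial

section Loc

variable {S₀ C₀ : Type*} [CommRing S₀] [CommRing C₀] [Algebra S₀ C₀]
  (s : Ideal S₀) [hs : s.IsPrime]
  (S : Type*) [CommRing S] [Algebra S₀ S] [IsLocalization.AtPrime S s]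
  (R : Type*) [CommRing R] [Algebra C₀ R]
  [IsLocalization (Algebra.algebraMapSubmonoid C₀ s.primeCompl) R]
  [Algebra S R] [Algebra S₀ R] [IsScalarTower S₀ S R] [IsScalarTower S₀ C₀ R]

include s in
/-- **Unramifiedness of the horizontal primes localises**: only the primes `Q` of `C₀` with
`Q ∩ S₀ ⊆ s` are needed. -/
theorem hunr_of_chart_le (q : ℕ)
    (hunr : ∀ Q : Ideal C₀, Q.IsPrime → (q : C₀) ∉ Q → Q.comap (algebraMap S₀ C₀) ≤ s →
      ∀ a ∈ Q, ∃ b ∉ Q, b * a ∈ Ideal.map (algebraMap S₀ C₀) (Q.comap (algebraMap S₀ C₀)))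
    (Q : Ideal R) (hQ : Q.IsPrime) (hqQ : (q : R) ∉ Q) (a : R) (ha : a ∈ Q) :
    ∃ b ∉ Q, b * a ∈ Ideal.map (algebraMap S R) (Q.comap (algebraMap S R)) := by
  obtain ⟨c, e, he, hae⟩ := exists_mul_eq_algebraMap (C₀ := C₀) s R a
  have hQ₀ : (Q.comap (algebraMap C₀ R)).IsPrime := Ideal.comap_isPrime _ Q
  have hq₀ : (q : C₀) ∉ Q.comap (algebraMap C₀ R) := by
    intro h
    rw [Ideal.mem_comap, map_natCast] at h
    exact hqQ h
  have hle : (Q.comap (algebraMap C₀ R)).comap (algebraMap S₀ C₀) ≤ s := by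
    intro d hd
    by_contra hds
    have h1 : algebraMap C₀ R (algebraMap S₀ C₀ d) ∈ Q := hd
    rw [← IsScalarTower.algebraMap_apply S₀ C₀ R] at h1
    exact hQ.ne_top (Q.eq_top_of_isUnit_mem h1 (isUnit_algebraMap_of_notMem C₀ s R hds))
  have hc : c ∈ Q.comap (algebraMap C₀ R) := by
    rw [Ideal.mem_comap, ← hae]
    exact Q.mul_mem_right _ ha
  obtain ⟨b₀, hb₀, hb⟩ := hunr _ hQ₀ hq₀ hle c hc
  refine ⟨algebraMap C₀ R b₀, hb₀, ?_⟩
  rw [← Ideal.mul_unit_mem_iff_mem _ (isUnit_algebraMap_of_notMem C₀ s R he)]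
  have e1 : algebraMap C₀ R b₀ * a * algebraMap S₀ R e = algebraMap C₀ R (b₀ * c) := by
    rw [map_mul, ← hae]
    ring
  rw [e1]
  have h1 : algebraMap C₀ R (b₀ * c) ∈ Ideal.map (algebraMap C₀ R)
      (Ideal.map (algebraMap S₀ C₀) ((Q.comap (algebraMap C₀ R)).comap (algebraMap S₀ C₀))) :=
    Ideal.mem_map_of_mem _ hb
  rw [Ideal.map_map, ← IsScalarTower.algebraMap_eq S₀ C₀ R,
    IsScalarTower.algebraMap_eq S₀ S R, ← Ideal.map_map] at h1
  refine Ideal.map_mono ?_ h1
  rw [Ideal.map_le_iff_le_comap]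
  intro y hy
  rw [Ideal.mem_comap, Ideal.mem_comap] at hy
  rw [Ideal.mem_comap, Ideal.mem_comap, ← IsScalarTower.algebraMap_apply S₀ S R,
    IsScalarTower.algebraMap_apply S₀ C₀ R]
  exact hy

end Loc

section Final

variable {S₀ C₀ : Type*} [CommRing S₀] [CommRing C₀] [IsDomain S₀] [IsDomain C₀]
  [Algebra S₀ C₀] [Module.Finite S₀ C₀] [IsNoetherianRing S₀]

/-- `exists_regular_atPrime_of_nodeHyp` with the unramifiedness asked only for the horizontal
primes over `s`. -/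
theorem exists_regular_atPrime_of_nodeHyp_le (hinj : Function.Injective (algebraMap S₀ C₀))
    (s : Ideal S₀) [s.IsPrime]
    (S : Type*) [CommRing S] [Algebra S₀ S] [IsLocalization.AtPrime S s]
    (R : Type*) [CommRing R] [Algebra C₀ R]
    [IsLocalization (Algebra.algebraMapSubmonoid C₀ s.primeCompl) R]
    [Algebra S R] [Algebra S₀ R] [IsScalarTower S₀ S R] [IsScalarTower S₀ C₀ R]
    [IsLocalRing S] [IsLocalRing R]
    (q : ℕ) (hq : q.Prime) {θ : S} {P1 P2 : Ideal R} {x : R}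
    (h : H46.NodeHyp q S R θ P1 P2 x)
    (hunr : ∀ Q : Ideal C₀, Q.IsPrime → (q : C₀) ∉ Q → Q.comap (algebraMap S₀ C₀) ≤ s →
      ∀ a ∈ Q, ∃ b ∉ Q, b * a ∈ Ideal.map (algebraMap S₀ C₀) (Q.comap (algebraMap S₀ C₀)))
    (x₀ : Ideal C₀) [x₀.IsPrime] (hx₀ : x₀.comap (algebraMap S₀ C₀) = s) :
    ∃ J b : Localization.AtPrime x₀, J * b = (q : Localization.AtPrime x₀) ∧
      maximalIdeal (Localization.AtPrime x₀) = Ideal.span {J, b} := by
  haveI : IsDomain S := isDomain_base s S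
  haveI : IsDomain R := isDomain_loc s R hinj
  haveI : IsNoetherianRing S := isNoetherianRing_base s S
  haveI : Module.Finite S R := finite_loc (C₀ := C₀) s S R
  obtain ⟨J, b, hJb, hm, -, -⟩ := regular_of_nodeHyp hq h (hunr_of_chart_le s S R q hunr)
  haveI : IsLocalization.AtPrime R x₀ := isLocalization_atPrime_of_isLocalRing s R x₀ hx₀
  obtain ⟨h1, h2⟩ := regular_atPrime x₀ R q J b hJb hm
  exact ⟨_, _, h1, h2⟩

/-- `crossing_regular` with the unramifiedness asked only for the horizontal primes over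
`s = x₀ ∩ S₀`. -/
theorem crossing_regular_le (hinj : Function.Injective (algebraMap S₀ C₀))
    (s : Ideal S₀) [s.IsPrime] (q : ℕ) (hq : q.Prime)
    (θ : S₀) (x : C₀) (P1 P2 : Ideal C₀) [P1.IsPrime] [P2.IsPrime]
    (hprime : Prime ((q : ℕ) : Localization.AtPrime s))
    (hmax : maximalIdeal (Localization.AtPrime s)
      = Ideal.span {((q : ℕ) : Localization.AtPrime s), algebraMap S₀ (Localization.AtPrime s) θ})
    (hinf : P1 ⊓ P2 = Ideal.span {(q : C₀)})
    (hsurj1 : ∀ c : C₀, ∃ d ∉ s, ∃ a : S₀,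
      algebraMap S₀ C₀ d * c - algebraMap S₀ C₀ a ∈ P1)
    (hcomap1 : ∀ a : S₀, algebraMap S₀ C₀ a ∈ P1 → ∃ d ∉ s, (q : S₀) ∣ d * a)
    (hx1 : x ∈ P1) (hx2 : x ∉ P2) (hxpow : x ^ q - algebraMap S₀ C₀ θ ∈ P2)
    (hfrac2 : ∀ c : C₀, ∃ d f : S₀[X], aeval x d ∉ P2 ∧ aeval x d * c - aeval x f ∈ P2)
    (hunr : ∀ Q : Ideal C₀, Q.IsPrime → (q : C₀) ∉ Q → Q.comap (algebraMap S₀ C₀) ≤ s →
      ∀ a ∈ Q, ∃ b ∉ Q, b * a ∈ Ideal.map (algebraMap S₀ C₀) (Q.comap (algebraMap S₀ C₀)))
    (x₀ : Ideal C₀) [x₀.IsPrime] (hx₀ : x₀.comap (algebraMap S₀ C₀) = s)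
    (h1 : P1 ≤ x₀) (h2 : P2 ≤ x₀) :
    ∃ J b : Localization.AtPrime x₀, J * b = (q : Localization.AtPrime x₀) ∧
      maximalIdeal (Localization.AtPrime x₀) = Ideal.span {J, b} ∧
      P2.map (algebraMap C₀ (Localization.AtPrime x₀)) = Ideal.span {J} ∧
      P1.map (algebraMap C₀ (Localization.AtPrime x₀)) = Ideal.span {b} := by
  set S := Localization.AtPrime s with hS
  set R := Localization (Algebra.algebraMapSubmonoid C₀ s.primeCompl) with hR
  have hP1 : P1.comap (algebraMap S₀ C₀) ≤ s := fun d hd => hx₀ ▸ (h1 hd : algebraMap S₀ C₀ d ∈ x₀)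
  have hP2 : P2.comap (algebraMap S₀ C₀) ≤ s := fun d hd => hx₀ ▸ (h2 hd : algebraMap S₀ C₀ d ∈ x₀)
  haveI : IsDomain S := isDomain_base s S
  haveI : IsDomain R := isDomain_loc s R hinj
  haveI : IsNoetherianRing S := isNoetherianRing_base s S
  haveI : Module.Finite S R := finite_loc (C₀ := C₀) s S R
  have hpre : PreNode q S R (algebraMap S₀ S θ) (P1.map (algebraMap C₀ R))
      (P2.map (algebraMap C₀ R)) (algebraMap C₀ R x) :=
    preNode_of_chart s S R hinj q hq.two_le θ x P1 P2 hP1 hP2 hprime hmax hinf hsurj1 hcomap1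
      hx1 hx2 hxpow hfrac2
  rcases hpre.dichotomy with hsplit | ⟨hloc, hnode⟩
  · exfalso
    have hne : x₀.map (algebraMap C₀ R) ≠ ⊤ :=
      (IsLocalization.map_algebraMap_ne_top_iff_disjoint
        (Algebra.algebraMapSubmonoid C₀ s.primeCompl) R x₀).mpr
        (disjoint_of_comap_le s x₀ hx₀.le)
    apply hne
    rw [eq_top_iff, ← hsplit]
    exact sup_le (Ideal.map_mono h1) (Ideal.map_mono h2)
  · haveI := hloc
    obtain ⟨J, b, hJb, hm, hJ2, hb1⟩ :=
      regular_of_nodeHyp hq hnode (hunr_of_chart_le s S R q hunr)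
    haveI : IsLocalization.AtPrime R x₀ := isLocalization_atPrime_of_isLocalRing s R x₀ hx₀
    obtain ⟨e1, e2⟩ := regular_atPrime x₀ R q J b hJb hm
    exact ⟨_, _, e1, e2, map_atPrime_eq_span x₀ R P2 J hJ2, map_atPrime_eq_span x₀ R P1 b hb1⟩

end Final

end Fermat.Agent.S34.H36
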