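import Mathlib

/-!
# The Kronecker parameter at a crossing point (helper36; Program B', S34)

`S` a local ring with maximal ideal `(a, t)` (in the application: `a = q`, `t` a lift of a local
parameter of the special fibre of the level-`M` chart at a closed point).  The Kronecker element
is `θ = t - H ^ k` (`H = s₀⁻² t`, `k = q²`).  If `θ` lies in the maximal ideal (automatic at a
crossing point), then `m_S = (a, θ)`: this is the field `max_S` of `PreNode` / `NodeHyp`, with no
rationality hypothesis on the closed point.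
-/

set_option autoImplicit false

namespace Fermat.Agent.S34.H36

open IsLocalRing

/-- **(MAXS)** If `m_S = (a, t)`, `θ = t - H ^ k` with `2 ≤ k` and `θ ∈ m_S`, then
`m_S = (a, θ)`. -/
theorem maximalIdeal_eq_span_pair_of_sub_pow {S : Type*} [CommRing S] [IsLocalRing S]
    (a t θ H : S) (k : ℕ) (hk : 2 ≤ k) (hmax : maximalIdeal S = Ideal.span {a, t})
    (hθ : θ ∈ maximalIdeal S) (hθt : θ = t - H ^ k) :
    maximalIdeal S = Ideal.span {a, θ} := by
  have htm : t ∈ maximalIdeal S := by
    rw [hmax]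
    exact Ideal.subset_span (Set.mem_insert_of_mem _ rfl)
  have ham : a ∈ maximalIdeal S := by
    rw [hmax]
    exact Ideal.subset_span (Set.mem_insert _ _)
  have hHk : H ^ k ∈ maximalIdeal S := by
    have h1 : H ^ k = t - θ := by rw [hθt]; ring
    rw [h1]
    exact Ideal.sub_mem _ htm hθ
  have hH : H ∈ maximalIdeal S :=
    (IsLocalRing.maximalIdeal.isMaximal S).isPrime.mem_of_pow_mem _ hHk
  have hH' := hH
  rw [hmax] at hH'
  obtain ⟨α, β, hαβ⟩ := Ideal.mem_span_pair.mp hH'
  obtain ⟨k', rfl⟩ : ∃ k', k = k' + 2 := ⟨k - 2, by omega⟩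
  -- `t * (1 - H^(k'+1) * β) = θ + H^(k'+1) * α * a`
  have hu : IsUnit (1 - H ^ (k' + 1) * β) := by
    have h1 : H ^ (k' + 1) * β ∈ maximalIdeal S :=
      Ideal.mul_mem_right _ _ (Ideal.pow_mem_of_mem _ hH _ (Nat.succ_pos _))
    by_contra hnu
    have h2 : 1 - H ^ (k' + 1) * β ∈ maximalIdeal S := (IsLocalRing.mem_maximalIdeal _).mpr hnu
    have h3 := Ideal.add_mem _ h2 h1
    rw [sub_add_cancel] at h3
    exact (IsLocalRing.maximalIdeal.isMaximal S).ne_top ((Ideal.eq_top_iff_one _).mpr h3)
  have hkey : t * (1 - H ^ (k' + 1) * β) = θ + H ^ (k' + 1) * α * a := by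
    have h1 : H ^ (k' + 2) = H ^ (k' + 1) * (α * a + β * t) := by
      rw [hαβ, ← pow_succ]
    rw [hθt, h1]
    ring
  obtain ⟨v, hv⟩ := hu.exists_right_inv
  have ht : t = (θ + H ^ (k' + 1) * α * a) * v := by
    rw [← hkey, mul_assoc, hv, mul_one]
  apply le_antisymm
  · rw [hmax, Ideal.span_le]
    intro z hz
    rcases hz with rfl | hz
    · exact Ideal.subset_span (Set.mem_insert _ _)
    · rw [Set.mem_singleton_iff.mp hz, ht]
      refine Ideal.mul_mem_right _ _ (Ideal.add_mem _ ?_ ?_)
      · exact Ideal.subset_span (Set.mem_insert_of_mem _ rfl)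
      · exact Ideal.mul_mem_left _ _ (Ideal.subset_span (Set.mem_insert _ _))
  · rw [Ideal.span_le]
    intro z hz
    rcases hz with rfl | hz
    · exact ham
    · rw [Set.mem_singleton_iff.mp hz]
      exact hθ

end Fermat.Agent.S34.H36
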